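import Mathlib
import Fermat.Prelude.Def_AlgebraicCurve_CanonicalDivisor

/-!
# S24: shared definitions for the general theory of function fields of one variable
-/

set_option autoImplicit false

namespace Fermat.Agent.S24

open AlgebraicCurve IntermediateField

variable (K F : Type*) [Field K] [Field F] [Algebra K F]

/-- `F / K` is a function field of one variable. -/
def IsFF : Prop := ∃ x : F, Transcendental K x ∧ FiniteDimensional K⟮x⟯ F

variable {K F}

/-- The places of `F / K` at which `y` vanishes. -/
def zerosOf (K : Type*) {F : Type*} [Field K] [Field F] [Algebra K F] (y : F) : Set (Place K F) :=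
  {v | 0 < v.ord y}

/-- The polynomial ring `K[y]` inside `F`. -/
abbrev polyRing (K : Type*) {F : Type*} [Field K] [Field F] [Algebra K F] (y : F) :
    Subalgebra K F := Algebra.adjoin K {y}

/-- The integral closure of `K[y]` in `F`. -/
abbrev intRing (K : Type*) {F : Type*} [Field K] [Field F] [Algebra K F] (y : F) :
    Subalgebra (polyRing K y) F := integralClosure (polyRing K y) F

end Fermat.Agent.S24
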