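import Fermat.Agent.S20.Defs
import Fermat.Agent.S23.Nice
import Fermat.Agent.S24.Defs
import Fermat.Prelude.Def_ModularCurve_ArithmeticGalois

/-!
# S24: shared definitions for the modular side
-/

set_option autoImplicit false

namespace Fermat.Agent.S24

open UpperHalfPlane ModularForm EisensteinSeries Filter Topology CongruenceSubgroup ModularCurve
open Fermat.Agent.S20 Fermat.Agent.S23
open scoped MatrixGroups Manifold ModularForm

/-- `ℚ̄`. -/
abbrev Kb : Type := AlgebraicClosure ℚ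

/-- A fixed embedding `ℚ̄ → ℂ`. -/
noncomputable def iota : Kb →+* ℂ :=
  letI : Algebra ℚ (AlgebraicClosure ℚ) := AlgebraicClosure.instAlgebra ℚ
  haveI : Algebra.IsAlgebraic ℚ (AlgebraicClosure ℚ) := AlgebraicClosure.isAlgebraic ℚ
  (IsAlgClosed.lift (R := ℚ) (S := AlgebraicClosure ℚ) (M := ℂ)).toRingHom

/-- `ℂ` as a `ℚ̄`-algebra via `iota` (activate with `attribute [local instance] algKbC`). -/
@[reducible] noncomputable def algKbC : Algebra Kb ℂ := iota.toAlgebra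

/-- Coefficientwise embedding `ℚ̄((q)) → ℂ((q))`. -/
noncomputable def iotaL : LaurentSeries Kb →+* LaurentSeries ℂ := coeffMap iota

/-- The `q`-expansion of a function on `ℍ` as a Laurent series. -/
noncomputable def qLf (G : ℍ → ℂ) : LaurentSeries ℂ :=
  HahnSeries.ofPowerSeries ℤ ℂ (qExpansion 1 G)

/-- The `q`-expansion has rational coefficients. -/
def IsRatQ (G : ℍ → ℂ) : Prop := ∀ n : ℕ, ∃ r : ℚ, (qExpansion 1 G).coeff n = (r : ℂ)

/-- The function field `ℚ̄(j(q^d) : d ∣ N)`. -/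
noncomputable abbrev FN (N : ℕ) : IntermediateField Kb (LaurentSeries Kb) := modularFunctionFieldBar N

/-- `j` as an element of `ℚ̄((q))`. -/
noncomputable def jS : LaurentSeries Kb := coeffEmb Kb jq

/-- exponent of `E₄` in the monomial making weight `w` divisible by `12` -/
def aExp (w : ℤ) : ℕ := ((w / 2) % 3).toNat

/-- exponent of `E₆` in the monomial making weight `w` divisible by `12` -/
def bExp (w : ℤ) : ℕ := ((w / 2) % 2).toNat

/-- `w + 4 aExp w + 6 bExp w = 12 nExp w` for even `w ≥ 0`. -/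
def nExp (w : ℤ) : ℕ := ((w + 4 * aExp w + 6 * bExp w) / 12).toNat

/-- The monomial `E₄^a E₆^b`. -/
noncomputable def mono (w : ℤ) : ℍ → ℂ := (⇑E₄ : ℍ → ℂ) ^ aExp w * (⇑E₆ : ℍ → ℂ) ^ bExp w

/-- A basis `(P, Q)` of the level one forms of weight `12`, with rational `q`-expansions.
`(Δ, E₄³)` is used for the finite fibres of `j = Q / P`, `(E₄³, Δ)` for the fibre over `∞`. -/
structure Pair where
  P : ℍ → ℂ
  Q : ℍ → ℂ
  PS : LaurentSeries Kb
  QS : LaurentSeries Kb
  hP : P ∈ MFs ⊤ 12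
  hQ : Q ∈ MFs ⊤ 12
  hPS : iotaL PS = qLf P
  hQS : iotaL QS = qLf Q
  P_ne : P ≠ 0
  span : ∀ (m : ℕ) (r : ℍ → ℂ), r ∈ MFs ⊤ (12 * m) →
    ∃ c : ℕ → ℂ, r = ∑ i ∈ Finset.range (m + 1), c i • (P ^ (m - i) * Q ^ i)

/-- The coordinate `t = Q / P` in `ℚ̄((q))`. -/
noncomputable def Pair.t (pr : Pair) : LaurentSeries Kb := pr.QS / pr.PS

/-- `s ∈ ℚ̄((q))` is `G / P ^ m` with `G` a modular form of weight `12 m` for `H`. -/
def IsRep (pr : Pair) (H : Subgroup SL(2, ℤ)) (s : LaurentSeries Kb) (m : ℕ) (G : ℍ → ℂ) : Prop :=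
  G ∈ MFs H (12 * m) ∧ iotaL s * qLf pr.P ^ m = qLf G

/-- All conjugates of all modular forms have a limit along `l` (`l = pure z` or `atImInfty`). -/
def HasLims (H : Subgroup SL(2, ℤ)) (l : Filter ℍ) : Prop :=
  ∀ (k : ℤ) (F : ℍ → ℂ), F ∈ MFs H k → ∀ x : Cos H, ∃ c : ℂ, Tendsto (vec H k F x) l (𝓝 c)

end Fermat.Agent.S24
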