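import Fermat.Agent.S24.Residue

/-!
# S24, package FF-3: places of `F` and primes of the integral closure of `K[y]`
-/

set_option autoImplicit false
set_option linter.unusedSectionVars false
set_option linter.unusedVariables false

namespace Fermat.Agent.S24

open AlgebraicCurve IntermediateField IsDedekindDomain
open scoped IntermediateField.algebraAdjoinAdjoin

variable {K F : Type*} [Field K] [Field F] [Algebra K F]

/-- `y` as an element of `intRing K y`. -/
def genInt (K : Type*) {F : Type*} [Field K] [Field F] [Algebra K F] (y : F) : intRing K y :=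
  ⟨y, (integralClosure (polyRing K y) F).algebraMap_mem
    ⟨y, Algebra.self_mem_adjoin_singleton K y⟩⟩

/-- `ord` can be computed from any normalised `ℤᵐ⁰`-valued valuation with the same valuation
ring. -/
theorem primes_ord_eq_of_valuation (v : Place K F) (w : Valuation F (WithZero (Multiplicative ℤ)))
    (hw : w.valuationSubring = v.toValuationSubring) (π : F) (hπ : w π = WithZero.exp (-1 : ℤ))
    (f : F) : v.ord f = -(WithZero.log (w f)) := by
  have mem_iff : ∀ x, x ∈ v.toValuationSubring ↔ w x ≤ 1 := fun x => by
    rw [← hw]; exact Valuation.mem_valuationSubring_iff _ _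
  have hunit : ∀ u : v.toValuationSubringˣ, w ((u : v.toValuationSubring) : F) = 1 := by
    intro u
    have h1 : w ((u : v.toValuationSubring) : F) ≤ 1 := (mem_iff _).mp (u : v.toValuationSubring).2
    have h2 : w (((u⁻¹ : v.toValuationSubringˣ) : v.toValuationSubring) : F) ≤ 1 :=
      (mem_iff _).mp ((u⁻¹ : v.toValuationSubringˣ) : v.toValuationSubring).2
    have h3 : ((u : v.toValuationSubring) : F) *
        (((u⁻¹ : v.toValuationSubringˣ) : v.toValuationSubring) : F) = 1 := by
      exact congrArg (Subtype.val) (u.mul_inv)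
    have h4 := congrArg w h3
    rw [map_mul, map_one] at h4
    exact eq_one_of_one_le_mul_left h1 h2 h4.ge
  obtain ⟨ϖ, hϖ⟩ := IsDiscreteValuationRing.exists_irreducible v.toValuationSubring
  have hϖ0 : (ϖ : F) ≠ 0 := by
    simpa [ne_eq, ZeroMemClass.coe_eq_zero] using hϖ.ne_zero
  have hwϖ0 : w (ϖ : F) ≠ 0 := (Valuation.ne_zero_iff _).mpr hϖ0
  have key : ∀ g : F, g ≠ 0 → WithZero.log (w g) = v.ord g * WithZero.log (w (ϖ : F)) := by
    intro g hg
    obtain ⟨u, hu⟩ := v.exists_unit_mul_zpow hg hϖ
    conv_lhs => rw [hu]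
    rw [map_mul, hunit u, one_mul, map_zpow₀, WithZero.log_zpow, smul_eq_mul]
  have hlt : WithZero.log (w (ϖ : F)) < 0 := by
    rw [WithZero.log_lt_iff_lt_exp hwϖ0, WithZero.exp_zero]
    by_contra hge
    rw [not_lt] at hge
    have h1 : w (ϖ : F)⁻¹ ≤ 1 := by
      rw [map_inv₀]
      exact inv_le_one_of_one_le₀ hge
    have h2 : (ϖ : F)⁻¹ ∈ v.toValuationSubring := (mem_iff _).mpr h1
    apply hϖ.not_isUnit
    refine IsUnit.of_mul_eq_one ⟨(ϖ : F)⁻¹, h2⟩ ?_
    ext
    simp [hϖ0]
  have hπ0 : π ≠ 0 := by
    rintro rfl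
    rw [map_zero] at hπ
    exact WithZero.exp_ne_zero hπ.symm
  have h1 := key π hπ0
  rw [hπ, WithZero.log_exp] at h1
  have h2 : WithZero.log (w (ϖ : F)) = -1 := by
    rcases Int.mul_eq_neg_one_iff_eq_one_or_neg_one.mp h1.symm with ⟨_, h⟩ | ⟨_, h⟩
    · exact h
    · omega
  rcases eq_or_ne f 0 with rfl | hf
  · simp
  · rw [key f hf, h2]; ring

theorem primes_polyRing_le {y : F} (v : Place K F) (hv : y ∈ v.toValuationSubring) (a : polyRing K y) :
    (a : F) ∈ v.toValuationSubring := by
  let O : Subalgebra K F :=
    { v.toValuationSubring.toSubring with algebraMap_mem' := v.algebraMap_mem' }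
  have h : polyRing K y ≤ O := Algebra.adjoin_le (Set.singleton_subset_iff.mpr hv)
  exact h a.2

theorem primes_intRing_le {y : F} (v : Place K F) (hv : y ∈ v.toValuationSubring) (b : intRing K y) :
    (b : F) ∈ v.toValuationSubring := by
  obtain ⟨p, hp, hpb⟩ : IsIntegral (polyRing K y) (b : F) := b.2
  let φ : polyRing K y →+* v.toValuationSubring :=
    (algebraMap (polyRing K y) F).codRestrict v.toValuationSubring.toSubring
      (primes_polyRing_le v hv)
  have hint : IsIntegral v.toValuationSubring (b : F) := by
    refine ⟨p.map φ, hp.map φ, ?_⟩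
    rw [Polynomial.eval₂_map]
    exact hpb
  obtain ⟨c, hc⟩ := IsIntegrallyClosed.algebraMap_eq_of_integral hint
  rw [← hc]
  exact c.2

variable [CharZero K] {y : F}

theorem isPrincipalIdealRing_polyRing (hy : Transcendental K y) :
    IsPrincipalIdealRing (polyRing K y) :=
  IsPrincipalIdealRing.of_surjective (Polynomial.algEquivOfTranscendental K y hy).toRingEquiv.toRingHom
    (Polynomial.algEquivOfTranscendental K y hy).surjective


theorem isDedekindDomain_intRing (hy : Transcendental K y) [FiniteDimensional K⟮y⟯ F] :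
    IsDedekindDomain (intRing K y) := by
  have := isPrincipalIdealRing_polyRing hy
  exact integralClosure.isDedekindDomain (polyRing K y) K⟮y⟯ F

theorem isFractionRing_intRing (hy : Transcendental K y) [FiniteDimensional K⟮y⟯ F] :
    IsFractionRing (intRing K y) F := 
  integralClosure.isFractionRing_of_finite_extension K⟮y⟯ F

theorem finite_intRing (hy : Transcendental K y) [FiniteDimensional K⟮y⟯ F] :
    Module.Finite (polyRing K y) (intRing K y) := by
  have := isPrincipalIdealRing_polyRing hy
  exact IsIntegralClosure.finite (polyRing K y) K⟮y⟯ F (intRing K y)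

theorem free_intRing (hy : Transcendental K y) [FiniteDimensional K⟮y⟯ F] :
    Module.Free (polyRing K y) (intRing K y) := by
  have := isPrincipalIdealRing_polyRing hy
  exact IsIntegralClosure.module_free (polyRing K y) K⟮y⟯ F (intRing K y)

theorem finrank_intRing (hy : Transcendental K y) [FiniteDimensional K⟮y⟯ F] :
    Module.finrank (polyRing K y) (intRing K y) = Module.finrank K⟮y⟯ F := by
  have := isPrincipalIdealRing_polyRing hy
  exact IsIntegralClosure.rank (polyRing K y) K⟮y⟯ F (intRing K y)

section

variable [IsDedekindDomain (intRing K y)] [IsFractionRing (intRing K y) F]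

/-- FF-3a: `ord` at the place attached to a prime is the `P`-adic valuation. -/
theorem ord_ofHeightOneSpectrum (P : HeightOneSpectrum (intRing K y)) (f : F) :
    (Place.ofHeightOneSpectrum (K := K) (F := F) P).ord f = -(WithZero.log (P.valuation F f)) := by
  obtain ⟨π, hπ⟩ := P.valuation_exists_uniformizer F
  exact primes_ord_eq_of_valuation _ (P.valuation F) rfl π hπ f

theorem primes_mem_asIdeal_iff (P : HeightOneSpectrum (intRing K y)) (b : intRing K y) :
    b ∈ P.asIdeal ↔ b = 0 ∨ (b : F)⁻¹ ∉ (P.valuation F).valuationSubring := by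
  rw [← P.valuation_lt_one_iff_mem (K := F), Valuation.mem_valuationSubring_iff]
  change P.valuation F (b : F) < 1 ↔ _
  rcases eq_or_ne b 0 with rfl | hb
  · simp
  · have hb' : (b : F) ≠ 0 := by simpa using hb
    have h0 : P.valuation F (b : F) ≠ 0 := (Valuation.ne_zero_iff _).mpr hb'
    simp only [hb, false_or, map_inv₀, not_le]
    rw [one_lt_inv₀ (zero_lt_iff.mpr h0)]

theorem ofHeightOneSpectrum_injective :
    Function.Injective
      (fun P : HeightOneSpectrum (intRing K y) => Place.ofHeightOneSpectrum (K := K) (F := F) P) := by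
  intro P Q h
  have h' : (P.valuation F).valuationSubring = (Q.valuation F).valuationSubring :=
    congrArg Place.toValuationSubring h
  ext b
  rw [primes_mem_asIdeal_iff, primes_mem_asIdeal_iff, h']

theorem mem_toValuationSubring_ofHeightOneSpectrum (P : HeightOneSpectrum (intRing K y)) :
    y ∈ (Place.ofHeightOneSpectrum (K := K) (F := F) P).toValuationSubring := by
  rw [Place.ofHeightOneSpectrum_toValuationSubring, Valuation.mem_valuationSubring_iff]
  exact P.valuation_le_one (genInt K y)

theorem ofHeightOneSpectrum_mem_zerosOf_iff (hy0 : y ≠ 0) (P : HeightOneSpectrum (intRing K y)) :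
    Place.ofHeightOneSpectrum (K := K) (F := F) P ∈ zerosOf K y ↔ genInt K y ∈ P.asIdeal := by
  rw [← P.valuation_lt_one_iff_mem (K := F)]
  change 0 < (Place.ofHeightOneSpectrum (K := K) (F := F) P).ord y ↔ P.valuation F y < 1
  have h0 : P.valuation F y ≠ 0 := (Valuation.ne_zero_iff _).mpr hy0
  rw [ord_ofHeightOneSpectrum, neg_pos, WithZero.log_lt_iff_lt_exp h0, WithZero.exp_zero]

/-- FF-3b: every place whose valuation ring contains `y` comes from a prime of `intRing K y`:
`B = intRing K y ⊆ O_v` (valuation rings are integrally closed), `P = m_v ∩ B ≠ 0`, `B_P ⊆ O_v`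
and a DVR is a maximal proper subring of its fraction field. -/
theorem exists_heightOneSpectrum (v : Place K F) (hv : y ∈ v.toValuationSubring) :
    ∃ P : HeightOneSpectrum (intRing K y), v = Place.ofHeightOneSpectrum (K := K) (F := F) P := by
  let ι : intRing K y →+* v.toValuationSubring :=
    (algebraMap (intRing K y) F).codRestrict v.toValuationSubring.toSubring
      (primes_intRing_le v hv)
  let 𝔭 : Ideal (intRing K y) := Ideal.comap ι (IsLocalRing.maximalIdeal v.toValuationSubring)
  have hinv : ∀ b : intRing K y, b ∉ 𝔭 → (b : F)⁻¹ ∈ v.toValuationSubring := by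
    intro b hb
    have hu : IsUnit (ι b) := by
      by_contra hnu
      exact hb ((IsLocalRing.mem_maximalIdeal _).mpr hnu)
    obtain ⟨u, hu⟩ := hu
    have h1 : ((u : v.toValuationSubring) : F) = (b : F) := by rw [hu]; rfl
    have h2 : ((u : v.toValuationSubring) : F) *
        (((u⁻¹ : v.toValuationSubringˣ) : v.toValuationSubring) : F) = 1 :=
      congrArg (Subtype.val) (u.mul_inv)
    rw [h1] at h2
    rw [← eq_inv_of_mul_eq_one_right h2]
    exact ((u⁻¹ : v.toValuationSubringˣ) : v.toValuationSubring).2
  have hne : 𝔭 ≠ ⊥ := by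
    intro hbot
    apply v.ne_top'
    refine SetLike.ext fun f => ⟨fun _ => ValuationSubring.mem_top f, fun _ => ?_⟩
    obtain ⟨a, b, hb, rfl⟩ := IsFractionRing.div_surjective (A := intRing K y) f
    have hb0 : b ∉ 𝔭 := by
      rw [hbot, Ideal.mem_bot]
      exact nonZeroDivisors.ne_zero hb
    rw [div_eq_mul_inv]
    exact v.toValuationSubring.mul_mem _ _ (primes_intRing_le v hv a) (hinv b hb0)
  have hprime : 𝔭.IsPrime := Ideal.comap_isPrime ι _
  refine ⟨⟨𝔭, hprime, hne⟩, ?_⟩
  apply Place.ext
  rw [Place.ofHeightOneSpectrum_toValuationSubring,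
    ← HeightOneSpectrum.valuationSubringAtPrime_eq_valuationSubring]
  symm
  refine ValuationSubring.eq_of_le_of_ne_top _ ?_ v.ne_top'
  intro x hx
  rw [HeightOneSpectrum.valuationSubringAtPrime_eq_valuationSubring,
    Valuation.mem_valuationSubring_iff] at hx
  obtain ⟨n, d, hnd⟩ := HeightOneSpectrum.exists_primeCompl_mul_eq_of_integer _ x hx
  have hd : (d : intRing K y) ∉ 𝔭 := d.2
  have hd0 : ((d : intRing K y) : F) ≠ 0 := by
    intro h0
    apply hd
    have : (d : intRing K y) = 0 := by exact_mod_cast h0
    rw [this]; exact 𝔭.zero_mem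
  have hx' : x = (n : F) * ((d : intRing K y) : F)⁻¹ := by
    rw [eq_mul_inv_iff_mul_eq₀ hd0]
    exact hnd
  rw [hx']
  exact v.toValuationSubring.mul_mem _ _ (primes_intRing_le v hv n) (hinv _ hd)

end

theorem primes_essFiniteType_aux (hy : Transcendental K y) [FiniteDimensional K⟮y⟯ F]
    [IsDedekindDomain (intRing K y)] [IsFractionRing (intRing K y) F]
    (P : HeightOneSpectrum (intRing K y)) (O : ValuationSubring F)
    (hK : ∀ a : K, algebraMap K F a ∈ O)
    (hO : O = HeightOneSpectrum.valuationSubringAtPrime F P) :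
    @Algebra.EssFiniteType K O _ _ ((algebraMap K F).codRestrict O.toSubring hK).toAlgebra := by
  subst hO
  let _ : Algebra K (HeightOneSpectrum.valuationSubringAtPrime F P) :=
    ((algebraMap K F).codRestrict (HeightOneSpectrum.valuationSubringAtPrime F P).toSubring
      hK).toAlgebra
  have : IsScalarTower K (intRing K y) (HeightOneSpectrum.valuationSubringAtPrime F P) :=
    IsScalarTower.of_algebraMap_eq fun _ => rfl
  have h1 : Algebra.FiniteType K (polyRing K y) :=
    (Subalgebra.fg_iff_finiteType _).mp (by
      have := Subalgebra.fg_adjoin_finset (R := K) ({y} : Finset F)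
      simpa using this)
  have h2 := finite_intRing hy
  have h3 : Algebra.FiniteType K (intRing K y) :=
    Algebra.FiniteType.trans h1 inferInstance
  have h4 : Algebra.EssFiniteType (intRing K y) (HeightOneSpectrum.valuationSubringAtPrime F P) :=
    Algebra.EssFiniteType.of_isLocalization _ P.asIdeal.primeCompl
  exact Algebra.EssFiniteType.comp K (intRing K y) _

/-- FF-3c: the valuation ring of a place is essentially of finite type over `K`
(it is the localisation at a prime of `intRing K y`, `y = x` or `x⁻¹`, which is a finite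
`K[y]`-module). -/
theorem IsFF.essFiniteType_place (h : IsFF K F) (v : Place K F) :
    Algebra.EssFiniteType K v.toValuationSubring := by
  obtain ⟨x, hx, hfin⟩ := h
  obtain ⟨y, hy, hyv⟩ : ∃ y : F, Transcendental K y ∧ y ∈ v.toValuationSubring := by
    rcases v.toValuationSubring.mem_or_inv_mem x with h | h
    · exact ⟨x, hx, h⟩
    · exact ⟨x⁻¹, transcendental_inv hx, h⟩
  have : FiniteDimensional K⟮y⟯ F := IsFF.finiteDimensional ⟨x, hx, hfin⟩ hy
  have := isDedekindDomain_intRing hy
  have := isFractionRing_intRing hy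
  obtain ⟨P, rfl⟩ := exists_heightOneSpectrum v hyv
  exact primes_essFiniteType_aux hy P _ _
    (HeightOneSpectrum.valuationSubringAtPrime_eq_valuationSubring P).symm

end Fermat.Agent.S24
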