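import Fermat.Agent.S24.QL
import Fermat.Agent.S23.SepFormQ
import Fermat.Agent.S20.FreeFam
import Fermat.Agent.S20.LevelOne
import Fermat.Agent.S28.Formal
import Fermat.Agent.S28.QExp

/-!
# S24, package MF-B: the forms `F(d z)` on `Γ₀(N)`, `d ∣ N`, and `j(q^d)`
(model: `S23.SepFormQ`; `S28.QExp` for the `q`-expansions of `E₄`, `Δ`)
-/

set_option autoImplicit false

namespace Fermat.Agent.S24

open UpperHalfPlane ModularForm EisensteinSeries Filter Topology CongruenceSubgroup ModularCurve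
open Fermat.Agent.S20 Fermat.Agent.S23
open scoped MatrixGroups Manifold ModularForm Pointwise

/-- `z ↦ F (d z)`. -/
noncomputable def lev (d : ℕ) (F : ℍ → ℂ) : ℍ → ℂ := fun z => F (sepAlpha d • z)

variable {N d : ℕ} [NeZero N] [NeZero d] {k : ℤ} {F : ℍ → ℂ}

omit [NeZero N] [NeZero d] in
lemma lev_Gamma0_le (hd : d ∣ N) : Gamma0 N ≤ Gamma0 d := by
  intro γ hγ
  rw [Gamma0_mem, ZMod.intCast_zmod_eq_zero_iff_dvd] at hγ ⊢
  exact (Int.natCast_dvd_natCast.mpr hd).trans hγ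

theorem lev_mem (hd : d ∣ N) (hF : F ∈ MFs ⊤ k) : lev d F ∈ MFs (Gamma0 N) k := by
  obtain ⟨f, rfl⟩ := exists_modularForm_of_mem_MFs_top hF
  have hle : (Gamma0 N : Subgroup (GL (Fin 2) ℝ)) ≤ ConjAct.toConjAct (sepAlpha d)⁻¹ • 𝒮ℒ :=
    (Subgroup.map_mono (lev_Gamma0_le hd)).trans (sep_Gamma0_le d)
  have h1 := mf_coe_mem_MFs (Gamma0 N) (restrictMF hle (ModularForm.translate f (sepAlpha d)))
  have hd0 : (d : ℂ) ^ (k - 1) ≠ 0 := zpow_ne_zero _ (Nat.cast_ne_zero.mpr (NeZero.ne d))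
  have h2 : lev d ⇑f = ((d : ℂ) ^ (k - 1))⁻¹ •
      ⇑(restrictMF hle (ModularForm.translate f (sepAlpha d))) := by
    ext z
    have : (restrictMF hle (ModularForm.translate f (sepAlpha d))) z =
        (⇑f ∣[k] sepAlpha d) z := rfl
    rw [Pi.smul_apply, this, sepAlpha, slash_heckeDiagMatrix_apply _ (NeZero.ne d), smul_eq_mul,
      inv_mul_cancel_left₀ hd0]
    rfl
  rw [h2]
  exact Submodule.smul_mem _ _ h1

/-- the coefficients of `F (d z)`. -/
lemma lev_hasSum (hF : F ∈ MFs ⊤ k) (τ : ℍ) :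
    HasSum (fun m : ℕ => (if d ∣ m then (qExpansion 1 F).coeff (m / d) else 0) •
      Function.Periodic.qParam 1 (τ : ℂ) ^ m) (lev d F τ) := by
  obtain ⟨f, rfl⟩ := exists_modularForm_of_mem_MFs_top hF
  have h := ModularForm.hasSum_qExpansion (f := f) one_pos one_mem_strictPeriods_SL
    (sepAlpha d • τ)
  rw [sepq_qParam] at h
  have hpos : 0 < d := Nat.pos_of_ne_zero (NeZero.ne d)
  have hinj : Function.Injective (fun m : ℕ => d * m) := fun a b hab =>
    Nat.eq_of_mul_eq_mul_left hpos hab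
  rw [← hinj.hasSum_iff]
  · have hfun : ((fun m : ℕ => (if d ∣ m then (qExpansion 1 ⇑f).coeff (m / d) else 0) •
        Function.Periodic.qParam 1 (τ : ℂ) ^ m) ∘ fun m => d * m) =
        fun i => ((PowerSeries.coeff i) (qExpansion 1 ⇑f) •
          (Function.Periodic.qParam 1 (τ : ℂ) ^ d) ^ i) := by
      funext m
      simp only [Function.comp, dvd_mul_right, if_true,
        Nat.mul_div_cancel_left _ hpos, smul_eq_mul, pow_mul]
    rw [hfun]
    exact h
  · intro n hn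
    have : ¬ d ∣ n := fun ⟨m, hm⟩ => hn ⟨m, hm.symm⟩
    simp [this]

lemma lev_coeff (hF : F ∈ MFs ⊤ k) (n : ℕ) :
    (qExpansion 1 (lev d F)).coeff n = if d ∣ n then (qExpansion 1 F).coeff (n / d) else 0 := by
  obtain ⟨g, hg⟩ := exists_modularForm_of_mem_MFs (lev_mem (N := d) (dvd_refl d) hF)
  rw [← hg]
  refine (ModularFormClass.qExpansion_coeff_unique (f := g)
    (c := fun n => if d ∣ n then (qExpansion 1 F).coeff (n / d) else 0) one_pos
    (one_mem_strictPeriods_Gamma0 d) (fun τ => ?_) n).symm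
  rw [hg]
  exact lev_hasSum hF τ

theorem qLf_lev (hF : F ∈ MFs ⊤ k) : qLf (lev d F) = qExpand ℂ d (qLf F) := by
  have hpos : 0 < d := Nat.pos_of_ne_zero (NeZero.ne d)
  ext n
  by_cases hn : (d : ℤ) ∣ n
  · obtain ⟨m, rfl⟩ := hn
    rw [qExpand_coeff_mul]
    rcases le_or_gt 0 m with hm | hm
    · lift m to ℕ using hm
      rw [qLf, qLf, HahnSeries.ofPowerSeries_apply_coeff, ← Nat.cast_mul,
        HahnSeries.ofPowerSeries_apply_coeff, lev_coeff hF, if_pos (dvd_mul_right _ _),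
        Nat.mul_div_cancel_left _ hpos]
    · rw [qLf, qLf, ofPowerSeries_coeff_of_neg _ hm, ofPowerSeries_coeff_of_neg]
      exact mul_neg_of_pos_of_neg (by exact_mod_cast hpos) hm
  · rw [qExpand_coeff_of_not_dvd _ _ hn]
    rcases le_or_gt 0 n with hm | hm
    · lift n to ℕ using hm
      rw [qLf, HahnSeries.ofPowerSeries_apply_coeff, lev_coeff hF, if_neg]
      exact fun h => hn (Int.natCast_dvd_natCast.mpr h)
    · rw [qLf, ofPowerSeries_coeff_of_neg _ hm]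

set_option linter.unusedSectionVars false in
theorem lev_discriminant_ne_zero (z : ℍ) : lev d discriminant z ≠ 0 :=
  discriminant_ne_zero _

lemma qLf_discriminant : qLf discriminant = Fermat.Agent.S28.DeltaC ℂ := by
  rw [qLf, Fermat.Agent.S28.qExpansion_discriminant, Fermat.Agent.S28.DeltaC, map_mul,
    HahnSeries.ofPowerSeries_X]

lemma qLf_E4_cube : qLf ((⇑E₄ : ℍ → ℂ) ^ 3) = Fermat.Agent.S28.E4cubeC ℂ := by
  rw [qLf_pow (mem_Nice_of_mem_MFs_top E4_mem), qLf, Fermat.Agent.S28.qExpansion_E4,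
    Fermat.Agent.S28.E4cubeC, map_pow, map_pow]

lemma E4_cube_mem_MFs : ((⇑E₄ : ℍ → ℂ) ^ 3) ∈ MFs ⊤ 12 := pow_mem_MFs E4_mem 3

/-- `j(q^d) Δ(d z) = E₄(d z)³`. -/
theorem isQuot_jd :
    iotaL (coeffEmb Kb (qExpand ℚ d jq)) * qLf (lev d discriminant) =
      qLf (lev d ((⇑E₄ : ℍ → ℂ) ^ 3)) := by
  rw [iotaL_coeffEmb, qLf_lev Delta_mem_MFs, qLf_lev E4_cube_mem_MFs, coeffEmb,
    coeffMap_qExpand, ← map_mul, qLf_discriminant, qLf_E4_cube,
    ← Fermat.Agent.S28.jqModC_mul_DeltaC]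
  congr 2
  exact coeffMap_jqModC (R := ℚ) _

end Fermat.Agent.S24
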