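import Fermat.Agent.S28.Assembly
import Fermat.Agent.S20.CombIndex
import Fermat.Prelude.Def_ModularCurve_ArithmeticGalois

/-!
# S24: `[k(X₀(N)) : k(j)] = ψ(N)` from the S28 tower
-/

set_option autoImplicit false
set_option linter.style.haveILetI false

noncomputable section

namespace Fermat.Agent.S24

open ModularCurve Polynomial Fermat.Agent.S28 IntermediateField

section Psi

theorem towerDegree_psi_of_not_dvd {p M : ℕ} (hp : p.Prime) (h : ¬ p ∣ M) :
    dedekindPsi (p * M) = (p + 1) * dedekindPsi M := by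
  rw [Fermat.Agent.S20.dedekindPsi_mul ((Nat.Prime.coprime_iff_not_dvd hp).mpr h)]
  have := Fermat.Agent.S20.dedekindPsi_prime_pow hp 0
  simp only [zero_add, pow_one, pow_zero] at this
  rw [this]

theorem towerDegree_psi_of_dvd {p M : ℕ} (hp : p.Prime) (hM : M ≠ 0) (h : p ∣ M) :
    dedekindPsi (p * M) = p * dedekindPsi M := by
  obtain ⟨e, M', hM', rfl⟩ := Nat.exists_eq_pow_mul_and_not_dvd hM p hp.ne_one
  obtain ⟨a, rfl⟩ : ∃ a, e = a + 1 := by
    cases e with
    | zero => exact absurd (by simpa using h) hM'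
    | succ a => exact ⟨a, rfl⟩
  have hc : ∀ n : ℕ, (p ^ n).Coprime M' := fun n =>
    Nat.Coprime.pow_left n ((Nat.Prime.coprime_iff_not_dvd hp).mpr hM')
  rw [← mul_assoc, ← pow_succ', Fermat.Agent.S20.dedekindPsi_mul (hc _),
    Fermat.Agent.S20.dedekindPsi_mul (hc _), Fermat.Agent.S20.dedekindPsi_prime_pow hp,
    Fermat.Agent.S20.dedekindPsi_prime_pow hp]
  ring

end Psi

section Exists

/-- `exists_tower` of S28, keeping track of the cardinality of the index type. -/
theorem towerDegree_exists_tower (N : ℕ) (hN : N ≠ 0) :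
    ∃ (ι : Type) (_ : Fintype ι) (b : ι → LaurentSeries ℤ),
      Fintype.card ι = dedekindPsi N ∧
      (∀ (k : Type) [Field k] (i : ι),
        coeffMap (Int.castRingHom k) (b i) ∈ modularFunctionFieldFullC k N) ∧
      ∀ (k : Type) [Field k], FieldHyp k N →
        ∃ (E : Type) (_ : Field E) (_ : Algebra k E), Nonempty (TowerData k N b E) := by
  induction N using Nat.strong_induction_on with
  | _ N ih =>
    by_cases hN1 : N = 1
    · subst hN1
      refine ⟨Unit, inferInstance, fun _ => 1, by simp, fun k _ _ => ?_, fun k _ _ => ?_⟩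
      · rw [map_one]; exact one_mem _
      · exact ⟨_, inferInstance, inferInstance, ⟨towerBase k⟩⟩
    · obtain ⟨p, hpdef⟩ : ∃ p, p = N.minFac := ⟨_, rfl⟩
      have hp : p.Prime := hpdef ▸ Nat.minFac_prime hN1
      obtain ⟨M, hM⟩ : p ∣ N := hpdef ▸ Nat.minFac_dvd N
      subst hM
      have hM0 : M ≠ 0 := fun h => hN (by rw [h, mul_zero])
      have hlt : M < p * M := by
        have := Nat.mul_lt_mul_of_pos_right hp.one_lt (Nat.pos_of_ne_zero hM0)
        rwa [one_mul] at this
      obtain ⟨ι, _, b, hcard, hb, hT⟩ := ih M hlt hM0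
      refine ⟨ι × Fin (if p ∣ M then p else p + 1), inferInstance,
        stepFam b (p * M) (if p ∣ M then p else p + 1), ?_, fun k _ ir => ?_, fun k _ hk => ?_⟩
      · rw [Fintype.card_prod, Fintype.card_fin, hcard]
        split_ifs with h
        · rw [towerDegree_psi_of_dvd hp hM0 h, mul_comm]
        · rw [towerDegree_psi_of_not_dvd hp h, mul_comm]
      · haveI : NeZero M := ⟨hM0⟩
        haveI : NeZero (p * M) := ⟨hN⟩
        rw [stepFam, map_mul, map_pow, coeffMap_jce_one]
        refine mul_mem ?_ (pow_mem ?_ _)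
        · exact full_degeneracyC_le k (Dvd.intro_left p rfl) (hb k ir.1)
        · exact jce_one_mem_full k hN dvd_rfl
      · obtain ⟨E, _, _, ⟨T⟩⟩ := hT k (hk.of_dvd (Dvd.intro_left p rfl))
        have hmp : HasModPoly k p := hk.1 p hp (Dvd.intro M rfl)
        obtain ⟨_, ζ, Φ, hζ, hΦ⟩ := hmp
        obtain ⟨g, hirr, hgm, hgd, hgx, hgy⟩ := exists_step_poly T hM0 hp hpdef.symm hζ hΦ
          (fun hpM => hk.2 p M hp dvd_rfl hpM)
        haveI : Fact (Irreducible g) := ⟨hirr⟩
        have hD0 : 0 < (if p ∣ M then p else p + 1) := by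
          split_ifs
          · exact hp.pos
          · omega
        exact ⟨AdjoinRoot g, inferInstance, inferInstance,
          ⟨T.stepCore hM0 hp hpdef.symm (hk.1 p hp (Dvd.intro M rfl))
            (fun r hr hrM => hk.1 r hr (hrM.trans (Dvd.intro_left p rfl))) g hgm _ hgd hD0 hgx hgy⟩⟩

/-- every algebraically closed field in which `N ≠ 0` satisfies `FieldHyp`. -/
theorem towerDegree_fieldHyp (k : Type) [Field k] [IsAlgClosed k] (N : ℕ) (hNk : (N : k) ≠ 0) :
    FieldHyp k N := by
  have H : ∀ (p : ℕ) [NeZero p], p.Prime → (p : k) ≠ 0 →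
      ∃ ζ : kˣ, IsPrimitiveRoot ζ p ∧ ModEq k p ζ := fun p _ hp hpk =>
    modEq_field_of_complex p (zetaC p) (isPrimitiveRoot_zetaC p) (modEq_complex p hp) k hpk
  exact fieldHyp_of N k hNk H
    (fun M _ p _ hp hpM hpk hMk => jp_not_mem_full k M p hp hpM hpk hMk H)

end Exists

section Basis

open scoped IntermediateField.algebraAdjoinAdjoin

variable {k : Type} [Field k] {N : ℕ}

/-- `j` as an element of the function field `k(j(q^d) : d ∣ N)`. -/
def jFullC (k : Type) [Field k] (N : ℕ) : modularFunctionFieldFullC k N :=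
  ⟨jqModC k, jqModC_mem_full k N⟩

theorem coe_aeval_jFullC (P : k[X]) :
    ((aeval (jFullC k N) P : modularFunctionFieldFullC k N) : LaurentSeries k) =
      aeval (jqModC k) P :=
  (Polynomial.aeval_algHom_apply (modularFunctionFieldFullC k N).val (jFullC k N) P).symm

theorem transcendental_jFullC : Transcendental k (jFullC k N) := by
  rw [transcendental_iff_injective]
  intro P Q h
  apply aeval_jqModC_injective (R := k)
  rw [← coe_aeval_jFullC (N := N), ← coe_aeval_jFullC (N := N), h]

theorem aeval_jFullC_mem (P : k[X]) : aeval (jFullC k N) P ∈ k⟮jFullC k N⟯ :=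
  IntermediateField.algebra_adjoin_le_adjoin k _ (Polynomial.aeval_mem_adjoin_singleton k _)

variable {ι : Type} [Fintype ι] {b : ι → LaurentSeries ℤ} {E : Type} [Field E] [Algebra k E]

theorem towerDegree_le_fieldRange (T : TowerData k N b E) :
    modularFunctionFieldFullC k N ≤ T.ιx.fieldRange := by
  rw [modularFunctionFieldFullC, IntermediateField.adjoin_le_iff]
  rintro x ⟨d, hd, hdN, rfl⟩
  haveI := hd
  rw [← qE_apply, ← jce_one_eq]
  exact AlgHom.mem_fieldRange.mpr (T.full d hdN)

/-- the integral family `b` gives a basis of the function field over `k(j)`. -/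
theorem towerDegree_basis (T : TowerData k N b E)
    (hmem : ∀ i, coeffMap (Int.castRingHom k) (b i) ∈ modularFunctionFieldFullC k N) :
    ∃ B : Module.Basis ι k⟮jFullC k N⟯ (modularFunctionFieldFullC k N),
      ∀ i, ((B i : modularFunctionFieldFullC k N) : LaurentSeries k) =
        coeffMap (Int.castRingHom k) (b i) := by
  classical
  set v : ι → modularFunctionFieldFullC k N := fun i => ⟨_, hmem i⟩ with hv
  have hinjx : Function.Injective T.ιx := (T.ιx : E →+* LaurentSeries k).injective
  have hx : ∀ (P : ι → k[X]), T.ιx (∑ i, aeval T.e0 (P i) * T.β i) =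
      ((∑ i, aeval (jFullC k N) (P i) * v i : modularFunctionFieldFullC k N) :
        LaurentSeries k) := by
    intro P
    rw [map_sum, AddSubmonoidClass.coe_finsetSum]
    refine Finset.sum_congr rfl fun i _ => ?_
    rw [map_mul, ← Polynomial.aeval_algHom_apply, T.x_e0, jce_one_one, T.x_β, MulMemClass.coe_mul,
      coe_aeval_jFullC]
  have hliR : LinearIndependent (Algebra.adjoin k {jFullC k N}) v := by
    rw [Fintype.linearIndependent_iff]
    intro g hg i
    have hex : ∀ i, ∃ P : k[X], aeval (jFullC k N) P = (g i : modularFunctionFieldFullC k N) := by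
      intro i
      have h : ∀ y ∈ Algebra.adjoin k {jFullC k N}, ∃ P : k[X], aeval (jFullC k N) P = y := by
        intro y hy
        rw [Algebra.adjoin_singleton_eq_range_aeval] at hy
        exact hy
      exact h _ (g i).2
    choose P hP using hex
    have h0 : ∑ i, aeval T.e0 (P i) * T.β i = 0 := by
      apply hinjx
      rw [hx, map_zero]
      have : (∑ i, aeval (jFullC k N) (P i) * v i : modularFunctionFieldFullC k N) = 0 := by
        rw [← hg]
        refine Finset.sum_congr rfl fun i _ => ?_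
        rw [hP, Subalgebra.smul_def, smul_eq_mul]
      rw [this]; rfl
    have h1 := T.indep P h0 i
    apply Subtype.ext
    rw [← hP, h1, map_zero]; rfl
  have hli : LinearIndependent k⟮jFullC k N⟯ v :=
    (LinearIndependent.iff_fractionRing (Algebra.adjoin k {jFullC k N}) k⟮jFullC k N⟯).mp hliR
  have hsp : ⊤ ≤ Submodule.span k⟮jFullC k N⟯ (Set.range v) := by
    intro x _
    obtain ⟨z, hz⟩ := AlgHom.mem_fieldRange.mp (towerDegree_le_fieldRange T x.2)
    obtain ⟨d, hd, c, hc⟩ := T.span z
    have hd' : aeval (jFullC k N) d ≠ 0 := fun h =>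
      hd ((map_eq_zero_iff _ (transcendental_iff_injective.mp transcendental_jFullC)).mp h)
    have key : aeval (jFullC k N) d * x = ∑ i, aeval (jFullC k N) (c i) * v i := by
      apply Subtype.ext
      rw [← hx, ← hc, map_mul, ← Polynomial.aeval_algHom_apply, T.x_e0, jce_one_one, hz,
        MulMemClass.coe_mul, coe_aeval_jFullC]
    have hxeq : x = ∑ i, ((aeval (jFullC k N) d)⁻¹ * aeval (jFullC k N) (c i)) * v i := by
      have : x = (aeval (jFullC k N) d)⁻¹ * (aeval (jFullC k N) d * x) := by
        rw [← mul_assoc, inv_mul_cancel₀ hd', one_mul]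
      rw [this, key, Finset.mul_sum]
      exact Finset.sum_congr rfl fun i _ => (mul_assoc _ _ _).symm
    rw [hxeq]
    refine Submodule.sum_mem _ fun i _ => ?_
    have hmemc : (aeval (jFullC k N) d)⁻¹ * aeval (jFullC k N) (c i) ∈ k⟮jFullC k N⟯ :=
      mul_mem (inv_mem (aeval_jFullC_mem d)) (aeval_jFullC_mem (c i))
    have hvi : v i ∈ Submodule.span k⟮jFullC k N⟯ (Set.range v) :=
      Submodule.subset_span ⟨i, rfl⟩
    exact Submodule.smul_mem (Submodule.span k⟮jFullC k N⟯ (Set.range v))
      (⟨_, hmemc⟩ : k⟮jFullC k N⟯) hvi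
  exact ⟨Module.Basis.mk hli hsp, fun i => by rw [Module.Basis.mk_apply]⟩

/-- **Degree of `X₀(N) → X(1)`** over an algebraically closed field in which `N ≠ 0`. -/
theorem finrank_modularFunctionFieldFullC (k : Type) [Field k] [IsAlgClosed k] (N : ℕ)
    (hNk : (N : k) ≠ 0) :
    FiniteDimensional k⟮jFullC k N⟯ (modularFunctionFieldFullC k N) ∧
      Module.finrank k⟮jFullC k N⟯ (modularFunctionFieldFullC k N) = dedekindPsi N := by
  have hN : N ≠ 0 := fun h => hNk (by rw [h, Nat.cast_zero])
  obtain ⟨ι, _, b, hcard, hb, hT⟩ := towerDegree_exists_tower N hN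
  obtain ⟨E, _, _, ⟨T⟩⟩ := hT k (towerDegree_fieldHyp k N hNk)
  obtain ⟨B, -⟩ := towerDegree_basis T (hb k)
  exact ⟨Module.Finite.of_basis B, by rw [Module.finrank_eq_card_basis B, hcard]⟩

end Basis

section Bar

variable (L : Type) [Field L] [Algebra ℚ L] (N : ℕ)

theorem coeffEmb_mem_fullC {x : LaurentSeries ℚ} (hx : x ∈ modularFunctionFieldFull N) :
    coeffEmb L x ∈ modularFunctionFieldFullC L N := by
  induction hx using IntermediateField.adjoin_induction with
  | mem x hx =>
    obtain ⟨d, hd, hdN, rfl⟩ := hx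
    haveI := hd
    have h1 : coeffMap (algebraMap ℚ L) jq = jqModC L := coeffMap_jqModC (R := ℚ) _
    show coeffMap (algebraMap ℚ L) _ ∈ _
    rw [coeffMap_qExpand, h1]
    exact jqModCd_mem_full L N hdN
  | algebraMap q =>
    show coeffMap (algebraMap ℚ L) _ ∈ _
    rw [algebraMap_eq_C, coeffMap_C, ← algebraMap_eq_C]
    exact IntermediateField.algebraMap_mem _ _
  | add x y _ _ hx hy => rw [map_add]; exact add_mem hx hy
  | inv x _ hx => rw [map_inv₀]; exact inv_mem hx
  | mul x y _ _ hx hy => rw [map_mul]; exact mul_mem hx hy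

theorem laurentBaseChange_full_eq :
    laurentBaseChange L (modularFunctionFieldFull N) = modularFunctionFieldFullC L N := by
  apply le_antisymm
  · rw [laurentBaseChange, IntermediateField.adjoin_le_iff]
    rintro _ ⟨x, hx, rfl⟩
    exact coeffEmb_mem_fullC L N hx
  · rw [modularFunctionFieldFullC, IntermediateField.adjoin_le_iff]
    rintro _ ⟨d, hd, hdN, rfl⟩
    haveI := hd
    have h1 : coeffMap (algebraMap ℚ L) jq = jqModC L := coeffMap_jqModC (R := ℚ) _
    have h2 : qExpand L d (jqModC L) = coeffEmb L (qExpand ℚ d jq) := by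
      show _ = coeffMap (algebraMap ℚ L) _
      rw [coeffMap_qExpand, h1]
    rw [h2]
    exact coeffEmb_mem_laurentBaseChange L (jqd_mem_full N hdN)

theorem modularFunctionFieldBar_eq :
    modularFunctionFieldBar N = modularFunctionFieldFullC (AlgebraicClosure ℚ) N :=
  laurentBaseChange_full_eq (AlgebraicClosure ℚ) N

/-- `j` as an element of `ℚ̄(X₀(N))`. -/
def jBar : modularFunctionFieldBar N :=
  ⟨jqModC (AlgebraicClosure ℚ), by
    rw [modularFunctionFieldBar_eq]; exact jqModC_mem_full _ N⟩

theorem transcendental_jBar : Transcendental (AlgebraicClosure ℚ) (jBar N) := by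
  rw [transcendental_iff_injective]
  intro P Q h
  apply aeval_jqModC_injective (R := AlgebraicClosure ℚ)
  have e : ∀ P : (AlgebraicClosure ℚ)[X],
      ((aeval (jBar N) P : modularFunctionFieldBar N) : LaurentSeries (AlgebraicClosure ℚ)) =
        aeval (jqModC (AlgebraicClosure ℚ)) P := fun P =>
    (Polynomial.aeval_algHom_apply (modularFunctionFieldBar N).val (jBar N) P).symm
  rw [← e, ← e, h]

/-- **`[ℚ̄(X₀(N)) : ℚ̄(j)] = ψ(N)`.** -/
theorem finrank_modularFunctionFieldBar [NeZero N] :
    FiniteDimensional (AlgebraicClosure ℚ)⟮jBar N⟯ (modularFunctionFieldBar N) ∧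
      Module.finrank (AlgebraicClosure ℚ)⟮jBar N⟯ (modularFunctionFieldBar N) =
        dedekindPsi N := by
  have key : ∀ (F : IntermediateField (AlgebraicClosure ℚ) (LaurentSeries (AlgebraicClosure ℚ)))
      (hF : F = modularFunctionFieldFullC (AlgebraicClosure ℚ) N)
      (hj : jqModC (AlgebraicClosure ℚ) ∈ F),
      FiniteDimensional (AlgebraicClosure ℚ)⟮(⟨jqModC (AlgebraicClosure ℚ), hj⟩ : F)⟯ F ∧
      Module.finrank (AlgebraicClosure ℚ)⟮(⟨jqModC (AlgebraicClosure ℚ), hj⟩ : F)⟯ F =
        dedekindPsi N := by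
    intro F hF hj
    subst hF
    exact finrank_modularFunctionFieldFullC (AlgebraicClosure ℚ) N
      (Nat.cast_ne_zero.mpr (NeZero.ne N))
  exact key _ (modularFunctionFieldBar_eq N) _

end Bar

end Fermat.Agent.S24

end
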