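import Fermat.Agent.S24.Trdeg

/-!
# S24, package FF-2: basic facts on `Place.ord`; the residue field of every place is `K`
-/

set_option autoImplicit false

namespace Fermat.Agent.S24

open AlgebraicCurve IntermediateField

variable {K F : Type*} [Field K] [Field F] [Algebra K F]

/-! ### basic facts on `ord` (no hypothesis on `K`, `F`) -/

theorem ord_nonneg_iff (v : Place K F) {f : F} (hf : f ≠ 0) :
    0 ≤ v.ord f ↔ f ∈ v.toValuationSubring := by
  obtain ⟨π, hπ⟩ := IsDiscreteValuationRing.exists_irreducible v.toValuationSubring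
  obtain ⟨u, hu⟩ := v.exists_unit_mul_zpow hf hπ
  have hπ0 : (π : F) ≠ 0 := by
    simpa [ne_eq, ZeroMemClass.coe_eq_zero] using hπ.ne_zero
  constructor
  · intro h
    rw [hu]
    obtain ⟨n, hn⟩ := Int.eq_ofNat_of_zero_le h
    rw [hn, zpow_natCast]
    exact mul_mem u.1.2 (pow_mem π.2 n)
  · intro h
    by_contra hneg
    rw [not_le] at hneg
    obtain ⟨n, hn⟩ : ∃ n : ℕ, v.ord f = -((n + 1 : ℕ) : ℤ) :=
      ⟨(-v.ord f - 1).toNat, by push_cast; omega⟩
    have h1 : (⟨f, h⟩ : v.toValuationSubring) * π ^ (n + 1) = u := by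
      apply Subtype.ext
      push_cast
      conv_lhs => rw [hu, hn, zpow_neg, zpow_natCast]
      field_simp
    have h2 : IsUnit (π ^ (n + 1)) := isUnit_of_mul_isUnit_right (h1 ▸ u.isUnit)
    exact hπ.not_isUnit (isUnit_of_mul_isUnit_right (pow_succ π n ▸ h2))

/-- `0 < ord f` iff `f` is a non-unit of the valuation ring. -/
theorem ord_pos_iff (v : Place K F) {f : F} (hf : f ≠ 0) :
    0 < v.ord f ↔ f ∈ v.toValuationSubring ∧ f⁻¹ ∉ v.toValuationSubring := by
  rw [← ord_nonneg_iff v hf, ← ord_nonneg_iff v (inv_ne_zero hf), v.ord_inv]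
  omega

theorem ord_algebraMap (v : Place K F) (c : K) : v.ord (algebraMap K F c) = 0 := by
  rcases eq_or_ne c 0 with rfl | hc
  · simp
  have hc' : algebraMap K F c ≠ 0 := by simpa using hc
  have h1 := (ord_nonneg_iff v hc').mpr (v.algebraMap_mem' c)
  have h2 := (ord_nonneg_iff v (inv_ne_zero hc')).mpr (by
    rw [← map_inv₀]; exact v.algebraMap_mem' c⁻¹)
  rw [v.ord_inv] at h2
  omega

theorem ord_neg (v : Place K F) (f : F) : v.ord (-f) = v.ord f := by
  simp [Place.ord]

theorem le_ord_add (v : Place K F) {f g : F} (hfg : f + g ≠ 0) :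
    min (v.ord f) (v.ord g) ≤ v.ord (f + g) := by
  rcases eq_or_ne f 0 with rfl | hf
  · simp
  rcases eq_or_ne g 0 with rfl | hg
  · simp
  have key : ∀ {a b : F}, a ≠ 0 → b ≠ 0 → a + b ≠ 0 → v.ord a ≤ v.ord b →
      v.ord a ≤ v.ord (a + b) := by
    intro a b ha hb hab hle
    have h1 : b / a ∈ v.toValuationSubring := by
      rw [← ord_nonneg_iff v (div_ne_zero hb ha), div_eq_mul_inv, v.ord_mul hb (inv_ne_zero ha),
        v.ord_inv]
      omega
    have h2 : (a + b) / a ∈ v.toValuationSubring := by
      have : (a + b) / a = 1 + b / a := by field_simp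
      rw [this]
      exact add_mem (one_mem _) h1
    rw [← ord_nonneg_iff v (div_ne_zero hab ha), div_eq_mul_inv, v.ord_mul hab (inv_ne_zero ha),
      v.ord_inv] at h2
    omega
  rcases le_total (v.ord f) (v.ord g) with h | h
  · rw [min_eq_left h]; exact key hf hg hfg h
  · rw [min_eq_right h, add_comm]; exact key hg hf (by rwa [add_comm]) h

theorem ord_add_eq_of_lt (v : Place K F) {f g : F} (hf : f ≠ 0) (hg : g ≠ 0)
    (h : v.ord f < v.ord g) : v.ord (f + g) = v.ord f := by
  have hfg : f + g ≠ 0 := by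
    intro h0
    have : f = -g := eq_neg_of_add_eq_zero_left h0
    rw [this, ord_neg] at h
    exact lt_irrefl _ h
  have h1 := le_ord_add v hfg
  have h2 : min (v.ord (f + g)) (v.ord (-g)) ≤ v.ord ((f + g) + -g) :=
    le_ord_add v (by simpa using hf)
  rw [ord_neg, add_neg_cancel_right] at h2
  rw [min_eq_left h.le] at h1
  rcases min_le_iff.mp h2 with h3 | h3
  · omega
  · omega

theorem ord_pow (v : Place K F) (f : F) (n : ℕ) : v.ord (f ^ n) = n * v.ord f := by
  rw [← zpow_natCast, v.ord_zpow]

theorem exists_ord_eq_one (v : Place K F) : ∃ t : F, v.ord t = 1 := by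
  obtain ⟨π, hπ⟩ := IsDiscreteValuationRing.exists_irreducible v.toValuationSubring
  exact ⟨π, v.ord_coe_irreducible hπ⟩

/-- the (private) uniformizer used by the Prelude in `Place.dCoord` -/
theorem exists_dCoord_eq (v : Place K F) :
    ∃ t : F, v.ord t = 1 ∧ v.dCoord = KaehlerDifferential.D K F t := by
  refine ⟨((IsDiscreteValuationRing.exists_irreducible v.toValuationSubring).choose : F),
    v.ord_coe_irreducible
      (IsDiscreteValuationRing.exists_irreducible v.toValuationSubring).choose_spec, rfl⟩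

/-! ### the residue field -/

namespace ResidueAux

open Polynomial

/-- `z` is a unit of the valuation ring. -/
def IsU (v : Place K F) (z : F) : Prop := z ≠ 0 ∧ v.ord z = 0

theorem IsU.mul {v : Place K F} {a b : F} (ha : IsU v a) (hb : IsU v b) : IsU v (a * b) :=
  ⟨mul_ne_zero ha.1 hb.1, by rw [v.ord_mul ha.1 hb.1, ha.2, hb.2, add_zero]⟩

theorem isU_one (v : Place K F) : IsU v 1 := ⟨one_ne_zero, v.ord_one⟩

theorem isU_aeval [IsAlgClosed K] (v : Place K F) {u : F}
    (hu : ∀ c : K, IsU v (u - algebraMap K F c)) {p : K[X]} (hp : p ≠ 0) :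
    IsU v (aeval u p) := by
  have h1 := (IsAlgClosed.splits p).eq_prod_roots
  rw [h1, map_mul, aeval_C, map_multiset_prod, Multiset.map_map]
  refine IsU.mul ⟨by simpa using hp, ord_algebraMap v _⟩ ?_
  refine Multiset.prod_induction (IsU v) _ (fun a b => IsU.mul) (isU_one v) ?_
  intro z hz
  obtain ⟨c, -, rfl⟩ := Multiset.mem_map.mp hz
  simpa using hu c

end ResidueAux

open ResidueAux in
/-- FF-2a: the residue field of every place is `K`.  Proof: if the class of `u ∈ O_v` were
transcendental over `K` then `K(u) ⊆ O_v`; `F` is algebraic over `K(u)` (FF-1a) and `O_v` is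
integrally closed in `F`, so `O_v = F`, contradiction.  So the residue field is algebraic over the
algebraically closed field `K`. -/
theorem IsFF.exists_residue [IsAlgClosed K] (h : IsFF K F) (v : Place K F) {u : F}
    (hu : u ∈ v.toValuationSubring) :
    ∃ c : K, u = algebraMap K F c ∨ 0 < v.ord (u - algebraMap K F c) := by
  by_contra hcon
  simp only [not_exists, not_or, not_lt] at hcon
  have hU : ∀ c : K, IsU v (u - algebraMap K F c) := by
    intro c
    have h0 : u - algebraMap K F c ≠ 0 := sub_ne_zero.mpr (hcon c).1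
    refine ⟨h0, le_antisymm (hcon c).2 ?_⟩
    exact (ord_nonneg_iff v h0).mpr (sub_mem hu (v.algebraMap_mem' c))
  have htr : Transcendental K u := by
    rw [transcendental_iff]
    intro p hp
    by_contra hp0
    exact (isU_aeval v hU hp0).1 hp
  have hle : ∀ z ∈ K⟮u⟯, z ∈ v.toValuationSubring := by
    intro z hz
    obtain ⟨r, s, rfl⟩ := (IntermediateField.mem_adjoin_simple_iff K z).mp hz
    rcases eq_or_ne r 0 with rfl | hr
    · simp [zero_mem]
    rcases eq_or_ne s 0 with rfl | hs
    · simp [zero_mem]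
    have hr' := isU_aeval v hU hr
    have hs' := isU_aeval v hU hs
    rw [← ord_nonneg_iff v (div_ne_zero hr'.1 hs'.1), div_eq_mul_inv,
      v.ord_mul hr'.1 (inv_ne_zero hs'.1), v.ord_inv, hr'.2, hs'.2]
    simp
  have hfin : FiniteDimensional K⟮u⟯ F := h.finiteDimensional htr
  let a1 : Algebra K⟮u⟯ v.toValuationSubring :=
    ((algebraMap K⟮u⟯ F).codRestrict v.toValuationSubring.toSubring (fun z => hle z z.2)).toAlgebra
  have t1 : IsScalarTower K⟮u⟯ v.toValuationSubring F := .of_algebraMap_eq fun _ => rfl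
  apply v.ne_top'
  rw [eq_top_iff]
  rintro x -
  have hx : IsIntegral K⟮u⟯ x := Algebra.IsIntegral.isIntegral x
  have hx' : IsIntegral v.toValuationSubring x := hx.tower_top
  obtain ⟨y, rfl⟩ := IsIntegrallyClosed.isIntegral_iff.mp hx'
  exact y.2

theorem IsFF.bijective_algebraMap_residueField [IsAlgClosed K] (h : IsFF K F) (v : Place K F) :
    Function.Bijective (algebraMap K v.ResidueField) := by
  refine ⟨(algebraMap K v.ResidueField).injective, fun x => ?_⟩
  obtain ⟨u, rfl⟩ := IsLocalRing.residue_surjective x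
  obtain ⟨c, hc⟩ := h.exists_residue v u.2
  refine ⟨c, ?_⟩
  rw [IsScalarTower.algebraMap_apply K v.toValuationSubring v.ResidueField,
    IsLocalRing.ResidueField.algebraMap_eq, eq_comm, ← sub_eq_zero, ← map_sub,
    IsLocalRing.residue_eq_zero_iff]
  rcases hc with hc | hc
  · have : u - algebraMap K v.toValuationSubring c = 0 := by
      apply Subtype.ext
      push_cast
      rw [v.coe_algebraMap, hc, sub_self]
    rw [this]
    exact zero_mem _
  · rw [IsLocalRing.mem_maximalIdeal, mem_nonunits_iff]
    intro hunit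
    have := v.ord_coe_unit hunit.unit
    rw [IsUnit.unit_spec] at this
    push_cast at this
    rw [v.coe_algebraMap] at this
    omega

/-- FF-2b. -/
theorem IsFF.deg_eq_one [IsAlgClosed K] (h : IsFF K F) (v : Place K F) : v.deg = 1 := by
  have e : K ≃ₗ[K] v.ResidueField :=
    LinearEquiv.ofBijective (Algebra.linearMap K v.ResidueField)
      (h.bijective_algebraMap_residueField v)
  rw [Place.deg, ← e.finrank_eq, Module.finrank_self]

end Fermat.Agent.S24
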