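import Fermat.Agent.S24.MDefs
import Fermat.Agent.S20.Cusp
import Fermat.Agent.S20.CuspDiag

/-!
# S24, package MF-N: limits and ranks
(import the S20 files you need: `Basic`, `Cusp` (`tw_tendsto`, `Lam_indep`), `CuspDiag`/`TD`.)
-/

set_option autoImplicit false

namespace Fermat.Agent.S24

open UpperHalfPlane ModularForm EisensteinSeries Filter Topology CongruenceSubgroup
open Fermat.Agent.S20
open scoped MatrixGroups Manifold ModularForm

theorem hasLims_pure (H : Subgroup SL(2, ℤ)) (z : ℍ) : HasLims H (pure z) :=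
  fun _ _ _ _ => ⟨_, tendsto_pure_nhds _ _⟩

/-- `e(m z / n) → δ_{m = 0}` as `Im z → ∞`. -/
theorem rk_tendsto_cexp (m n : ℕ) (hn : 0 < n) :
    Tendsto (fun z : ℍ => Complex.exp (2 * Real.pi * Complex.I * (m : ℂ) * (z : ℂ) / (n : ℂ)))
      atImInfty (𝓝 (if m = 0 then 1 else 0)) := by
  rcases Nat.eq_zero_or_pos m with rfl | hm
  · simp
  · rw [if_neg hm.ne']
    rw [tendsto_zero_iff_norm_tendsto_zero]
    have h1 : ∀ z : ℍ, ‖Complex.exp (2 * Real.pi * Complex.I * (m : ℂ) * (z : ℂ) / (n : ℂ))‖ =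
        Real.exp (-(2 * Real.pi * ((m : ℝ) / n)) * z.im) := by
      intro z
      have : 2 * Real.pi * Complex.I * (m : ℂ) * (z : ℂ) / (n : ℂ) =
          2 * Real.pi * Complex.I * (((m : ℝ) / n : ℝ) : ℂ) * z := by
        push_cast; ring
      rw [this, Cusp.norm_cexp_mul_coe]
      congr 1
      ring
    simp_rw [h1]
    have hc : 0 < 2 * Real.pi * ((m : ℝ) / n) := by
      have := Real.pi_pos
      positivity
    have h2 : Tendsto (fun z : ℍ => z.im) atImInfty atTop := tendsto_comap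
    have h3 : Tendsto (fun z : ℍ => -(2 * Real.pi * ((m : ℝ) / n)) * z.im) atImInfty atBot := by
      have := tendsto_neg_atTop_atBot.comp (h2.const_mul_atTop hc)
      refine this.congr fun z => ?_
      simp [neg_mul]
    exact Real.tendsto_exp_atBot.comp h3

/-- the limit of the components of the vector valued form -/
theorem rk_tendsto_vec {H : Subgroup SL(2, ℤ)} [Fintype (Cos H)] [DecidableEq (Cos H)]
    (d : CuspData H) {k : ℤ} {F : ℍ → ℂ} (hF : F ∈ MFs H k) (x₀ : Cos H) :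
    Tendsto (vec H k F x₀) atImInfty
      (𝓝 (∑ x, (if d.m x = 0 then 1 else 0) * Lam d k F x * d.C⁻¹ x x₀)) := by
  have h1 : vec H k F x₀ = fun z : ℍ => ∑ x,
      Complex.exp (2 * Real.pi * Complex.I * (d.m x : ℂ) * (z : ℂ) / (d.n : ℂ)) * tw d k F z x *
        d.C⁻¹ x x₀ := by
    ext z
    exact vec_eq_sum_tw d x₀ z
  rw [h1]
  refine tendsto_finsetSum _ fun x _ => ?_
  refine Tendsto.mul_const _ ?_
  exact (rk_tendsto_cexp (d.m x) d.n d.n_pos).mul (tendsto_pi_nhds.mp (tw_tendsto d hF) x)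

/-- (N1) `vec F a = ∑ₓ e(m_x z / n) (tw d k F z) x (C⁻¹) x a`, `tw → Lam`, `e(m z / n) → δ_{m=0}`. -/
theorem hasLims_atImInfty (H : Subgroup SL(2, ℤ)) [Finite (Cos H)] : HasLims H atImInfty := by
  classical
  have := Fintype.ofFinite (Cos H)
  obtain ⟨d, -⟩ := exists_cuspData H
  intro k F hF x
  exact ⟨_, rk_tendsto_vec d hF x⟩

/-- (N2) -/
theorem rank_diag_mul {ι : Type*} [Fintype ι] [DecidableEq ι] (d : ι → ℂ) (M : Matrix ι ι ℂ)
    (hM : M.det ≠ 0) :
    (Matrix.of fun i x => d i * M i x).rank = Fintype.card {i // d i ≠ 0} := by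
  classical
  have h1 : (Matrix.of fun i x => d i * M i x) = Matrix.diagonal d * M := by
    ext i x
    simp [Matrix.diagonal_mul]
  rw [h1, Matrix.rank_mul_eq_left_of_isUnit_det _ _ (isUnit_iff_ne_zero.mpr hM),
    Matrix.rank_diagonal]

/-- (N3) `lim Mat = (Lam (B i))ᵢ * diag(δ_{m_x = 0}) * C⁻¹`, `(Lam (B i))ᵢ` invertible
(`Lam_indep`), so the rank is `#{x | m x = 0}` = dimension of the `T`-fixed vectors of `ℂ^(Cos H)`
= number of `T`-orbits. -/
theorem rank_lim_atImInfty {H : Subgroup SL(2, ℤ)} [Fintype (Cos H)] (hneg : -1 ∈ H)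
    {w : Cos H → ℤ} {B : Cos H → ℍ → ℂ} (hfam : IsFam H w B) {M : Matrix (Cos H) (Cos H) ℂ}
    (hM : ∀ i x, Tendsto (vec H (w i) (B i) x) atImInfty (𝓝 (M i x))) :
    M.rank = Nat.card (MulAction.orbitRel.Quotient (Subgroup.zpowers ModularGroup.T) (Cos H)) := by
  classical
  obtain ⟨d, -, hd⟩ := exists_cuspData H
  let L : Matrix (Cos H) (Cos H) ℂ := Matrix.of fun i x => Lam d (w i) (B i) x
  have hL : IsUnit L := by
    rw [← Matrix.linearIndependent_rows_iff_isUnit]
    exact Lam_indep d hneg hfam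
  have hC : IsUnit (d.C⁻¹).det :=
    Matrix.isUnit_nonsing_inv_det _ (isUnit_iff_ne_zero.mpr d.det_ne)
  have hMeq : M = L * Matrix.diagonal (fun x => if d.m x = 0 then (1 : ℂ) else 0) * d.C⁻¹ := by
    ext i x₀
    have h1 := rk_tendsto_vec d (hfam.mem i) x₀
    rw [tendsto_nhds_unique (hM i x₀) h1, Matrix.mul_apply]
    refine Finset.sum_congr rfl fun x _ => ?_
    rw [Matrix.mul_diagonal]
    simp only [L, Matrix.of_apply]
    ring
  rw [hMeq, Matrix.rank_mul_eq_left_of_isUnit_det _ _ hC,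
    Matrix.rank_mul_eq_right_of_isUnit_det _ _ ((Matrix.isUnit_iff_isUnit_det _).mp hL),
    Matrix.rank_diagonal, ← hd, Fintype.card_subtype]
  congr 1
  ext x
  simp

end Fermat.Agent.S24
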