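import Fermat.Agent.S24.MDefs
import Fermat.Agent.S23.Analytic

/-!
# S24, package MF-E: a quotient of modular forms which is integral over the level one forms is a
modular form  (variant of `S23.exists_cuspForm_of_relation`; reuse
`S23.exists_holomorphic_quotient`, `S23.norm_le_of_monic_root`)
-/

set_option autoImplicit false

namespace Fermat.Agent.S24

open UpperHalfPlane ModularForm Filter Topology
open Fermat.Agent.S20
open scoped MatrixGroups Manifold ModularForm

theorem exists_quotient_of_relation {H : Subgroup SL(2, ℤ)} {k K' : ℤ} {D b : ℍ → ℂ}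
    (hD : D ∈ MFs H k) (hD0 : D ≠ 0) (hb : b ∈ MFs H (k + K')) (n : ℕ) (hn : 0 < n)
    (e : ℕ → ℍ → ℂ) (he : ∀ j : ℕ, e j ∈ MFs ⊤ ((j : ℤ) * K'))
    (hrel : b ^ n + ∑ j ∈ Finset.range n, e (j + 1) * b ^ (n - (j + 1)) * D ^ (j + 1) = 0) :
    ∃ h ∈ MFs H K', D * h = b := by
  classical
  -- pointwise factorisation of the relation
  have hfac : ∀ (z : ℍ) (y : ℂ), b z = y * D z →
      (D z) ^ n * (y ^ n + ∑ i ∈ Finset.range n, e (i + 1) z * y ^ (n - (i + 1))) = 0 := by
    intro z y hy
    have h0 := congrFun hrel z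
    simp only [Pi.add_apply, Pi.pow_apply, Finset.sum_apply, Pi.mul_apply, Pi.zero_apply] at h0
    rw [← h0, hy, mul_add, Finset.mul_sum, mul_pow]
    congr 1
    · ring
    · refine Finset.sum_congr rfl fun i hi => ?_
      have h1 : (D z) ^ n = (D z) ^ (n - (i + 1)) * (D z) ^ (i + 1) := by
        rw [← pow_add]; congr 1; have := Finset.mem_range.mp hi; omega
      rw [h1, mul_pow]; ring
  set B : ℍ → ℝ := fun z => max 1 (∑ i ∈ Finset.range n, ‖e (i + 1) z‖) with hB
  have hBc : Continuous B :=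
    continuous_const.max (continuous_finsetSum _ fun i _ => ((he (i + 1)).1.continuous).norm)
  obtain ⟨h, hh, hDh⟩ := Fermat.Agent.S23.exists_holomorphic_quotient D b hD.1 hb.1 hD0 B hBc
    (by
      intro z hz
      refine Fermat.Agent.S23.norm_le_of_monic_root (b z / D z) (fun i => e i z) ?_
      have := hfac z (b z / D z) (by field_simp)
      exact (mul_eq_zero.mp this).resolve_left (pow_ne_zero _ hz))
    (by
      intro z hz
      have h0 := congrFun hrel z
      simp only [Pi.add_apply, Pi.pow_apply, Finset.sum_apply, Pi.mul_apply, Pi.zero_apply,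
        hz] at h0
      rw [Finset.sum_eq_zero (fun i _ => by simp), add_zero] at h0
      exact pow_eq_zero_iff hn.ne' |>.mp h0)
  have hDh' : ∀ z, b z = h z * D z := fun z => by
    rw [← hDh]; simp [mul_comm]
  -- the monic relation for `h`
  have hP : ∀ z, h z ^ n + ∑ i ∈ Finset.range n, e (i + 1) z * h z ^ (n - (i + 1)) = 0 := by
    have hF2 : MDiff (h ^ n + ∑ i ∈ Finset.range n, e (i + 1) * h ^ (n - (i + 1))) := by
      refine (hh.pow _).add ?_
      exact MDifferentiable.sum fun i _ => (he (i + 1)).1.mul (hh.pow _)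
    have hF1 : MDiff (D ^ n) := hD.1.pow _
    have hmul : (D ^ n) *
        (h ^ n + ∑ i ∈ Finset.range n, e (i + 1) * h ^ (n - (i + 1))) = 0 := by
      ext z
      simpa using hfac z (h z) (hDh' z)
    rcases (UpperHalfPlane.mul_eq_zero_iff hF1 hF2).mp hmul with h1 | h1
    · exact absurd (pow_eq_zero_iff hn.ne' |>.mp h1) hD0
    · intro z
      simpa using congrFun h1 z
  -- slash invariance
  have hslash : ∀ γ ∈ H, h ∣[K'] γ = h := by
    intro γ hγ
    have h1 : D * (h ∣[K'] γ) = D * h := by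
      calc D * (h ∣[K'] γ) = (D ∣[k] γ) * (h ∣[K'] γ) := by rw [hD.2.1 γ hγ]
        _ = (D * h) ∣[k + K'] γ := (mul_slash_SL2 k K' γ _ _).symm
        _ = D * h := by rw [hDh, hb.2.1 γ hγ]
    have h2 : D * (h ∣[K'] γ - h) = 0 := by rw [mul_sub, h1, sub_self]
    have h3 : MDiff (h ∣[K'] γ - h) := (hh.slash K' _).sub hh
    rcases (UpperHalfPlane.mul_eq_zero_iff hD.1 h3).mp h2 with h4 | h4
    · exact absurd h4 hD0
    · exact sub_eq_zero.mp h4
  -- boundedness at the cusps
  have hcusp : ∀ γ : SL(2, ℤ), IsBoundedAtImInfty (h ∣[K'] γ) := by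
    intro γ
    have hrelγ : ∀ z, ((h ∣[K'] γ) z) ^ n +
        ∑ i ∈ Finset.range n, e (i + 1) z * ((h ∣[K'] γ) z) ^ (n - (i + 1)) = 0 := by
      intro z
      set δ : ℂ := denom γ z with hδ
      have hδ0 : δ ≠ 0 := denom_ne_zero _ _
      set t : ℂ := δ ^ (-K') with ht
      have ht0 : t ≠ 0 := zpow_ne_zero _ hδ0
      have hy : (h ∣[K'] γ) z = h (γ • z) * t := SL_slash_apply _ _ _
      have he' : ∀ i : ℕ, e i z = t ^ i * e i (γ • z) := by
        intro i
        have h1 := congrFun ((he i).2.1 γ (Subgroup.mem_top γ)) z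
        rw [SL_slash_apply] at h1
        rw [← h1, ht, ← zpow_natCast, ← zpow_mul, mul_comm]
        congr 2
        ring
      have h0 := hP (γ • z)
      have : ((h ∣[K'] γ) z) ^ n +
          ∑ i ∈ Finset.range n, e (i + 1) z * ((h ∣[K'] γ) z) ^ (n - (i + 1)) =
          t ^ n * (h (γ • z) ^ n +
            ∑ i ∈ Finset.range n, e (i + 1) (γ • z) * h (γ • z) ^ (n - (i + 1))) := by
        rw [hy, mul_add, Finset.mul_sum, mul_pow]
        congr 1
        · ring
        · refine Finset.sum_congr rfl fun i hi => ?_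
          have h1 : t ^ n = t ^ (n - (i + 1)) * t ^ (i + 1) := by
            rw [← pow_add]; congr 1; have := Finset.mem_range.mp hi; omega
          rw [h1, he' (i + 1), mul_pow]; ring
      rw [this, h0, mul_zero]
    -- each coefficient is bounded at `i∞`
    have hbd : ∀ i : ℕ, IsBoundedAtImInfty (e i) := by
      intro i
      have := (he i).2.2 1
      rwa [SlashAction.slash_one] at this
    have hS : (fun z : ℍ => (1 : ℝ) + ∑ i ∈ Finset.range n, ‖e (i + 1) z‖) =O[atImInfty]
        (1 : ℍ → ℝ) := by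
      refine (Asymptotics.isBigO_refl _ _).add (Asymptotics.IsBigO.fun_sum fun i _ => ?_)
      exact (hbd (i + 1)).norm_left
    refine Asymptotics.IsBigO.trans (Asymptotics.IsBigO.of_bound 1 ?_) hS
    refine Eventually.of_forall fun z => ?_
    have h1 := Fermat.Agent.S23.norm_le_of_monic_root _ (fun i => e i z) (hrelγ z)
    have h2 : (0 : ℝ) ≤ ∑ i ∈ Finset.range n, ‖e (i + 1) z‖ :=
      Finset.sum_nonneg fun i _ => norm_nonneg _
    rw [one_mul, Real.norm_of_nonneg (by positivity)]
    refine h1.trans (max_le (by linarith) (by linarith))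
  exact ⟨h, ⟨hh, hslash, hcusp⟩, hDh⟩

end Fermat.Agent.S24
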