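import Fermat.Agent.S24.MDefs
import Fermat.Agent.S20.Basic

/-!
# S24, package MF-C: elementary symmetric functions of the conjugates, norm and cofactor
-/

set_option autoImplicit false

namespace Fermat.Agent.S24

open UpperHalfPlane ModularForm EisensteinSeries Filter Topology
open Fermat.Agent.S20
open scoped MatrixGroups Manifold ModularForm

variable {H : Subgroup SL(2, ℤ)} [Fintype (Cos H)] {k : ℤ} {G : ℍ → ℂ}

/-- `e_r` of the conjugates `vec H k G x`, `x ∈ Cos H`. -/
noncomputable def esymmVec (H : Subgroup SL(2, ℤ)) [Fintype (Cos H)] (k : ℤ) (G : ℍ → ℂ) (r : ℕ) :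
    ℍ → ℂ :=
  fun z => ((Finset.univ : Finset (Cos H)).val.map fun x => vec H k G x z).esymm r

lemma esymmVec_eq_sum (H : Subgroup SL(2, ℤ)) [Fintype (Cos H)] (k : ℤ) (G : ℍ → ℂ) (r : ℕ) :
    esymmVec H k G r =
      ∑ t ∈ (Finset.univ : Finset (Cos H)).powersetCard r, ∏ x ∈ t, vec H k G x := by
  ext z
  simp only [esymmVec, Finset.esymm_map_val, Finset.sum_apply, Finset.prod_apply]

lemma esymm_aux_scale {ι : Type*} (s : Finset ι) (c : ℂ) (f : ι → ℂ) (r : ℕ) :
    (s.val.map fun x => c * f x).esymm r = c ^ r * (s.val.map f).esymm r := by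
  rw [Finset.esymm_map_val, Finset.esymm_map_val, Finset.mul_sum]
  refine Finset.sum_congr rfl fun t ht => ?_
  rw [Finset.prod_mul_distrib, Finset.prod_const, (Finset.mem_powersetCard.mp ht).2]

lemma esymm_aux_perm {ι : Type*} [Fintype ι] (σ : ι ≃ ι) (f : ι → ℂ) (r : ℕ) :
    ((Finset.univ : Finset ι).val.map fun x => f (σ x)).esymm r =
      ((Finset.univ : Finset ι).val.map f).esymm r := by
  have h : (Finset.univ : Finset ι).val.map σ = (Finset.univ : Finset ι).val := by
    have := congrArg Finset.val (Finset.map_univ_equiv σ)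
    rwa [Finset.map_val] at this
  conv_rhs => rw [← h, Multiset.map_map]
  rfl

lemma esymm_aux_vieta {ι : Type*} [Fintype ι] (g : ι → ℂ) (Y : ℂ) :
    ∏ x, (Y - g x) = ∑ r ∈ Finset.range (Fintype.card ι + 1),
      (-1 : ℂ) ^ r * (((Finset.univ : Finset ι).val.map g).esymm r *
        Y ^ (Fintype.card ι - r)) := by
  have h := congrArg (Polynomial.eval Y)
    (Multiset.prod_X_sub_X_eq_sum_esymm ((Finset.univ : Finset ι).val.map g))
  rw [Polynomial.eval_multiset_prod, Polynomial.eval_finsetSum] at h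
  simp only [Multiset.map_map, Function.comp, Polynomial.eval_sub, Polynomial.eval_X,
    Polynomial.eval_C, Multiset.card_map, Finset.card_val, Polynomial.eval_mul,
    Polynomial.eval_pow, Polynomial.eval_neg, Polynomial.eval_one] at h
  exact h

/-- slash by `g` permutes the conjugates (`S20.vec_slash`). -/
theorem esymmVec_mem (hG : G ∈ MFs H k) (r : ℕ) : esymmVec H k G r ∈ MFs ⊤ (r * k) := by
  have hinv : ∀ g : SL(2, ℤ), esymmVec H k G r ∣[(r : ℤ) * k] g = esymmVec H k G r := by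
    intro g
    ext z
    rw [ModularForm.SL_slash_apply]
    have h1 : esymmVec H k G r (g • z) = (denom g z ^ k) ^ r * esymmVec H k G r z := by
      simp only [esymmVec]
      rw [← esymm_aux_perm (MulAction.toPerm g⁻¹) (fun x => vec H k G x z), ← esymm_aux_scale]
      congr 2
      ext x
      exact vec_smul_apply hG x g z
    rw [h1, mul_comm, ← mul_assoc, ← zpow_natCast, ← zpow_mul, ← zpow_add₀ (denom_ne_zero _ _)]
    have : -((r : ℤ) * k) + k * (r : ℤ) = 0 := by ring
    rw [this, zpow_zero, one_mul]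
  have hbdd : IsBoundedAtImInfty (esymmVec H k G r) := by
    rw [esymmVec_eq_sum]
    unfold IsBoundedAtImInfty
    refine Finset.sum_induction _ (fun f => BoundedAtFilter atImInfty f)
      (fun _ _ ha hb => ha.add hb) (zero_form_isBoundedAtImInfty) fun t _ => ?_
    refine Finset.prod_induction _ (fun f => BoundedAtFilter atImInfty f)
      (fun _ _ ha hb => ha.mul hb) (const_boundedAtFilter _ (1 : ℂ)) fun x _ => vec_bdd hG x
  refine ⟨?_, fun g _ => hinv g, fun g => by rw [hinv g]; exact hbdd⟩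
  rw [esymmVec_eq_sum]
  refine Finset.sum_induction _ (fun f : ℍ → ℂ => MDiff f)
      (fun _ _ ha hb => ha.add hb) mdifferentiable_const fun t _ => ?_
  exact Finset.prod_induction _ (fun f : ℍ → ℂ => MDiff f)
      (fun _ _ ha hb => ha.mul hb) mdifferentiable_const fun x _ => vec_mdiff H hG.1 x

/-- `∏ₓ (G - vec G x) = 0` (factor `x = 1`), `Multiset.prod_X_sub_C_eq_sum_esymm`-type expansion.-/
theorem esymmVec_relation (hG : G ∈ MFs H k) :
    ∑ r ∈ Finset.range (Fintype.card (Cos H) + 1),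
      (-1 : ℂ) ^ r • (esymmVec H k G r * G ^ (Fintype.card (Cos H) - r)) = 0 := by
  ext z
  have h := esymm_aux_vieta (fun x : Cos H => vec H k G x z) (G z)
  have h0 : ∏ x : Cos H, (G z - vec H k G x z) = 0 := by
    refine Finset.prod_eq_zero (Finset.mem_univ ((1 : SL(2, ℤ)) : Cos H)) ?_
    rw [vec_one hG, sub_self]
  rw [h0] at h
  simp only [Finset.sum_apply, Pi.smul_apply, Pi.mul_apply, Pi.pow_apply, smul_eq_mul,
    Pi.zero_apply]
  exact h.symm

theorem esymmVec_tendsto {l : Filter ℍ} {g : Cos H → ℂ}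
    (h : ∀ x, Tendsto (vec H k G x) l (𝓝 (g x))) (r : ℕ) :
    Tendsto (esymmVec H k G r) l (𝓝 (((Finset.univ : Finset (Cos H)).val.map g).esymm r)) := by
  rw [Finset.esymm_map_val]
  have : esymmVec H k G r = fun z =>
      ∑ t ∈ (Finset.univ : Finset (Cos H)).powersetCard r, ∏ x ∈ t, vec H k G x z := by
    ext z
    simp only [esymmVec, Finset.esymm_map_val]
  rw [this]
  exact tendsto_finsetSum _ fun t _ => tendsto_finsetProd _ fun x _ => h x

/-- If `∑ (-1)^r e_r(g) Y^(μ-r) = 0` then `Y` is one of the `g x`. -/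
theorem exists_eq_of_esymm_relation (g : Cos H → ℂ) (Y : ℂ)
    (h : ∑ r ∈ Finset.range (Fintype.card (Cos H) + 1),
      (-1 : ℂ) ^ r * (((Finset.univ : Finset (Cos H)).val.map g).esymm r *
        Y ^ (Fintype.card (Cos H) - r)) = 0) : ∃ x, Y = g x := by
  rw [← esymm_aux_vieta] at h
  obtain ⟨x, -, hx⟩ := Finset.prod_eq_zero_iff.mp h
  exact ⟨x, sub_eq_zero.mp hx⟩

lemma esymmVec_card_eq_prod (H : Subgroup SL(2, ℤ)) [Fintype (Cos H)] (k : ℤ) (G : ℍ → ℂ) :
    esymmVec H k G (Fintype.card (Cos H)) = ∏ x : Cos H, vec H k G x := by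
  rw [esymmVec_eq_sum, ← Finset.card_univ, Finset.powersetCard_self, Finset.sum_singleton]

/-- Norm and cofactor: `D = ∏ₓ vec G x = e_μ`, `G' = ∓ ∑_{r<μ} (-1)^r e_r G^(μ-1-r)`. -/
theorem exists_cofactor (hG : G ∈ MFs H k) (hG0 : G ≠ 0) :
    ∃ G' ∈ MFs H (((Fintype.card (Cos H) : ℤ) - 1) * k), ∃ D ∈ MFs ⊤ (Fintype.card (Cos H) * k),
      D ≠ 0 ∧ G * G' = D := by
  set μ := Fintype.card (Cos H) with hμ
  have hμ1 : 1 ≤ μ := Fintype.card_pos_iff.mpr ⟨((1 : SL(2, ℤ)) : Cos H)⟩
  refine ⟨(-1 : ℂ) ^ (μ + 1) • ∑ r ∈ Finset.range μ,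
      (-1 : ℂ) ^ r • (esymmVec H k G r * G ^ (μ - 1 - r)), ?_, esymmVec H k G μ,
      esymmVec_mem hG μ, ?_, ?_⟩
  · refine Submodule.smul_mem _ _ (Submodule.sum_mem _ fun r hr => Submodule.smul_mem _ _ ?_)
    have hr' : r < μ := Finset.mem_range.mp hr
    refine mul_mem_MFs' (esymmVec_mem hG r) (pow_mem_MFs hG (μ - 1 - r)) ?_
    have : ((μ - 1 - r : ℕ) : ℤ) = (μ : ℤ) - 1 - r := by omega
    rw [this]; ring
  · rw [hμ, esymmVec_card_eq_prod]
    have key : ∀ s : Finset (Cos H), MDiff (∏ x ∈ s, vec H k G x) ∧ ∏ x ∈ s, vec H k G x ≠ 0 := by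
      classical
      intro s
      induction s using Finset.induction_on with
      | empty =>
        rw [Finset.prod_empty]
        exact ⟨(mdifferentiable_const : MDiff (fun _ : ℍ => (1 : ℂ))), one_ne_zero⟩
      | insert x s hx ih =>
        rw [Finset.prod_insert hx]
        refine ⟨(vec_mdiff H hG.1 x).mul ih.1, fun h0 => ?_⟩
        rcases eq_zero_or_eq_zero_of_mul_eq_zero (vec_mdiff H hG.1 x) ih.1 h0 with h | h
        · exact hG0 (eq_zero_of_vec_eq_zero x h)
        · exact ih.2 h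
    exact (key Finset.univ).2
  · have hrel := esymmVec_relation hG
    rw [← hμ, Finset.sum_range_succ, Nat.sub_self, pow_zero, mul_one] at hrel
    have h1 : G * ∑ r ∈ Finset.range μ, (-1 : ℂ) ^ r • (esymmVec H k G r * G ^ (μ - 1 - r)) =
        ∑ r ∈ Finset.range μ, (-1 : ℂ) ^ r • (esymmVec H k G r * G ^ (μ - r)) := by
      rw [Finset.mul_sum]
      refine Finset.sum_congr rfl fun r hr => ?_
      have hr' : r < μ := Finset.mem_range.mp hr
      have : μ - r = (μ - 1 - r) + 1 := by omega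
      rw [this, pow_succ, mul_smul_comm]
      congr 1
      ring
    rw [mul_smul_comm, h1, eq_neg_of_add_eq_zero_left hrel, smul_neg, smul_smul, ← pow_add]
    have : (-1 : ℂ) ^ (μ + 1 + μ) = -1 := by
      rw [show μ + 1 + μ = 2 * μ + 1 by ring, pow_succ, pow_mul]; simp
    rw [this, _root_.neg_smul, one_smul, neg_neg]

end Fermat.Agent.S24
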