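import Fermat.Agent.S24.QL
import Fermat.Agent.S24.Esymm
import Fermat.Agent.S24.AnalyticQuot
import Fermat.Agent.S23.Final
import Fermat.Agent.S20.FreeSpan
import Fermat.Agent.S20.Final
import Fermat.Agent.S20.Sep
import Fermat.Prelude.Thm_ModularForm_sturm_bound_Gamma0

/-!
# S24, package MF-J: a homogeneous basis with rational `q`-expansions

1. `σ`-stability of `MFs (Gamma0 N) k` for `σ : ℂ →+* ℂ`: as in `S23.exists_sigma_twist`:
   `D * F = b` with `D` of level one and `b` in the span of the integral forms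
   (`S23.exists_denominator`); `F` satisfies the monic relation `esymmVec_relation` with level one
   coefficients; twist `D`, `b` and the coefficients; then `MF-E` shows `b' / D' ∈ M_k`, and its
   `q`-expansion is `F^σ`.
2. `S23.span_rational_of_aut_stable` (finite dimension: Sturm bound as in `S23.Main`).
3. `S20.exists_isFam_of_span`; reindex by `Cos` with `S20.nonempty_equiv_of_isFam`.
-/

set_option autoImplicit false

namespace Fermat.Agent.S24

open UpperHalfPlane ModularForm EisensteinSeries Filter Topology CongruenceSubgroup ModularCurve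
open Fermat.Agent.S20 Fermat.Agent.S23
open scoped MatrixGroups Manifold ModularForm

lemma ratFam_esymmVec_zero {H : Subgroup SL(2, ℤ)} [Fintype (Cos H)] (k : ℤ) (G : ℍ → ℂ) :
    esymmVec H k G 0 = 1 := by
  funext z
  simp [esymmVec, Multiset.esymm]

theorem exists_sigma_twist_MFs (N : ℕ) [NeZero N] {k : ℤ} {F : ℍ → ℂ} (hF : F ∈ MFs (Gamma0 N) k)
    (σ : ℂ →+* ℂ) :
    ∃ G ∈ MFs (Gamma0 N) k, ∀ n, (qExpansion 1 G).coeff n = σ ((qExpansion 1 F).coeff n) := by
  classical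
  let _ : Fintype (Cos (Gamma0 N)) := Fintype.ofFinite _
  obtain ⟨x, hx, hsep⟩ := exists_separating_form N
  have hΓ : (Gamma0 N : Subgroup (GL (Fin 2) ℝ)) ≤ 𝒮ℒ := Subgroup.map_le_range _ _
  have h1 := CongruenceSubgroup.one_mem_strictPeriods_Gamma0 N
  have h1' : (1 : ℝ) ∈ (𝒮ℒ : Subgroup (GL (Fin 2) ℝ)).strictPeriods := one_mem_strictPeriods_SL
  obtain ⟨f, rfl⟩ := exists_modularForm_of_mem_MFs hF
  obtain ⟨m, D, b, hD, hb, hDf⟩ := exists_denominator intSpanMF_levelOne hΓ h1 x hx hsep f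
  set μ := Fintype.card (Cos (Gamma0 N)) with hμdef
  have hμ : 0 < μ := Fintype.card_pos
  -- the coefficients of the monic relation
  have hex : ∀ j : ℕ, ∃ e : ModularForm 𝒮ℒ ((j : ℤ) * k),
      (⇑e : ℍ → ℂ) = (-1 : ℂ) ^ j • esymmVec (Gamma0 N) k ⇑f j := fun j =>
    exists_modularForm_of_mem_MFs_top (Submodule.smul_mem _ _ (esymmVec_mem hF j))
  choose e he using hex
  have hrel : (⇑f : ℍ → ℂ) ^ μ + ∑ i ∈ Finset.range μ, ⇑(e (i + 1)) * (⇑f : ℍ → ℂ) ^ (μ - (i + 1)) = 0 := by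
    have h0 := esymmVec_relation hF
    rw [Finset.sum_range_succ', ratFam_esymmVec_zero] at h0
    rw [add_comm]
    simp only [pow_zero, one_smul, one_mul, Nat.sub_zero] at h0
    rw [← h0]
    congr 1
    refine Finset.sum_congr rfl fun i _ => ?_
    rw [he, smul_mul_assoc]
  obtain ⟨D', -, hD'⟩ := exists_twist h1' D (by rw [intSpanMF_levelOne]; trivial) σ.toAddMonoidHom
  obtain ⟨b', -, hb'⟩ := exists_twist h1 b hb σ.toAddMonoidHom
  choose e' _ he' using fun i => exists_twist h1' (e i) (by rw [intSpanMF_levelOne]; trivial)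
    σ.toAddMonoidHom
  set Φ : PowerSeries ℂ →+* PowerSeries ℂ := PowerSeries.map σ with hΦ
  -- elements of `Nice`
  let Dn : Nice := ⟨D, coe_mem_Nice h1' D⟩
  let bn : Nice := ⟨b, coe_mem_Nice h1 b⟩
  let fn : Nice := ⟨f, coe_mem_Nice h1 f⟩
  let en : ℕ → Nice := fun i => ⟨e i, coe_mem_Nice h1' (e i)⟩
  let Dn' : Nice := ⟨D', coe_mem_Nice h1' D'⟩
  let bn' : Nice := ⟨b', coe_mem_Nice h1 b'⟩
  let en' : ℕ → Nice := fun i => ⟨e' i, coe_mem_Nice h1' (e' i)⟩
  have hqD : qHom Dn' = Φ (qHom Dn) := by ext n; simpa [Dn, Dn', hΦ] using hD' n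
  have hqb : qHom bn' = Φ (qHom bn) := by ext n; simpa [bn, bn', hΦ] using hb' n
  have hqe : ∀ i, qHom (en' i) = Φ (qHom (en i)) := fun i => by
    ext n; simpa [en, en', hΦ] using he' i n
  have hbn : bn = Dn * fn := Subtype.ext hDf.symm
  have hrel0 : relExpr μ en fn 1 = 0 := by
    apply Subtype.ext
    simpa [relExpr, en, fn] using hrel
  have hrel1 : relExpr μ en' bn' Dn' = 0 := by
    apply qHom_injective
    rw [map_zero, ← AlgHom.coe_toRingHom, map_relExpr]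
    simp only [AlgHom.coe_toRingHom, hqD, hqb, hqe]
    rw [← map_relExpr Φ, ← AlgHom.coe_toRingHom, ← map_relExpr, hbn, relExpr_mul, hrel0, mul_zero,
      map_zero, map_zero]
  have hD'0 : D' ≠ 0 := by
    intro h0
    apply hD
    have h2 : qHom Dn' = 0 := by
      simp only [qHom_apply, Dn', h0]
      exact qExpansion_zero 1
    rw [hqD] at h2
    have h3 : qHom Dn = 0 :=
      (map_eq_zero_iff Φ (PowerSeries.map_injective σ σ.injective)).mp h2
    exact (ModularForm.qExpansion_eq_zero_iff one_pos h1' D).mp h3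
  obtain ⟨h, hhmem, hh⟩ := exists_quotient_of_relation (H := Gamma0 N) (k := m) (K' := k)
    (D := ⇑D') (b := ⇑b') (MFs_top_le (mf_coe_mem_MFs_top D'))
    (fun h0 => hD'0 (DFunLike.coe_injective h0)) (mf_coe_mem_MFs _ b') μ hμ (fun i => ⇑(e' i))
    (fun j => mf_coe_mem_MFs_top (e' j)) (by
      have := congrArg Subtype.val hrel1
      simpa [relExpr, en', bn', Dn'] using this)
  refine ⟨h, hhmem, fun n => ?_⟩
  let hn : Nice := ⟨h, mem_Nice_of_mem_MFs_Gamma0 hhmem⟩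
  have h4 : Dn' * hn = bn' := Subtype.ext hh
  have h5 : qHom Dn' * qHom hn = qHom Dn' * Φ (qHom fn) := by
    rw [← map_mul, h4, hqb, hbn, map_mul, map_mul, hqD]
  have h6 : qHom Dn' ≠ 0 := by
    intro h0
    exact hD'0 ((ModularForm.qExpansion_eq_zero_iff one_pos h1' D').mp h0)
  have h7 := mul_left_cancel₀ h6 h5
  have := congrArg (PowerSeries.coeff n) h7
  simpa [hn, fn, hΦ] using this

/-- The `q`-expansion coefficients as a linear map on `MFs (Gamma0 N) k`. -/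
noncomputable def ratFamT (N : ℕ) (k : ℤ) : MFs (Gamma0 N) k →ₗ[ℂ] (ℕ → ℂ) :=
  (LinearMap.pi fun n => (PowerSeries.coeff (R := ℂ) n)) ∘ₗ qHom.toLinearMap ∘ₗ
    Submodule.inclusion (show MFs (Gamma0 N) k ≤ Subalgebra.toSubmodule Nice from
      fun _ hF => mem_Nice_of_mem_MFs_Gamma0 hF)

lemma ratFamT_apply (N : ℕ) (k : ℤ) (F : MFs (Gamma0 N) k) (n : ℕ) :
    ratFamT N k F n = (qExpansion 1 (F : ℍ → ℂ)).coeff n := rfl

lemma ratFamT_injective (N : ℕ) (k : ℤ) : Function.Injective (ratFamT N k) := by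
  intro F G hFG
  apply Subtype.ext
  refine Nice.eq_of_qExpansion_eq (mem_Nice_of_mem_MFs_Gamma0 F.2)
    (mem_Nice_of_mem_MFs_Gamma0 G.2) ?_
  ext n
  exact congrFun hFG n

lemma ratFam_finiteDimensional (N : ℕ) [NeZero N] (k : ℤ) :
    FiniteDimensional ℂ (MFs (Gamma0 N) k) := by
  set B : ℕ := (k * (Gamma0 N).index).toNat / 12 with hB
  let T : MFs (Gamma0 N) k →ₗ[ℂ] (Fin (B + 1) → ℂ) :=
    (LinearMap.funLeft ℂ ℂ (fun i : Fin (B + 1) => (i : ℕ))).comp (ratFamT N k)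
  have hT : Function.Injective T := by
    rw [injective_iff_map_eq_zero]
    intro F hF
    obtain ⟨f, hf⟩ := exists_modularForm_of_mem_MFs F.2
    have h0 : f = 0 := by
      apply ModularForm.sturm_bound_Gamma0 N f
      intro n hn
      have := congrFun hF ⟨n, Nat.lt_succ_of_le hn⟩
      rw [hf]
      exact this
    apply Subtype.ext
    rw [← hf, h0]
    rfl
  exact FiniteDimensional.of_injective T hT

theorem span_ratQ (N : ℕ) [NeZero N] (k : ℤ) :
    MFs (Gamma0 N) k ≤ Submodule.span ℂ {G | G ∈ MFs (Gamma0 N) k ∧ IsRatQ G} := by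
  have := ratFam_finiteDimensional N k
  set V : Submodule ℂ (ℕ → ℂ) := LinearMap.range (ratFamT N k) with hV
  have hstab : ∀ σ : ℂ ≃+* ℂ, ∀ v ∈ V, (fun n => σ (v n)) ∈ V := by
    rintro σ _ ⟨F, rfl⟩
    obtain ⟨G, hG, hh⟩ := exists_sigma_twist_MFs N F.2 (σ : ℂ →+* ℂ)
    exact ⟨⟨G, hG⟩, funext hh⟩
  have key := span_rational_of_aut_stable V hstab
  have hset : {v | v ∈ V ∧ ∀ n, ∃ r : ℚ, v n = (r : ℂ)} =
      (ratFamT N k) '' {F : MFs (Gamma0 N) k | IsRatQ (F : ℍ → ℂ)} := by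
    ext v
    constructor
    · rintro ⟨⟨F, rfl⟩, hv⟩
      exact ⟨F, hv, rfl⟩
    · rintro ⟨F, hF, rfl⟩
      exact ⟨⟨F, rfl⟩, hF⟩
  rw [hset, ← Submodule.map_span] at key
  intro F hF
  have hf : ratFamT N k ⟨F, hF⟩ ∈ V := ⟨_, rfl⟩
  rw [key] at hf
  obtain ⟨G, hG, hGF⟩ := hf
  have hGF' := ratFamT_injective N k hGF
  have h2 : (MFs (Gamma0 N) k).subtype G ∈
      (Submodule.span ℂ {F : MFs (Gamma0 N) k | IsRatQ (F : ℍ → ℂ)}).map
        (MFs (Gamma0 N) k).subtype := ⟨G, hG, rfl⟩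
  rw [Submodule.map_span, hGF'] at h2
  refine Submodule.span_mono ?_ h2
  rintro _ ⟨G', hG', rfl⟩
  exact ⟨G'.2, hG'⟩

theorem exists_ratFam (N : ℕ) [NeZero N] :
    ∃ (w : Cos (Gamma0 N) → ℤ) (B : Cos (Gamma0 N) → ℍ → ℂ), IsFam (Gamma0 N) w B ∧
      (∀ i, IsRatQ (B i)) ∧ (∀ i, 0 ≤ w i) ∧ (∀ i, Even (w i)) := by
  classical
  let _ : Fintype (Cos (Gamma0 N)) := Fintype.ofFinite _
  have hneg : (-1 : SL(2, ℤ)) ∈ Gamma0 N := by
    rw [Gamma0_mem]
    simp
  obtain ⟨ι, w, B, hfam, -, hS, -⟩ := exists_isFam_of_span (Gamma0 N)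
    (fun k => {G | G ∈ MFs (Gamma0 N) k ∧ IsRatQ G}) (fun k G hG => hG.1) (span_ratQ N)
  obtain ⟨e⟩ := nonempty_equiv_of_isFam hneg (hasSep_Gamma0 N) hfam
  have hfam' := hfam.comp_equiv e
  exact ⟨w ∘ e, B ∘ e, hfam', fun i => (hS (e i)).2, hfam'.nonneg, hfam'.even hneg⟩

end Fermat.Agent.S24
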