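import Fermat.Agent.S24.Fundamental

/-!
# S24, package FF-5: principal divisors have degree zero
-/

set_option autoImplicit false

namespace Fermat.Agent.S24

open AlgebraicCurve IntermediateField

variable {K F : Type*} [Field K] [Field F] [Algebra K F]

lemma princ_setOf_ord_ne_zero (f : F) :
    {v : Place K F | v.ord f ≠ 0} = zerosOf K f ∪ zerosOf K f⁻¹ := by
  ext v
  simp only [zerosOf, Set.mem_union, Set.mem_ofPred_eq, Place.ord_inv]
  constructor
  · intro h
    rcases lt_or_gt_of_ne h with h | h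
    · right; omega
    · left; exact h
  · rintro (h | h) <;> omega

/-- the support of `f ≠ 0` is finite -/
theorem IsFF.finite_ord_ne_zero [IsAlgClosed K] [CharZero K] (h : IsFF K F) {f : F} (hf : f ≠ 0) :
    {v : Place K F | v.ord f ≠ 0}.Finite := by
  rw [princ_setOf_ord_ne_zero]
  exact (h.zerosOf_finite hf).union (h.zerosOf_finite (inv_ne_zero hf))

/-- `deg div f = [F:K(f)] - [F:K(1/f)] = 0` (`f ∉ K`), all `ord_v f = 0` for `f ∈ K`;
`deg v = 1`. -/
theorem IsFF.degree_eq_zero_of_principal [IsAlgClosed K] [CharZero K] (h : IsFF K F) {f : F}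
    (hf : f ≠ 0) (D : Divisor K F) (hD : ∀ v, D v = v.ord f) : Divisor.degree D = 0 := by
  classical
  have hdeg : Divisor.degree D = ∑ v ∈ D.support, v.ord f := by
    simp only [Divisor.degree, Finsupp.liftAddHom_apply, Finsupp.sum, AddMonoidHom.coe_mulRight]
    refine Finset.sum_congr rfl fun v _ => ?_
    rw [h.deg_eq_one v, hD v]
    simp
  by_cases hfK : f ∈ Set.range (algebraMap K F)
  · obtain ⟨c, rfl⟩ := hfK
    rw [hdeg]
    exact Finset.sum_eq_zero fun v _ => ord_algebraMap v c
  have hft : Transcendental K f := transcendental_of_not_mem_range hfK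
  have hsupp : (D.support : Set (Place K F)) = zerosOf K f ∪ zerosOf K f⁻¹ := by
    rw [← princ_setOf_ord_ne_zero]
    ext v
    simp [hD v]
  have hdisj : Disjoint (zerosOf K f) (zerosOf K f⁻¹) := by
    rw [Set.disjoint_left]
    intro v h1 h2
    simp only [zerosOf, Set.mem_ofPred_eq, Place.ord_inv] at h1 h2
    omega
  rw [hdeg, ← finsum_mem_coe_finset, hsupp,
    finsum_mem_union hdisj (h.zerosOf_finite hf) (h.zerosOf_finite (inv_ne_zero hf)),
    h.sum_ord_zerosOf hft]
  have h2 : ∑ᶠ v ∈ zerosOf K f⁻¹, v.ord f = -∑ᶠ v ∈ zerosOf K f⁻¹, v.ord f⁻¹ := by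
    rw [← finsum_mem_neg_distrib _ (h.zerosOf_finite (inv_ne_zero hf))]
    refine finsum_mem_congr rfl fun v _ => ?_
    rw [Place.ord_inv, neg_neg]
  rw [h2, h.sum_ord_zerosOf (transcendental_inv hft), adjoin_inv_eq]
  ring

end Fermat.Agent.S24
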