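import Fermat.Agent.S24.OrdDiff
import Fermat.Agent.S24.Principal

/-!
# S24, package FF-8: Riemann-Hurwitz in counting form, and the genus
-/

set_option autoImplicit false

namespace Fermat.Agent.S24

open AlgebraicCurve IntermediateField KaehlerDifferential

variable {K F : Type*} [Field K] [Field F] [Algebra K F]

/-- the degree of a divisor is the sum of its values (all places have degree one). -/
theorem IsFF.rh_degree [IsAlgClosed K] (h : IsFF K F) (D : Divisor K F)
    (T : Finset (Place K F)) (hT : D.support ⊆ T) : Divisor.degree D = ∑ v ∈ T, D v := by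
  have h1 : Divisor.degree D = D.sum fun v n => n * (v.deg : ℤ) := by
    simp [Divisor.degree, Finsupp.liftAddHom_apply]
  rw [h1, Finsupp.sum_of_support_subset D hT _ (fun v _ => by simp)]
  refine Finset.sum_congr rfl fun v _ => ?_
  rw [h.deg_eq_one v]; simp

/-- sum over a fibre. -/
theorem IsFF.rh_sum_fibre [IsAlgClosed K] [CharZero K] (h : IsFF K F) {y : F}
    (hy : Transcendental K y) (hy0 : y ≠ 0) :
    ∑ v ∈ (h.zerosOf_finite hy0).toFinset, (v.ord y - 1) =
      (Module.finrank K⟮y⟯ F : ℤ) - Nat.card (zerosOf K y) := by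
  rw [Finset.sum_sub_distrib, ← h.sum_ord_zerosOf hy,
    finsum_mem_eq_finite_toFinset_sum _ (h.zerosOf_finite hy0)]
  congr 1
  rw [Finset.sum_const, Nat.card_coe_set_eq, Set.ncard_eq_toFinset_card _ (h.zerosOf_finite hy0)]
  simp

/-- an unramified fibre. -/
theorem IsFF.rh_ord_eq_one [IsAlgClosed K] [CharZero K] (h : IsFF K F) {y : F}
    (hy : Transcendental K y) (hy0 : y ≠ 0)
    (hcard : Nat.card (zerosOf K y) = Module.finrank K⟮y⟯ F) {v : Place K F}
    (hv : v ∈ zerosOf K y) : v.ord y = 1 := by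
  have h1 := h.rh_sum_fibre hy hy0
  rw [hcard, sub_self] at h1
  have h2 := (Finset.sum_eq_zero_iff_of_nonneg (fun w hw => by
    have hw' : w ∈ zerosOf K y := (Set.Finite.mem_toFinset _).mp hw
    have : 0 < w.ord y := hw'
    omega)).mp h1 v ((Set.Finite.mem_toFinset _).mpr hv)
  omega

/-- the order of `dx` at a place where `x` takes the value `c`. -/
theorem IsFF.rh_ordDifferential_zero [IsAlgClosed K] [CharZero K] (h : IsFF K F) (x : F) (c : K)
    {v : Place K F} (hv : v ∈ zerosOf K (x - algebraMap K F c)) :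
    v.ordDifferential (D K F x) = v.ord (x - algebraMap K F c) - 1 := by
  have hv' : 0 < v.ord (x - algebraMap K F c) := hv
  rw [← h.ordDifferential_D v hv'.ne', map_sub, Derivation.map_algebraMap, sub_zero]

/-- the order of `dx` at a pole of `x`. -/
theorem IsFF.rh_ordDifferential_pole [IsAlgClosed K] [CharZero K] (h : IsFF K F) (x : F)
    {v : Place K F} (hv : v ∈ zerosOf K x⁻¹) :
    v.ordDifferential (D K F x) = -(v.ord x⁻¹ - 1) - 2 := by
  have hv' : 0 < v.ord x⁻¹ := hv
  rw [v.ord_inv] at hv'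
  rw [h.ordDifferential_D v (by omega), v.ord_inv]
  ring

/-- every place is a zero of some `x - c` or a pole of `x`. -/
theorem IsFF.rh_cover [IsAlgClosed K] (h : IsFF K F) {x : F} (hx : Transcendental K x)
    (v : Place K F) : (∃ c : K, v ∈ zerosOf K (x - algebraMap K F c)) ∨ v ∈ zerosOf K x⁻¹ := by
  have hx0 : x ≠ 0 := by
    rintro rfl
    exact hx isAlgebraic_zero
  by_cases hxv : x ∈ v.toValuationSubring
  · left
    obtain ⟨c, hc | hc⟩ := h.exists_residue v hxv
    · exact absurd (hc ▸ isAlgebraic_algebraMap c) hx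
    · exact ⟨c, hc⟩
  · right
    have : ¬ 0 ≤ v.ord x := fun h0 => hxv ((ord_nonneg_iff v hx0).mp h0)
    change 0 < v.ord x⁻¹
    rw [v.ord_inv]
    omega

theorem rh_disjoint_zeros (x : F) {c d : K} (hcd : c ≠ d) (v : Place K F)
    (hc : v ∈ zerosOf K (x - algebraMap K F c)) (hd : v ∈ zerosOf K (x - algebraMap K F d)) :
    False := by
  have hc' : 0 < v.ord (x - algebraMap K F c) := hc
  have hd' : 0 < v.ord (x - algebraMap K F d) := hd
  have hne : (x - algebraMap K F c) + -(x - algebraMap K F d) ≠ 0 := by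
    intro h0
    apply hcd
    apply (algebraMap K F).injective
    linear_combination -h0
  have h1 := le_ord_add v hne
  rw [ord_neg] at h1
  have h2 : (x - algebraMap K F c) + -(x - algebraMap K F d) = algebraMap K F (d - c) := by
    rw [map_sub]; ring
  rw [h2, ord_algebraMap] at h1
  have := lt_min hc' hd'
  omega

theorem rh_disjoint_pole (x : F) (c : K) (v : Place K F)
    (hc : v ∈ zerosOf K (x - algebraMap K F c)) (hd : v ∈ zerosOf K x⁻¹) : False := by
  have hc' : 0 < v.ord (x - algebraMap K F c) := hc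
  have hd' : 0 < v.ord x⁻¹ := hd
  rw [v.ord_inv] at hd'
  have hx0 : x ≠ 0 := by
    rintro rfl
    simp at hd'
  have hne : x - algebraMap K F c ≠ 0 := by
    intro h0
    rw [h0] at hc'
    simp at hc'
  have h1 : x - algebraMap K F c ∈ v.toValuationSubring := (ord_nonneg_iff v hne).mp hc'.le
  have h2 : x ∈ v.toValuationSubring := by
    have := v.toValuationSubring.add_mem _ _ h1 (v.algebraMap_mem' c)
    rwa [sub_add_cancel] at this
  have := (ord_nonneg_iff v hx0).mpr h2
  omega

/-- Riemann-Hurwitz in counting form.  `ω = f dx`; `deg div f = 0`; at `v` with `x(v) = c`: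
`ord_v dx = ord_v (x-c) - 1`; at a pole: `ord_v dx = ord_v x - 1`; sum over the fibres with the
fundamental identity. -/
theorem IsFF.degree_canonical [IsAlgClosed K] [CharZero K] (h : IsFF K F) {x : F}
    (hx : Transcendental K x) (S : Finset K)
    (hS : ∀ c : K, c ∉ S → Nat.card (zerosOf K (x - algebraMap K F c)) = Module.finrank K⟮x⟯ F)
    {ω : Ω[F⁄K]} (hω : ω ≠ 0) (D : Divisor K F) (hD : ∀ v, D v = v.ordDifferential ω) :
    Divisor.degree D =
      ∑ c ∈ S, ((Module.finrank K⟮x⟯ F : ℤ) - Nat.card (zerosOf K (x - algebraMap K F c)))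
        - Module.finrank K⟮x⟯ F - Nat.card (zerosOf K x⁻¹) := by
  classical
  have hx0 : x ≠ 0 := by
    rintro rfl
    exact hx isAlgebraic_zero
  have hxc : ∀ c, Transcendental K (x - algebraMap K F c) := transcendental_sub_algebraMap hx
  have hxc0 : ∀ c, x - algebraMap K F c ≠ 0 := by
    intro c h0
    exact hxc c (h0 ▸ isAlgebraic_zero)
  have hxi : Transcendental K x⁻¹ := transcendental_inv hx
  have hxi0 : x⁻¹ ≠ 0 := inv_ne_zero hx0
  -- `ω = f dx`
  obtain ⟨f, hf⟩ : ∃ f : F, f • KaehlerDifferential.D K F x = ω :=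
    Submodule.mem_span_singleton.mp (h.span_D_eq_top hx ▸ Submodule.mem_top)
  have hf0 : f ≠ 0 := by
    rintro rfl
    exact hω (by rw [← hf, zero_smul])
  have hdx : KaehlerDifferential.D K F x ≠ 0 := h.D_ne_zero hx
  -- the divisor of `f`
  let Df : Divisor K F := Finsupp.ofSupportFinite (fun v => v.ord f) (h.finite_ord_ne_zero hf0)
  have hDf : ∀ v, Df v = v.ord f := fun v => rfl
  have hdeg0 := h.degree_eq_zero_of_principal hf0 Df hDf
  have hE : ∀ v, (D - Df) v = v.ordDifferential (KaehlerDifferential.D K F x) := by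
    intro v
    rw [Finsupp.sub_apply, hD, hDf, ← hf, h.ordDifferential_smul v hf0 hdx]; ring
  have hdeg : Divisor.degree D = Divisor.degree (D - Df) := by rw [map_sub, hdeg0, sub_zero]
  let Z : K → Finset (Place K F) := fun c => (h.zerosOf_finite (hxc0 c)).toFinset
  let Zi : Finset (Place K F) := (h.zerosOf_finite hxi0).toFinset
  have hZ : ∀ c v, v ∈ Z c ↔ v ∈ zerosOf K (x - algebraMap K F c) := fun c v =>
    Set.Finite.mem_toFinset _
  have hZi : ∀ v, v ∈ Zi ↔ v ∈ zerosOf K x⁻¹ := fun v => Set.Finite.mem_toFinset _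
  have hsupp : (D - Df).support ⊆ S.biUnion Z ∪ Zi := by
    intro v hv
    rw [Finsupp.mem_support_iff, hE] at hv
    rcases h.rh_cover hx v with ⟨c, hc⟩ | hp
    · by_cases hcS : c ∈ S
      · exact Finset.mem_union_left _ (Finset.mem_biUnion.mpr ⟨c, hcS, (hZ c v).mpr hc⟩)
      · exfalso
        apply hv
        rw [h.rh_ordDifferential_zero x c hc, h.rh_ord_eq_one (hxc c) (hxc0 c)
          (by rw [hS c hcS, adjoin_sub_algebraMap_eq]) hc]
        rfl
    · exact Finset.mem_union_right _ ((hZi v).mpr hp)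
  have hdisj1 : Disjoint (S.biUnion Z) Zi := by
    rw [Finset.disjoint_left]
    intro v hv hvi
    obtain ⟨c, -, hc⟩ := Finset.mem_biUnion.mp hv
    exact rh_disjoint_pole x c v ((hZ c v).mp hc) ((hZi v).mp hvi)
  have hdisj2 : (S : Set K).PairwiseDisjoint Z := by
    intro c _ d _ hcd
    rw [Function.onFun, Finset.disjoint_left]
    intro v hc hd
    exact rh_disjoint_zeros x hcd v ((hZ c v).mp hc) ((hZ d v).mp hd)
  rw [hdeg, h.rh_degree _ _ hsupp, Finset.sum_union hdisj1, Finset.sum_biUnion hdisj2]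
  have h1 : ∀ c ∈ S, ∑ v ∈ Z c, (D - Df) v =
      (Module.finrank K⟮x⟯ F : ℤ) - Nat.card (zerosOf K (x - algebraMap K F c)) := by
    intro c _
    have := h.rh_sum_fibre (hxc c) (hxc0 c)
    rw [adjoin_sub_algebraMap_eq] at this
    rw [← this]
    refine Finset.sum_congr rfl fun v hv => ?_
    rw [hE, h.rh_ordDifferential_zero x c ((hZ c v).mp hv)]
  have h2 : ∑ v ∈ Zi, (D - Df) v =
      - (Module.finrank K⟮x⟯ F : ℤ) - Nat.card (zerosOf K x⁻¹) := by
    have h3 := h.rh_sum_fibre hxi hxi0
    rw [adjoin_inv_eq] at h3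
    have h4 : ∑ v ∈ Zi, (D - Df) v = ∑ v ∈ Zi, (-(v.ord x⁻¹ - 1) - 2) := by
      refine Finset.sum_congr rfl fun v hv => ?_
      rw [hE, h.rh_ordDifferential_pole x ((hZi v).mp hv)]
    have h5 : (Zi.card : ℤ) = Nat.card (zerosOf K x⁻¹) := by
      rw [Nat.card_coe_set_eq, Set.ncard_eq_toFinset_card _ (h.zerosOf_finite hxi0)]
    rw [h4, Finset.sum_sub_distrib, Finset.sum_neg_distrib, h3, Finset.sum_const, ← h5]
    simp
    ring
  rw [Finset.sum_congr rfl h1, h2]
  ring

/-- The genus from the fibre cardinalities. -/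
theorem IsFF.genus_eq [IsAlgClosed K] [CharZero K] (h : IsFF K F)
    [HasCanonicalDivisor (K := K) (F := F)] {x : F}
    (hx : Transcendental K x) (S : Finset K)
    (hS : ∀ c : K, c ∉ S → Nat.card (zerosOf K (x - algebraMap K F c)) = Module.finrank K⟮x⟯ F)
    (g : ℕ)
    (hg : ∑ c ∈ S, ((Module.finrank K⟮x⟯ F : ℤ) - Nat.card (zerosOf K (x - algebraMap K F c)))
        - Module.finrank K⟮x⟯ F - Nat.card (zerosOf K x⁻¹) = 2 * g - 2) :
    genus K F = g := by
  have hex : ∃ ω : Ω[F⁄K], ω ≠ 0 := ⟨_, h.D_ne_zero hx⟩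
  rw [genus, dif_pos hex,
    h.degree_canonical hx S hS hex.choose_spec _ (canonicalDivisorOf_apply hex.choose_spec), hg]
  omega

end Fermat.Agent.S24
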