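import Fermat.Agent.S24.Fiber
import Fermat.Agent.S24.Ranks
import Fermat.Agent.S24.RatFam
import Fermat.Agent.S24.RiemannHurwitz
import Fermat.Agent.S20
import Fermat.Agent.S20.LevelOnePi

/-!
# S24, package MF-O: numerics and assembly
-/

set_option autoImplicit false

namespace Fermat.Agent.S24

open UpperHalfPlane ModularForm EisensteinSeries Filter Topology CongruenceSubgroup ModularCurve
open Fermat.Agent.S20 Fermat.Agent.S23 IntermediateField AlgebraicCurve
open scoped MatrixGroups Manifold ModularForm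

/-! ### pointwise numerics -/

lemma ind_four (w : ℤ) (h0 : 0 ≤ w) (h10 : w ≤ 10) (hev : Even w) :
    (if (4 : ℤ) ∣ w then 2 else 0 : ℝ) = 1 + (Complex.I ^ (-w)).re := by
  have hw : w = 0 ∨ w = 2 ∨ w = 4 ∨ w = 6 ∨ w = 8 ∨ w = 10 := by
    obtain ⟨m, rfl⟩ := hev
    omega
  rcases hw with rfl | rfl | rfl | rfl | rfl | rfl
  · norm_num
  · rw [I_zpow_neg_two]; norm_num
  · rw [I_zpow_neg_four]; norm_num
  · rw [I_zpow_neg_six]; norm_num
  · rw [I_zpow_neg_eight]; norm_num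
  · rw [I_zpow_neg_ten]; norm_num

lemma ind_six (w : ℤ) (h0 : 0 ≤ w) (h10 : w ≤ 10) (hev : Even w) :
    (if (6 : ℤ) ∣ w then 3 else 0 : ℝ) = 1 + 2 * (xi ^ (-w)).re := by
  have hw : w = 0 ∨ w = 2 ∨ w = 4 ∨ w = 6 ∨ w = 8 ∨ w = 10 := by
    obtain ⟨m, rfl⟩ := hev
    omega
  rcases hw with rfl | rfl | rfl | rfl | rfl | rfl
  · norm_num
  · rw [xi_zpow_neg_two, Complex.neg_re, xi_re]; norm_num
  · rw [xi_zpow_neg_four, xi_sq_re]; norm_num
  · rw [xi_zpow_neg_six]; norm_num
  · rw [xi_zpow_neg_eight, Complex.neg_re, xi_re]; norm_num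
  · rw [xi_zpow_neg_ten, xi_sq_re]; norm_num

/-! ### the fibres -/

section fibres

variable {N : ℕ} [NeZero N] [Fintype (Cos (Gamma0 N))] [DecidableEq (Cos (Gamma0 N))]
  {w : Cos (Gamma0 N) → ℤ} {B : Cos (Gamma0 N) → ℍ → ℂ}

lemma neg_one_mem_Gamma0 (N : ℕ) : (-1 : SL(2, ℤ)) ∈ Gamma0 N := by
  simp [Gamma0_mem]

lemma coe_jBar (N : ℕ) : ((jBar N : FN N) : LaurentSeries Kb) = jS := jS_eq.symm

theorem card_fiber_fin (hfam : IsFam (Gamma0 N) w B) (hrat : ∀ i, IsRatQ (B i)) (c : Kb) :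
    ∃ z : ℍ, E₄ z ^ 3 = iota c * discriminant z ∧
      Nat.card (zerosOf Kb (jBar N - algebraMap Kb (FN N) c)) =
        Fintype.card {i // E₄ z ^ aExp (w i) * E₆ z ^ bExp (w i) ≠ 0} := by
  obtain ⟨pr, hP, hQ, ht⟩ := exists_pairFin
  obtain ⟨z, hz⟩ := exists_j_eq (iota c)
  obtain ⟨z0, hz0⟩ := exists_det_ne_zero (hasSep_Gamma0 N) hfam
  have hdet := det_Mat_ne_zero hfam hz0
  refine ⟨z, hz, ?_⟩
  have key := card_zerosOf_fiber (N := N) (pr := pr) (Or.inl ht) hfam hrat hfam.nonneg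
    (hfam.even (neg_one_mem_Gamma0 N)) (l := pure z) (hasLims_pure _ z)
    (p₀ := discriminant z) (q₀ := E₄ z ^ 3)
    (by rw [hP]; exact tendsto_pure_nhds _ _)
    (by rw [hQ]; exact tendsto_pure_nhds (fun z => (⇑E₄ ^ 3 : ℍ → ℂ) z) z)
    (discriminant_ne_zero z) (c := c) hz.symm
    (y := jBar N - algebraMap Kb (FN N) c)
    (by rw [ht, ← coe_jBar N]; rfl)
    (e4 := E₄ z) (e6 := E₆ z) (tendsto_pure_nhds _ _) (tendsto_pure_nhds _ _)
    (M := Mat (Gamma0 N) w B z) (fun i x => tendsto_pure_nhds _ _)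
  rw [key]
  exact rank_diag_mul (fun i => E₄ z ^ aExp (w i) * E₆ z ^ bExp (w i)) _ (hdet z)

lemma E6_sq_eq (z : ℍ) : E₆ z ^ 2 = E₄ z ^ 3 - 1728 * discriminant z := by
  rw [discriminant_eq_E₄_cube_sub_E₆_sq z]; ring

theorem card_fiber_generic (hfam : IsFam (Gamma0 N) w B) (hrat : ∀ i, IsRatQ (B i)) {c : Kb}
    (h0 : c ≠ 0) (h1 : c ≠ 1728) :
    Nat.card (zerosOf Kb (jBar N - algebraMap Kb (FN N) c)) = Fintype.card (Cos (Gamma0 N)) := by
  obtain ⟨z, hz, hcard⟩ := card_fiber_fin hfam hrat c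
  have hΔ := discriminant_ne_zero z
  have hc0 : iota c ≠ 0 := by rwa [Ne, map_eq_zero]
  have hc1 : iota c - 1728 ≠ 0 := by
    intro h
    apply h1
    apply iota_injective
    rw [sub_eq_zero.mp h]; exact (map_ofNat iota 1728).symm
  have h4 : E₄ z ≠ 0 := by
    intro h
    rw [h] at hz
    exact mul_ne_zero hc0 hΔ (by rw [← hz]; ring)
  have h6 : E₆ z ≠ 0 := by
    intro h
    have := E6_sq_eq z
    rw [h, hz] at this
    exact mul_ne_zero hc1 hΔ (by linear_combination -this)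
  rw [hcard, Fintype.card_subtype]
  rw [Finset.filter_true_of_mem fun i _ => mul_ne_zero (pow_ne_zero _ h4) (pow_ne_zero _ h6)]
  rfl

theorem card_fiber_zero (hfam : IsFam (Gamma0 N) w B) (hrat : ∀ i, IsRatQ (B i)) :
    Nat.card (zerosOf Kb (jBar N - algebraMap Kb (FN N) 0)) =
      Fintype.card {i // (6 : ℤ) ∣ w i} := by
  obtain ⟨z, hz, hcard⟩ := card_fiber_fin hfam hrat 0
  have hΔ := discriminant_ne_zero z
  have h4 : E₄ z = 0 := by
    rw [map_zero, zero_mul] at hz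
    exact pow_eq_zero_iff (by norm_num) |>.mp hz
  have h6 : E₆ z ≠ 0 := by
    intro h
    have := E6_sq_eq z
    rw [h, h4] at this
    exact hΔ (by linear_combination (1 / 1728 : ℂ) * this)
  rw [hcard]
  refine Fintype.card_congr (Equiv.subtypeEquivRight fun i => ?_)
  rw [← aExp_eq_zero_iff (hfam.even (neg_one_mem_Gamma0 N) i), h4]
  constructor
  · intro h
    by_contra ha
    exact h (by rw [zero_pow ha, zero_mul])
  · intro ha
    rw [ha, pow_zero, one_mul]
    exact pow_ne_zero _ h6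

theorem card_fiber_1728 (hfam : IsFam (Gamma0 N) w B) (hrat : ∀ i, IsRatQ (B i)) :
    Nat.card (zerosOf Kb (jBar N - algebraMap Kb (FN N) 1728)) =
      Fintype.card {i // (4 : ℤ) ∣ w i} := by
  obtain ⟨z, hz, hcard⟩ := card_fiber_fin hfam hrat 1728
  have hΔ := discriminant_ne_zero z
  have hi : iota 1728 = 1728 := map_ofNat iota 1728
  have h6 : E₆ z = 0 := by
    have := E6_sq_eq z
    rw [hz, hi, sub_self] at this
    exact pow_eq_zero_iff (by norm_num) |>.mp this
  have h4 : E₄ z ≠ 0 := by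
    intro h
    rw [h, hi] at hz
    exact hΔ (by linear_combination (-1 / 1728 : ℂ) * hz)
  rw [hcard]
  refine Fintype.card_congr (Equiv.subtypeEquivRight fun i => ?_)
  rw [← bExp_eq_zero_iff (hfam.even (neg_one_mem_Gamma0 N) i), h6]
  constructor
  · intro h
    by_contra ha
    exact h (by rw [zero_pow ha, mul_zero])
  · intro ha
    rw [ha, pow_zero, mul_one]
    exact pow_ne_zero _ h4

theorem card_fiber_infty (hfam : IsFam (Gamma0 N) w B) (hrat : ∀ i, IsRatQ (B i)) :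
    Nat.card (zerosOf Kb (jBar N)⁻¹) =
      Nat.card (MulAction.orbitRel.Quotient (Subgroup.zpowers ModularGroup.T)
        (Cos (Gamma0 N))) := by
  obtain ⟨pr, hP, hQ, ht⟩ := exists_pairInf
  have hl := hasLims_atImInfty (Gamma0 N)
  choose M hM using fun i x => hl (w i) (B i) (hfam.mem i) x
  have hΔ : Tendsto (discriminant : ℍ → ℂ) atImInfty (𝓝 0) := by
    have := Delta_mem.2.2 1
    rwa [SlashAction.slash_one] at this
  have key := card_zerosOf_fiber (N := N) (pr := pr) (Or.inr ht) hfam hrat hfam.nonneg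
    (hfam.even (neg_one_mem_Gamma0 N)) (l := atImInfty) hl
    (p₀ := 1) (q₀ := 0)
    (by rw [hP]; have := sep_E₄_tendsto.pow 3; rw [one_pow] at this; exact this)
    (by rw [hQ]; exact hΔ)
    one_ne_zero (c := 0) (by simp)
    (y := (jBar N)⁻¹)
    (by rw [ht, ← coe_jBar N, map_zero, sub_zero]; rfl)
    (e4 := 1) (e6 := 1) sep_E₄_tendsto l1_tendsto_E₆
    (M := Matrix.of M) (fun i x => hM i x)
  rw [key, ← rank_lim_atImInfty (neg_one_mem_Gamma0 N) hfam (M := Matrix.of M) fun i x => hM i x]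
  congr 1
  ext i x
  simp

end fibres

/-! ### assembly -/

theorem genus_FN (N : ℕ) [NeZero N] [HasCanonicalDivisor (K := Kb) (F := FN N)] :
    (genus Kb (FN N) : ℚ) = genusFormula N := by
  classical
  haveI : Fintype (Cos (Gamma0 N)) := Fintype.ofFinite _
  obtain ⟨w, B, hfam, hrat, -, -⟩ := exists_ratFam N
  have hneg := neg_one_mem_Gamma0 N
  obtain ⟨z0, hz0⟩ := exists_det_ne_zero (hasSep_Gamma0 N) hfam
  have hdet := det_Mat_ne_zero hfam hz0
  have hcusp := Delta_inv_tendsto hneg hfam hdet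
  have hS := trace_S hfam.mem hdet
  have hST := trace_ST hfam.mem hdet
  have h12 := weight_lt_twelve hfam.mem hdet hcusp
  have hev := hfam.even hneg
  have h0 := hfam.nonneg
  have h10 : ∀ i, w i ≤ 10 := fun i => by
    obtain ⟨m, hm⟩ := hev i
    have := h12 i
    omega
  have hμ : Fintype.card (Cos (Gamma0 N)) = dedekindPsi N := by
    rw [← Nat.card_eq_fintype_card]; exact card_cos N
  -- the two elliptic counts
  have h4 : (2 : ℝ) * Fintype.card {i // (4 : ℤ) ∣ w i} = dedekindPsi N + nuTwo N := by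
    have h1 : ∑ i, (if (4 : ℤ) ∣ w i then 2 else 0 : ℝ) = ∑ i, (1 + (Complex.I ^ (-w i)).re) :=
      Finset.sum_congr rfl fun i _ => ind_four (w i) (h0 i) (h10 i) (hev i)
    rw [Finset.sum_add_distrib, ← Complex.re_sum, hS, Complex.natCast_re, card_fixedBy_S,
      ← Finset.sum_filter, Finset.sum_const, Finset.sum_const, Finset.card_univ, hμ] at h1
    rw [Fintype.card_subtype]
    simpa [mul_comm] using h1
  have h6 : (3 : ℝ) * Fintype.card {i // (6 : ℤ) ∣ w i} = dedekindPsi N + 2 * nuThree N := by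
    have h1 : ∑ i, (if (6 : ℤ) ∣ w i then 3 else 0 : ℝ) = ∑ i, (1 + 2 * (xi ^ (-w i)).re) :=
      Finset.sum_congr rfl fun i _ => ind_six (w i) (h0 i) (h10 i) (hev i)
    rw [Finset.sum_add_distrib, ← Finset.mul_sum, ← Complex.re_sum, hST, Complex.natCast_re,
      card_fixedBy_ST, ← Finset.sum_filter, Finset.sum_const, Finset.sum_const, Finset.card_univ,
      hμ] at h1
    rw [Fintype.card_subtype]
    simpa [mul_comm] using h1
  have hg := Fermat.Agent.S20.result N
  rw [← hg]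
  norm_cast
  have hfin : Module.finrank Kb⟮jBar N⟯ (FN N) = dedekindPsi N :=
    (finrank_modularFunctionFieldBar N).2
  refine IsFF.genus_eq (isFF_FN N) (transcendental_jBar N) {0, 1728} ?_ _ ?_
  · intro c hc
    rw [Finset.mem_insert, Finset.mem_singleton, not_or] at hc
    rw [card_fiber_generic hfam hrat hc.1 hc.2, hfin, hμ]
  · have hne : (0 : Kb) ≠ 1728 := by norm_num
    rw [Finset.sum_pair hne, card_fiber_zero hfam hrat, card_fiber_1728 hfam hrat,
      card_fiber_infty hfam hrat, card_orbits_T, hfin]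
    have hg' : (12 : ℝ) * Module.finrank ℂ (CuspForm (Gamma0 N) 2) =
        12 + dedekindPsi N - 3 * nuTwo N - 4 * nuThree N - 6 * cuspCount N := by
      have : ((Module.finrank ℂ (CuspForm (Gamma0 N) 2) : ℚ) : ℝ) = ((genusFormula N : ℚ) : ℝ) := by
        rw [hg]
      unfold genusFormula at this
      push_cast at this
      linarith
    have : (6 : ℝ) * (((dedekindPsi N : ℤ) - (Fintype.card {i // (6 : ℤ) ∣ w i} : ℤ) +
        ((dedekindPsi N : ℤ) - (Fintype.card {i // (4 : ℤ) ∣ w i} : ℤ)) - (dedekindPsi N : ℤ) -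
        (cuspCount N : ℤ) : ℤ) : ℝ) =
        6 * ((2 * (Module.finrank ℂ (CuspForm (Gamma0 N) 2) : ℤ) - 2 : ℤ) : ℝ) := by
      push_cast
      linarith
    exact_mod_cast mul_left_cancel₀ (by norm_num : (6 : ℝ) ≠ 0) this

end Fermat.Agent.S24
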