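import Fermat.Agent.S24.QL

/-!
# S24, package MF-G: descent of linear relations from `ℂ((q))` to `ℚ̄((q))`
(`ℂ ⊗_ℚ̄ ℚ̄((q)) → ℂ((q))` is injective: expand the `c i` in a `ℚ̄`-basis of their span and compare
coefficients.)
-/

set_option autoImplicit false

namespace Fermat.Agent.S24

open ModularCurve

attribute [local instance] algKbC

variable {ι : Type*} [Fintype ι]

/-- apply a `ℚ̄`-linear functional on `ℂ` to a relation, coefficientwise. -/
theorem descent_apply (φ : ℂ →ₗ[Kb] Kb) (s : ι → LaurentSeries Kb) (c : ι → ℂ) (n : ℤ) :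
    φ ((∑ i, c i • iotaL (s i)).coeff n) = (∑ i, φ (c i) • s i).coeff n := by
  rw [HahnSeries.coeff_sum, HahnSeries.coeff_sum, map_sum]
  refine Finset.sum_congr rfl fun i _ => ?_
  rw [HahnSeries.coeff_smul, HahnSeries.coeff_smul, smul_eq_mul, smul_eq_mul]
  have h1 : (iotaL (s i)).coeff n = algebraMap Kb ℂ ((s i).coeff n) := rfl
  rw [h1, mul_comm (c i), ← Algebra.smul_def, map_smul, smul_eq_mul, mul_comm]

theorem descent_exists_dual {x : ℂ} (hx : x ≠ 0) : ∃ φ : ℂ →ₗ[Kb] Kb, φ x = 1 := by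
  obtain ⟨φ, hφ⟩ : ∃ φ : Module.Dual Kb ℂ, φ x ≠ 0 := by
    by_contra hcon
    push Not at hcon
    exact hx ((Module.forall_dual_apply_eq_zero_iff Kb _).mp hcon)
  refine ⟨(φ x)⁻¹ • φ, ?_⟩
  rw [LinearMap.smul_apply, smul_eq_mul, inv_mul_cancel₀ hφ]

theorem descent_eq (t : LaurentSeries Kb) (s : ι → LaurentSeries Kb) (c : ι → ℂ)
    (h : iotaL t = ∑ i, c i • iotaL (s i)) : ∃ c' : ι → Kb, t = ∑ i, c' i • s i := by
  obtain ⟨φ, hφ⟩ := descent_exists_dual (one_ne_zero : (1 : ℂ) ≠ 0)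
  refine ⟨fun i => φ (c i), ?_⟩
  ext n
  rw [← descent_apply, ← h]
  have h1 : (iotaL t).coeff n = algebraMap Kb ℂ (t.coeff n) := rfl
  rw [h1, Algebra.algebraMap_eq_smul_one, map_smul, hφ, smul_eq_mul, mul_one]

theorem descent_ne (s : ι → LaurentSeries Kb) (c : ι → ℂ) (h : ∑ i, c i • iotaL (s i) = 0)
    (i₀ : ι) (hc : c i₀ ≠ 0) : ∃ c' : ι → Kb, c' i₀ ≠ 0 ∧ ∑ i, c' i • s i = 0 := by
  obtain ⟨φ, hφ⟩ := descent_exists_dual hc
  refine ⟨fun i => φ (c i), by show φ (c i₀) ≠ 0; rw [hφ]; exact one_ne_zero, ?_⟩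
  ext n
  rw [← descent_apply, h, HahnSeries.coeff_zero, map_zero, HahnSeries.coeff_zero]

theorem descent_lin {V : Type*} [AddCommGroup V] [Module Kb V] (e : V →ₗ[Kb] LaurentSeries Kb)
    (he : Function.Injective e) (ψ : V →ₗ[Kb] ℂ) (s : ι → V) (c : ι → ℂ)
    (h : ∑ i, c i • iotaL (e (s i)) = 0) : ∑ i, c i * ψ (s i) = 0 := by
  classical
  have key : ∀ φ : ℂ →ₗ[Kb] Kb, ∑ i, φ (c i) • ψ (s i) = 0 := by
    intro φ
    have h1 : ∑ i, φ (c i) • e (s i) = 0 := by
      ext n
      rw [← descent_apply, h, HahnSeries.coeff_zero, map_zero, HahnSeries.coeff_zero]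
    have h2 : ∑ i, φ (c i) • s i = 0 := by
      apply he
      rw [map_sum, map_zero, ← h1]
      exact Finset.sum_congr rfl fun i _ => map_smul e _ _
    have h3 := congrArg ψ h2
    rw [map_sum, map_zero] at h3
    rw [← h3]
    exact Finset.sum_congr rfl fun i _ => (map_smul ψ _ _).symm
  set B := Module.Basis.ofVectorSpace Kb ℂ with hB
  set S : Finset _ := Finset.univ.biUnion fun i => (B.repr (c i)).support with hS
  have hc : ∀ i, c i = ∑ a ∈ S, B.repr (c i) a • B a := by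
    intro i
    conv_lhs => rw [← B.linearCombination_repr (c i), Finsupp.linearCombination_apply]
    refine Finsupp.sum_of_support_subset _ ?_ _ (fun a _ => zero_smul _ _)
    exact Finset.subset_biUnion_of_mem (fun i => (B.repr (c i)).support) (Finset.mem_univ i)
  calc ∑ i, c i * ψ (s i) = ∑ i, ∑ a ∈ S, (B.repr (c i) a • B a) * ψ (s i) := by
        refine Finset.sum_congr rfl fun i _ => ?_
        conv_lhs => rw [hc i]
        rw [Finset.sum_mul]
    _ = ∑ a ∈ S, B a * ∑ i, B.coord a (c i) • ψ (s i) := by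
        rw [Finset.sum_comm]
        refine Finset.sum_congr rfl fun a _ => ?_
        rw [Finset.mul_sum]
        refine Finset.sum_congr rfl fun i _ => ?_
        rw [Module.Basis.coord_apply, Algebra.smul_def, Algebra.smul_def]
        ring
    _ = 0 := by
        refine Finset.sum_eq_zero fun a _ => ?_
        rw [key, mul_zero]

end Fermat.Agent.S24
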