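import Fermat.Agent.S24.QL
import Fermat.Agent.S20.LevelOne
import Fermat.Agent.S20.LevelOneDiv
import Fermat.Agent.S28.QExp
import Fermat.Agent.S28.Span
import Fermat.Agent.S28.Transfer

/-!
# S24, package MF-F: structure of level one forms
(`S28.Span` has the span statement on the level of `q`-expansions; `S28.QExp` identifies the
`q`-expansions of `E₄`, `Δ` with the Prelude's formal series; `S20.LevelOne*` has more.)
-/

set_option autoImplicit false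

namespace Fermat.Agent.S24

open UpperHalfPlane ModularForm EisensteinSeries Filter Topology ModularCurve
open Fermat.Agent.S20 Fermat.Agent.S23
open scoped MatrixGroups Manifold ModularForm

theorem exp_identity {w : ℤ} (hw : 0 ≤ w) (hw2 : Even w) :
    w + 4 * aExp w + 6 * bExp w = 12 * nExp w := by
  obtain ⟨u, rfl⟩ := hw2
  unfold nExp aExp bExp
  omega

theorem aExp_eq_zero_iff {w : ℤ} (hw2 : Even w) : aExp w = 0 ↔ (6 : ℤ) ∣ w := by
  obtain ⟨u, rfl⟩ := hw2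
  unfold aExp
  omega

theorem bExp_eq_zero_iff {w : ℤ} (hw2 : Even w) : bExp w = 0 ↔ (4 : ℤ) ∣ w := by
  obtain ⟨u, rfl⟩ := hw2
  unfold bExp
  omega

theorem mono_mem {w : ℤ} (hw : 0 ≤ w) (hw2 : Even w) : mono w ∈ MFs ⊤ (12 * nExp w - w) := by
  have h := mul_mem_MFs (pow_mem_MFs E4_mem (aExp w)) (pow_mem_MFs E6_mem (bExp w))
  have h2 := exp_identity hw hw2
  unfold mono
  convert h using 2
  linarith

theorem isRatQ_mono (w : ℤ) : IsRatQ (mono w) := by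
  have n4 := mem_Nice_of_mem_MFs_top E4_mem
  have n6 := mem_Nice_of_mem_MFs_top E6_mem
  exact (isRatQ_E4.pow n4 _).mul (isRatQ_E6.pow n6 _) (Nice.pow_mem n4 _) (Nice.pow_mem n6 _)

lemma l1p_E4_mul {k : ℤ} (hk : ¬ (6 : ℤ) ∣ k) {r : ℍ → ℂ} (hr : r ∈ MFs ⊤ k) :
    ∃ r' ∈ MFs ⊤ (k - 4), r = ⇑E₄ * r' := by
  obtain ⟨f, rfl⟩ := exists_modularForm_of_mem_MFs_top hr
  obtain ⟨G, hG⟩ := exists_E₄_mul k hk f
  exact ⟨G, mf_coe_mem_MFs_top G, funext hG⟩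

lemma l1p_E6_mul {k : ℤ} (hk : ¬ (4 : ℤ) ∣ k) {r : ℍ → ℂ} (hr : r ∈ MFs ⊤ k) :
    ∃ r' ∈ MFs ⊤ (k - 6), r = ⇑E₆ * r' := by
  obtain ⟨f, rfl⟩ := exists_modularForm_of_mem_MFs_top hr
  obtain ⟨G, hG⟩ := exists_E₆_mul k hk f
  exact ⟨G, mf_coe_mem_MFs_top G, funext hG⟩

lemma l1p_E4_pow_mul (a : ℕ) : ∀ {k : ℤ}, (∀ i : ℕ, i < a → ¬ (6 : ℤ) ∣ (k - 4 * i)) →
    ∀ {r : ℍ → ℂ}, r ∈ MFs ⊤ k → ∃ r' ∈ MFs ⊤ (k - 4 * a), r = (⇑E₄ : ℍ → ℂ) ^ a * r' := by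
  induction a with
  | zero => intro k _ r hr; exact ⟨r, by simpa using hr, by simp⟩
  | succ a ih =>
    intro k hk r hr
    obtain ⟨r1, hr1, rfl⟩ := ih (fun i hi => hk i (by omega)) hr
    obtain ⟨r2, hr2, rfl⟩ := l1p_E4_mul (hk a (by omega)) hr1
    refine ⟨r2, ?_, by rw [pow_succ, mul_assoc]⟩
    convert hr2 using 2
    push_cast; ring

lemma l1p_E6_pow_mul (b : ℕ) : ∀ {k : ℤ}, (∀ i : ℕ, i < b → ¬ (4 : ℤ) ∣ (k - 6 * i)) →
    ∀ {r : ℍ → ℂ}, r ∈ MFs ⊤ k → ∃ r' ∈ MFs ⊤ (k - 6 * b), r = (⇑E₆ : ℍ → ℂ) ^ b * r' := by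
  induction b with
  | zero => intro k _ r hr; exact ⟨r, by simpa using hr, by simp⟩
  | succ b ih =>
    intro k hk r hr
    obtain ⟨r1, hr1, rfl⟩ := ih (fun i hi => hk i (by omega)) hr
    obtain ⟨r2, hr2, rfl⟩ := l1p_E6_mul (hk b (by omega)) hr1
    refine ⟨r2, ?_, by rw [pow_succ, mul_assoc]⟩
    convert hr2 using 2
    push_cast; ring

/-- Every level one form of weight `12 m - w` is divisible by `E₄^a E₆^b`
(`M_*(SL₂ℤ) = ℂ[E₄, E₆]`, look at the monomials). -/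
theorem exists_mono_mul {w : ℤ} (hw : 0 ≤ w) (hw2 : Even w) {m : ℕ} {r : ℍ → ℂ}
    (hr : r ∈ MFs ⊤ (12 * m - w)) :
    ∃ r' ∈ MFs ⊤ (12 * ((m : ℤ) - nExp w)), r = mono w * r' := by
  have hid := exp_identity hw hw2
  obtain ⟨r1, hr1, rfl⟩ := l1p_E4_pow_mul (aExp w) (k := 12 * m - w) (by
    intro i hi
    obtain ⟨u, rfl⟩ := hw2
    unfold aExp at hi
    omega) hr
  obtain ⟨r2, hr2, rfl⟩ := l1p_E6_pow_mul (bExp w) (k := 12 * m - w - 4 * aExp w) (by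
    intro i hi
    obtain ⟨u, rfl⟩ := hw2
    unfold bExp at hi
    unfold aExp
    omega) hr1
  refine ⟨r2, ?_, by rw [mono, mul_assoc]⟩
  convert hr2 using 2
  linarith

open Fermat.Agent.S28 in
lemma l1p_qLf_discriminant : iotaL (DeltaC Kb) = qLf discriminant := by
  rw [iotaL, coeffMap_DeltaC, qLf, qExpansion_discriminant, map_mul, HahnSeries.ofPowerSeries_X,
    DeltaC]

open Fermat.Agent.S28 in
lemma l1p_qLf_E4cube : iotaL (E4cubeC Kb) = qLf ((⇑E₄ : ℍ → ℂ) ^ 3) := by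
  rw [iotaL, coeffMap_E4cubeC, qLf_pow (mem_Nice_of_mem_MFs_top E4_mem), qLf, qExpansion_E4,
    E4cubeC, map_pow, map_pow]

open Fermat.Agent.S28 in
lemma l1p_DeltaC_ne_zero : DeltaC Kb ≠ 0 := by
  intro h
  have := DeltaC_mul_DeltaInvC Kb
  rw [h, zero_mul] at this
  exact zero_ne_one this

open Fermat.Agent.S28 in
lemma l1p_jS_eq : jS = jqModC Kb := Transfer.coeffMap_jqModC (R₀ := ℚ) _

open Fermat.Agent.S28 in
lemma l1p_jS_mul : jS * DeltaC Kb = E4cubeC Kb := by rw [l1p_jS_eq, jqModC_mul_DeltaC]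

lemma l1p_E4cube_mem : (⇑E₄ : ℍ → ℂ) ^ 3 ∈ MFs ⊤ 12 := by
  simpa using pow_mem_MFs E4_mem 3

lemma l1p_span (m : ℕ) (r : ℍ → ℂ) (hr : r ∈ MFs ⊤ (12 * m)) :
    ∃ c : ℕ → ℂ, r = ∑ i ∈ Finset.range (m + 1),
      c i • ((discriminant : ℍ → ℂ) ^ (m - i) * ((⇑E₄ : ℍ → ℂ) ^ 3) ^ i) := by
  obtain ⟨f, rfl⟩ := exists_modularForm_of_mem_MFs_top hr
  obtain ⟨c, hc⟩ := Fermat.Agent.S28.levelOne_span m f
  refine ⟨c, ?_⟩
  have n4 := mem_Nice_of_mem_MFs_top E4_mem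
  have nD := mem_Nice_of_mem_MFs_top Delta_mem_MFs
  have hterm : ∀ i, (discriminant : ℍ → ℂ) ^ (m - i) * ((⇑E₄ : ℍ → ℂ) ^ 3) ^ i ∈ Nice := fun i =>
    Nice.mul_mem (Nice.pow_mem nD _) (Nice.pow_mem (Nice.pow_mem n4 _) _)
  refine qLf_injOn (mem_Nice_of_mem_MFs_top hr)
    (Nice.sum_mem fun i _ => Nice.smul_mem (hterm i) _) ?_
  rw [qLf_sum _ _ (fun i _ => Nice.smul_mem (hterm i) _)]
  conv_lhs => rw [qLf, hc, map_sum]
  refine Finset.sum_congr rfl fun i _ => ?_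
  rw [qLf_smul _ (hterm i), qLf_mul (Nice.pow_mem nD _) (Nice.pow_mem (Nice.pow_mem n4 _) _),
    qLf_pow nD, qLf_pow (Nice.pow_mem n4 _), qLf_pow n4, ← pow_mul]
  rw [ofPowerSeries_smul', map_mul, map_pow, map_pow, mul_comm]
  rfl

/-- The pair `(Δ, E₄³)`, `t = j`. -/
theorem exists_pairFin :
    ∃ pr : Pair, pr.P = discriminant ∧ pr.Q = (⇑E₄ : ℍ → ℂ) ^ 3 ∧ pr.t = jS := by
  refine ⟨{ P := discriminant, Q := (⇑E₄ : ℍ → ℂ) ^ 3, PS := Fermat.Agent.S28.DeltaC Kb,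
            QS := Fermat.Agent.S28.E4cubeC Kb, hP := Delta_mem_MFs, hQ := l1p_E4cube_mem,
            hPS := l1p_qLf_discriminant, hQS := l1p_qLf_E4cube,
            P_ne := fun h => discriminant_ne_zero UpperHalfPlane.I (congrFun h _),
            span := l1p_span }, rfl, rfl, ?_⟩
  show Fermat.Agent.S28.E4cubeC Kb / Fermat.Agent.S28.DeltaC Kb = jS
  rw [← l1p_jS_mul, mul_div_assoc, div_self l1p_DeltaC_ne_zero, mul_one]

/-- The pair `(E₄³, Δ)`, `t = 1 / j`. -/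
theorem exists_pairInf :
    ∃ pr : Pair, pr.P = (⇑E₄ : ℍ → ℂ) ^ 3 ∧ pr.Q = discriminant ∧ pr.t = jS⁻¹ := by
  refine ⟨{ P := (⇑E₄ : ℍ → ℂ) ^ 3, Q := discriminant, PS := Fermat.Agent.S28.E4cubeC Kb,
            QS := Fermat.Agent.S28.DeltaC Kb, hP := l1p_E4cube_mem, hQ := Delta_mem_MFs,
            hPS := l1p_qLf_E4cube, hQS := l1p_qLf_discriminant,
            P_ne := ?_,
            span := ?_ }, rfl, rfl, ?_⟩
  · intro h
    have h1 : (⇑E₄ : ℍ → ℂ) = 0 := pow_eq_zero_iff (by norm_num) |>.mp h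
    exact E₄_ne_zero' (DFunLike.coe_injective h1)
  · intro m r hr
    obtain ⟨c, hc⟩ := l1p_span m r hr
    refine ⟨fun i => c (m - i), ?_⟩
    rw [hc, ← Finset.sum_range_reflect]
    refine Finset.sum_congr rfl fun i hi => ?_
    have hi' : i ≤ m := Nat.lt_succ_iff.mp (Finset.mem_range.mp hi)
    have h1 : m + 1 - 1 - i = m - i := by omega
    have h2 : m - (m - i) = i := by omega
    rw [h1, h2, mul_comm]
  · show Fermat.Agent.S28.DeltaC Kb / Fermat.Agent.S28.E4cubeC Kb = jS⁻¹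
    rw [← l1p_jS_mul, div_mul_cancel_right₀ l1p_DeltaC_ne_zero]

/-- `j : ℍ → ℂ` is surjective: otherwise `1 / (E₄³ - c Δ)` is a level one form of weight `-12`
(bounded at `i∞` since `E₄³ - c Δ → 1`), hence `0`. -/
theorem exists_j_eq (c : ℂ) : ∃ z : ℍ, E₄ z ^ 3 = c * discriminant z := by
  by_contra hcon
  push Not at hcon
  set g : ℍ → ℂ := (⇑E₄ : ℍ → ℂ) ^ 3 - c • discriminant with hg
  have hgmem : g ∈ MFs ⊤ 12 :=
    Submodule.sub_mem _ l1p_E4cube_mem (Submodule.smul_mem _ _ Delta_mem_MFs)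
  have hg0 : ∀ z, g z ≠ 0 := by
    intro z hz
    apply hcon z
    simpa [hg, sub_eq_zero] using hz
  have hinv : ∀ γ : SL(2, ℤ), (fun z => (g z)⁻¹) ∣[(-12 : ℤ)] γ = fun z => (g z)⁻¹ := by
    intro γ
    funext z
    have h1 := congrFun (hgmem.2.1 γ (Subgroup.mem_top γ)) z
    rw [SL_slash_apply] at h1 ⊢
    rw [← h1, mul_inv, ← zpow_neg]
  have htend : Tendsto g atImInfty (𝓝 1) := by
    have h1 : Tendsto (fun z : ℍ => E₄ z ^ 3 - c * discriminant z) atImInfty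
        (𝓝 (1 ^ 3 - c * 0)) := by
      refine (Fermat.Agent.S23.sep_E₄_tendsto.pow 3).sub (Tendsto.const_mul c ?_)
      have := Delta_mem.2.2 1
      rwa [SlashAction.slash_one] at this
    have h2 : g = fun z : ℍ => E₄ z ^ 3 - c * discriminant z := by
      funext z; simp [hg]
    rw [h2]
    simpa using h1
  have hmem : (fun z => (g z)⁻¹) ∈ MFs ⊤ (-12) := by
    refine ⟨hgmem.1.inv hg0, fun γ _ => hinv γ, fun γ => ?_⟩
    rw [hinv γ]
    have h2 : Tendsto (fun z => (g z)⁻¹) atImInfty (𝓝 (1 : ℂ)⁻¹) := htend.inv₀ one_ne_zero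
    exact h2.isBigO_one ℝ
  rw [MFs_neg (by norm_num), Submodule.mem_bot] at hmem
  have := congrFun hmem UpperHalfPlane.I
  exact inv_ne_zero (hg0 _) this

end Fermat.Agent.S24
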