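import Fermat.Agent.S24.Quot
import Fermat.Agent.S24.AnalyticQuot
import Fermat.Agent.S24.Descent
import Fermat.Agent.S24.LevelOnePoly
import Fermat.Agent.S20.Rank

/-!
# S24, package MF-K: auxiliary lemmas (homogenisation with respect to a `Pair`)
-/

set_option autoImplicit false

namespace Fermat.Agent.S24

open UpperHalfPlane ModularForm EisensteinSeries Filter Topology CongruenceSubgroup ModularCurve
open Fermat.Agent.S20 Fermat.Agent.S23 IntermediateField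
open scoped MatrixGroups Manifold ModularForm

theorem algebraMap_eq_C {R : Type*} [CommRing R] (c : R) :
    algebraMap R (LaurentSeries R) c = HahnSeries.C c := by
  rw [HahnSeries.algebraMap_apply']
  simp

theorem smul_eq_C_mul {R : Type*} [CommRing R] (c : R) (x : LaurentSeries R) :
    c • x = HahnSeries.C c * x := (HahnSeries.C_mul_eq_smul).symm

namespace Pair

variable (pr : Pair)

theorem P_nice : pr.P ∈ Nice := mem_Nice_of_mem_MFs_top pr.hP

theorem Q_nice : pr.Q ∈ Nice := mem_Nice_of_mem_MFs_top pr.hQ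

theorem qP_ne : qLf pr.P ≠ 0 := fun h => pr.P_ne ((qLf_eq_zero_iff pr.P_nice).mp h)

theorem iotaL_t : iotaL pr.t = qLf pr.Q / qLf pr.P := by
  rw [Pair.t, map_div₀, pr.hQS, pr.hPS]

/-- the homogeneous form `∑ c_l P^(d-l) Q^l`. -/
noncomputable def hom (c : ℕ → ℂ) (d : ℕ) : ℍ → ℂ :=
  ∑ l ∈ Finset.range (d + 1), c l • (pr.P ^ (d - l) * pr.Q ^ l)

theorem term_mem {d l : ℕ} (hl : l ≤ d) : pr.P ^ (d - l) * pr.Q ^ l ∈ MFs ⊤ (12 * d) := by
  refine mul_mem_MFs' (pow_mem_MFs pr.hP (d - l)) (pow_mem_MFs pr.hQ l) ?_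
  push_cast [Nat.cast_sub hl]
  ring

theorem hom_mem (c : ℕ → ℂ) (d : ℕ) : pr.hom c d ∈ MFs ⊤ (12 * d) := by
  refine Submodule.sum_mem _ fun l hl => Submodule.smul_mem _ _ (pr.term_mem ?_)
  exact Nat.lt_succ_iff.mp (Finset.mem_range.mp hl)

theorem qLf_term {d l : ℕ} (hl : l ≤ d) :
    qLf (pr.P ^ (d - l) * pr.Q ^ l) = qLf pr.P ^ d * iotaL (pr.t ^ l) := by
  rw [qLf_mul (pow_mem pr.P_nice _) (pow_mem pr.Q_nice _), qLf_pow pr.P_nice, qLf_pow pr.Q_nice,
    map_pow, pr.iotaL_t, div_pow]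
  have h : qLf pr.P ^ d = qLf pr.P ^ (d - l) * qLf pr.P ^ l := by
    rw [← pow_add, Nat.sub_add_cancel hl]
  rw [h]
  have := pow_ne_zero l pr.qP_ne
  field_simp

theorem qLf_hom (c : ℕ → ℂ) (d : ℕ) :
    qLf (pr.hom c d) = qLf pr.P ^ d * ∑ l ∈ Finset.range (d + 1), c l • iotaL (pr.t ^ l) := by
  rw [hom, qLf_sum, Finset.mul_sum]
  · refine Finset.sum_congr rfl fun l hl => ?_
    have hl' : l ≤ d := Nat.lt_succ_iff.mp (Finset.mem_range.mp hl)
    rw [qLf_smul _ (mul_mem (pow_mem pr.P_nice _) (pow_mem pr.Q_nice _)), pr.qLf_term hl',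
      smul_eq_C_mul, smul_eq_C_mul]
    ring
  · intro l _
    exact Subalgebra.smul_mem _ (mul_mem (pow_mem pr.P_nice _) (pow_mem pr.Q_nice _)) _

/-- level one forms of weight `12 (M - n)`. -/
theorem exists_qLf_levelOne {M n : ℕ} {r : ℍ → ℂ} (hr : r ∈ MFs ⊤ (12 * ((M : ℤ) - n))) :
    ∃ c : ℕ → ℂ, qLf r * qLf pr.P ^ n =
      qLf pr.P ^ M * ∑ l ∈ Finset.range (M + 1), c l • iotaL (pr.t ^ l) := by
  rcases le_or_gt n M with hn | hn
  · have hr' : r ∈ MFs ⊤ (12 * ((M - n : ℕ) : ℤ)) := by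
      rwa [Nat.cast_sub hn]
    obtain ⟨c, hc⟩ := pr.span (M - n) r hr'
    refine ⟨fun l => if l < M - n + 1 then c l else 0, ?_⟩
    have h1 : r = pr.hom c (M - n) := hc
    rw [h1, qLf_hom]
    have h2 : ∑ l ∈ Finset.range (M + 1), (if l < M - n + 1 then c l else 0) • iotaL (pr.t ^ l) =
        ∑ l ∈ Finset.range (M - n + 1), c l • iotaL (pr.t ^ l) := by
      symm
      apply Finset.sum_subset_zero_on_sdiff
      · intro l hl
        rw [Finset.mem_range] at hl ⊢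
        omega
      · intro l hl
        rw [Finset.mem_sdiff, Finset.mem_range, Finset.mem_range] at hl
        rw [if_neg hl.2, smul_eq_C_mul, map_zero, zero_mul]
      · intro l hl
        rw [if_pos (Finset.mem_range.mp hl)]
    rw [h2]
    have h3 : qLf pr.P ^ M = qLf pr.P ^ (M - n) * qLf pr.P ^ n := by
      rw [← pow_add, Nat.sub_add_cancel hn]
    rw [h3]
    ring
  · have h0 : r = 0 := by
      have hneg : (12 : ℤ) * ((M : ℤ) - n) < 0 := by
        have : (M : ℤ) < n := by exact_mod_cast hn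
        omega
      have := MFs_neg (H := ⊤) hneg
      rw [this] at hr
      exact (Submodule.mem_bot ℂ).mp hr
    refine ⟨fun _ => 0, ?_⟩
    rw [h0, qLf_zero, zero_mul]
    symm
    apply mul_eq_zero_of_right
    refine Finset.sum_eq_zero fun l _ => ?_
    rw [smul_eq_C_mul, map_zero, zero_mul]

/-- level one forms of weight `12 M`, with a nonzero coefficient. -/
theorem exists_qLf_levelOne_ne {M : ℕ} {r : ℍ → ℂ} (hr : r ∈ MFs ⊤ (12 * (M : ℤ))) (hr0 : r ≠ 0) :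
    ∃ c : ℕ → ℂ, (∃ l ∈ Finset.range (M + 1), c l ≠ 0) ∧ qLf r =
      qLf pr.P ^ M * ∑ l ∈ Finset.range (M + 1), c l • iotaL (pr.t ^ l) := by
  obtain ⟨c, hc⟩ := pr.span M r hr
  have h1 : r = pr.hom c M := hc
  refine ⟨c, ?_, by rw [h1, qLf_hom]⟩
  by_contra hcon
  push Not at hcon
  apply hr0
  rw [hc]
  refine Finset.sum_eq_zero fun l hl => ?_
  rw [hcon l hl, zero_smul]

end Pair

section core

variable {N : ℕ} [NeZero N] (pr : Pair) {w : Cos (Gamma0 N) → ℤ} {B : Cos (Gamma0 N) → ℍ → ℂ}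
variable [Fintype (Cos (Gamma0 N))] {bS : Cos (Gamma0 N) → LaurentSeries Kb}

theorem expand_core (hfam : IsFam (Gamma0 N) w B) (hw : ∀ i, 0 ≤ w i) (hw2 : ∀ i, Even (w i))
    (hbS : ∀ i, IsRep pr (Gamma0 N) (bS i) (nExp (w i)) (B i * mono (w i)))
    {M : ℕ} {G : ℍ → ℂ} (hG : G ∈ MFs (Gamma0 N) (12 * M)) :
    ∃ c : Cos (Gamma0 N) → ℕ → ℂ, qLf G = qLf pr.P ^ M *
      ∑ i, ∑ l ∈ Finset.range (M + 1), c i l • iotaL (pr.t ^ l * bS i) := by
  obtain ⟨r, hr, hGr⟩ := hfam.gen_univ (12 * M) hG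
  have h1 : ∀ i, ∃ r' ∈ MFs ⊤ (12 * ((M : ℤ) - nExp (w i))), r i = mono (w i) * r' :=
    fun i => exists_mono_mul (hw i) (hw2 i) (hr i)
  choose r' hr' hrr' using h1
  have h2 : ∀ i, ∃ c : ℕ → ℂ, qLf (r' i) * qLf pr.P ^ (nExp (w i)) =
      qLf pr.P ^ M * ∑ l ∈ Finset.range (M + 1), c l • iotaL (pr.t ^ l) :=
    fun i => pr.exists_qLf_levelOne (hr' i)
  choose c hc using h2
  refine ⟨c, ?_⟩
  rw [hGr, qLf_sum _ _ (fun i _ => mul_mem (mem_Nice_of_mem_MFs_top (hr i))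
    (mem_Nice_of_mem_MFs_Gamma0 (hfam.mem i))), Finset.mul_sum]
  refine Finset.sum_congr rfl fun i _ => ?_
  have h3 : r i * B i = r' i * (B i * mono (w i)) := by rw [hrr' i]; ring
  rw [h3, qLf_mul (mem_Nice_of_mem_MFs_top (hr' i)) (mem_Nice_of_mem_MFs_Gamma0 (hbS i).1),
    ← (hbS i).2]
  have h4 : qLf (r' i) * (iotaL (bS i) * qLf pr.P ^ nExp (w i)) =
      (qLf (r' i) * qLf pr.P ^ nExp (w i)) * iotaL (bS i) := by ring
  rw [h4, hc i, mul_assoc, Finset.sum_mul]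
  congr 1
  refine Finset.sum_congr rfl fun l _ => ?_
  rw [map_mul, smul_eq_C_mul, smul_eq_C_mul]
  ring

end core

end Fermat.Agent.S24
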