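import Fermat.Agent.S24.Defs

/-!
# S24, package FF-1: transcendence degree one
-/

set_option autoImplicit false

namespace Fermat.Agent.S24

open AlgebraicCurve IntermediateField

variable {K F : Type*} [Field K] [Field F] [Algebra K F]

open scoped IntermediateField.algebraAdjoinAdjoin in
/-- FF-1a.  `x` transcendental with `F / K(x)` finite, `y` transcendental.  `y` is algebraic over
`K(x)`, so there is a nonzero `P(X,Y)` with `P(x,y)=0`; as `y` is transcendental, `X` occurs, so
`x` is algebraic over `K(y)`; hence `F` is algebraic and finitely generated over `K(y)`.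
(Mathlib: `Algebra.trdeg`, `IsTranscendenceBasis`,
`AlgebraicIndependent.isTranscendenceBasis_of_...` may shorten this.) -/
theorem IsFF.finiteDimensional (h : IsFF K F) {y : F} (hy : Transcendental K y) :
    FiniteDimensional K⟮y⟯ F := by
  obtain ⟨x, hx, hfin⟩ := h
  -- `trdeg ≤ 1`
  have halg : Algebra.IsAlgebraic (Algebra.adjoin K ({x} : Set F)) F :=
    Algebra.IsAlgebraic.trans (Algebra.adjoin K ({x} : Set F)) K⟮x⟯ F
  have htr : Algebra.trdeg K F ≤ 1 := by
    have := Algebra.IsAlgebraic.trdeg_le_cardinalMk K ({x} : Set F)
    simpa using this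
  -- `y` is a transcendence basis
  have hind : AlgebraicIndependent K (fun _ : Unit => y) :=
    algebraicIndependent_unique_type_iff.mpr hy
  have hbasis : IsTranscendenceBasis K (fun _ : Unit => y) :=
    hind.isTranscendenceBasis_of_lift_trdeg_le_of_finite (by simpa using htr)
  have halgy : Algebra.IsAlgebraic K⟮y⟯ F := by
    have := hbasis.isAlgebraic_field
    rwa [Set.range_const] at this
  -- finite generation
  have h1 : Algebra.EssFiniteType K K⟮x⟯ :=
    IntermediateField.essFiniteType_iff.mpr ⟨{x}, by simp⟩
  have h2 : Algebra.EssFiniteType K F := Algebra.EssFiniteType.comp K K⟮x⟯ F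
  have h3 : Algebra.EssFiniteType K⟮y⟯ F := Algebra.EssFiniteType.of_comp K K⟮y⟯ F
  exact Algebra.finite_of_essFiniteType_of_isAlgebraic

/-- FF-1b. -/
theorem transcendental_of_not_mem_range [IsAlgClosed K] {y : F}
    (hy : y ∉ Set.range (algebraMap K F)) : Transcendental K y := by
  intro halg
  have hint : IsIntegral K y := halg.isIntegral
  exact hy (minpoly.mem_range_of_degree_eq_one K y
    (IsAlgClosed.degree_eq_one_of_irreducible K (minpoly.irreducible hint)))

/-- FF-1c. -/
theorem adjoin_inv_eq (y : F) : K⟮y⁻¹⟯ = K⟮y⟯ := by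
  apply le_antisymm
  · rw [adjoin_simple_le_iff]
    exact inv_mem (mem_adjoin_simple_self K y)
  · rw [adjoin_simple_le_iff]
    have := inv_mem (mem_adjoin_simple_self K y⁻¹)
    rwa [inv_inv] at this

/-- FF-1d. -/
theorem adjoin_sub_algebraMap_eq (y : F) (c : K) : K⟮y - algebraMap K F c⟯ = K⟮y⟯ := by
  apply le_antisymm
  · rw [adjoin_simple_le_iff]
    exact sub_mem (mem_adjoin_simple_self K y) (IntermediateField.algebraMap_mem _ c)
  · rw [adjoin_simple_le_iff]
    have := add_mem (mem_adjoin_simple_self K (y - algebraMap K F c))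
      (IntermediateField.algebraMap_mem K⟮y - algebraMap K F c⟯ c)
    rwa [sub_add_cancel] at this

theorem transcendental_inv {y : F} (hy : Transcendental K y) : Transcendental K y⁻¹ := by
  intro h
  apply hy
  have := h.inv
  rwa [inv_inv] at this

theorem transcendental_sub_algebraMap {y : F} (hy : Transcendental K y) (c : K) :
    Transcendental K (y - algebraMap K F c) := by
  intro h
  apply hy
  have := h.add (isAlgebraic_algebraMap (A := F) c)
  rwa [sub_add_cancel] at this

end Fermat.Agent.S24
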