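import Fermat.Agent.S24.Quot
import Fermat.Agent.S24.AnalyticQuot
import Fermat.Agent.S24.Descent
import Fermat.Agent.S24.LevelOnePoly
import Fermat.Agent.S24.TowerDegree
import Fermat.Agent.S20.Comb
import Fermat.Agent.S24.ExpandAux
import Fermat.Agent.S24.Trdeg

/-!
# S24, package MF-K: the integral closure of `ℚ̄[t]` in the function field, `t = Q / P`
-/

set_option autoImplicit false

namespace Fermat.Agent.S24

open UpperHalfPlane ModularForm EisensteinSeries Filter Topology CongruenceSubgroup ModularCurve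
open Fermat.Agent.S20 Fermat.Agent.S23 IntermediateField
open scoped MatrixGroups Manifold ModularForm

variable {N : ℕ} [NeZero N] (pr : Pair) {w : Cos (Gamma0 N) → ℤ} {B : Cos (Gamma0 N) → ℍ → ℂ}

/-- (K0) the weight zero functions `b i = B i E₄^a E₆^b / P^n` as `q`-series over `ℚ̄`. -/
theorem exists_bS (hfam : IsFam (Gamma0 N) w B) (hrat : ∀ i, IsRatQ (B i)) (hw : ∀ i, 0 ≤ w i)
    (hw2 : ∀ i, Even (w i)) :
    ∃ bS : Cos (Gamma0 N) → LaurentSeries Kb,
      ∀ i, IsRep pr (Gamma0 N) (bS i) (nExp (w i)) (B i * mono (w i)) := by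
  have h : ∀ i, ∃ s, IsRep pr (Gamma0 N) s (nExp (w i)) (B i * mono (w i)) := by
    intro i
    have hmem : B i * mono (w i) ∈ MFs (Gamma0 N) (12 * nExp (w i)) := by
      rw [mul_comm (B i)]
      exact mul_mem_MFs' (mono_mem (hw i) (hw2 i)) (hfam.mem i) (by ring)
    have hBn := mem_Nice_of_mem_MFs_Gamma0 (hfam.mem i)
    have hmn := mem_Nice_of_mem_MFs_top (mono_mem (hw i) (hw2 i))
    obtain ⟨s0, hs0⟩ := exists_iotaL_eq_of_isRatQ ((hrat i).mul (isRatQ_mono (w i)) hBn hmn)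
    refine ⟨s0 / pr.PS ^ nExp (w i), hmem, ?_⟩
    rw [map_div₀, map_pow, pr.hPS, hs0, div_mul_cancel₀ _ (pow_ne_zero _ pr.qP_ne)]
  choose bS hbS using h
  exact ⟨bS, hbS⟩

/-- evaluation of an explicit polynomial. -/
theorem expand_aeval (t : LaurentSeries Kb) (n : ℕ) (c : Fin n → Kb) :
    Polynomial.aeval t (∑ l : Fin n, Polynomial.C (c l) * Polynomial.X ^ (l : ℕ)) =
      ∑ l : Fin n, c l • t ^ (l : ℕ) := by
  rw [map_sum]
  refine Finset.sum_congr rfl fun l _ => ?_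
  rw [map_mul, Polynomial.aeval_C, map_pow, Polynomial.aeval_X, algebraMap_eq_C, smul_eq_C_mul]

theorem expand_coeff (n : ℕ) (c : Fin n → Kb) (l : Fin n) :
    (∑ l' : Fin n, Polynomial.C (c l') * Polynomial.X ^ (l' : ℕ)).coeff l = c l := by
  rw [Polynomial.finsetSum_coeff, Finset.sum_eq_single l]
  · simp
  · intro l' _ hl'
    rw [Polynomial.coeff_C_mul, Polynomial.coeff_X_pow, if_neg, mul_zero]
    intro h
    exact hl' (Fin.ext h.symm)
  · intro h
    exact absurd (Finset.mem_univ l) h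

variable [Fintype (Cos (Gamma0 N))] {bS : Cos (Gamma0 N) → LaurentSeries Kb}

/-- (K1) `G = ∑ r_i B_i`, `r_i = mono * r_i'`, `r_i'` a polynomial in `P, Q`; then `descent_eq`. -/
theorem exists_expansion_of_isRep (hfam : IsFam (Gamma0 N) w B) (hw : ∀ i, 0 ≤ w i)
    (hw2 : ∀ i, Even (w i))
    (hbS : ∀ i, IsRep pr (Gamma0 N) (bS i) (nExp (w i)) (B i * mono (w i)))
    {s : LaurentSeries Kb} {m : ℕ} {G : ℍ → ℂ} (hs : IsRep pr (Gamma0 N) s m G) :
    ∃ p : Cos (Gamma0 N) → Polynomial Kb, s = ∑ i, Polynomial.aeval pr.t (p i) * bS i := by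
  obtain ⟨c, hc⟩ := expand_core pr hfam hw hw2 hbS hs.1
  have h1 : iotaL s = ∑ i, ∑ l ∈ Finset.range (m + 1), c i l • iotaL (pr.t ^ l * bS i) := by
    have := hs.2
    rw [hc, mul_comm] at this
    exact mul_left_cancel₀ (pow_ne_zero m pr.qP_ne) this
  have h2 : iotaL s = ∑ x : Cos (Gamma0 N) × Fin (m + 1),
      c x.1 x.2 • iotaL (pr.t ^ (x.2 : ℕ) * bS x.1) := by
    rw [h1, Fintype.sum_prod_type]
    refine Finset.sum_congr rfl fun i _ => ?_
    rw [Finset.sum_range]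
  obtain ⟨c', hc'⟩ := descent_eq s
    (fun x : Cos (Gamma0 N) × Fin (m + 1) => pr.t ^ (x.2 : ℕ) * bS x.1) (fun x => c x.1 x.2) h2
  refine ⟨fun i => ∑ l : Fin (m + 1), Polynomial.C (c' (i, l)) * Polynomial.X ^ (l : ℕ), ?_⟩
  rw [hc', Fintype.sum_prod_type]
  refine Finset.sum_congr rfl fun i _ => ?_
  rw [expand_aeval, Finset.sum_mul]
  refine Finset.sum_congr rfl fun l _ => ?_
  rw [smul_eq_C_mul, smul_eq_C_mul]
  ring

theorem expand_iotaL_aeval (t : LaurentSeries Kb) (α : Polynomial Kb) (d : ℕ)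
    (hd : α.natDegree < d) : iotaL (Polynomial.aeval t α) =
      ∑ l ∈ Finset.range d, iota (α.coeff l) • iotaL (t ^ l) := by
  rw [Polynomial.aeval_eq_sum_range' hd, map_sum]
  refine Finset.sum_congr rfl fun l _ => ?_
  rw [Algebra.smul_def, map_mul, iotaL_algebraMap, algebraMap_eq_C, smul_eq_C_mul]

omit [Fintype (Cos (Gamma0 N))] in
/-- (K2) `s = G₁ / D₁` (MF-D), monic equation over `ℚ̄[t]`, multiply by a power of `P`, MF-E. -/
theorem isRep_of_isIntegral {s : LaurentSeries Kb} (hs : s ∈ FN N)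
    (hint : IsIntegral (Algebra.adjoin Kb {pr.t}) s) : ∃ (m : ℕ) (G : ℍ → ℂ),
      IsRep pr (Gamma0 N) s m G := by
  obtain ⟨M, G₁, D, hG₁, hD, hD0, hsGD⟩ := exists_quot N hs
  obtain ⟨p, hpm, hp0⟩ := hint
  set n := p.natDegree with hn
  have hn0 : 0 < n := by
    rcases Nat.eq_zero_or_pos n with h0 | h0
    · exfalso
      rw [hpm.natDegree_eq_zero.mp h0] at hp0
      simp at hp0
    · exact h0
  have hα : ∀ i, ∃ α : Polynomial Kb,
      Polynomial.aeval pr.t α = ((p.coeff i : Algebra.adjoin Kb {pr.t}) : LaurentSeries Kb) := by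
    intro i
    have h1 : ∀ x ∈ Algebra.adjoin Kb {pr.t}, ∃ α : Polynomial Kb, Polynomial.aeval pr.t α = x := by
      intro x hx
      rw [Algebra.adjoin_singleton_eq_range_aeval] at hx
      exact hx
    exact h1 _ (p.coeff i).2
  choose α hα using hα
  set m := (Finset.range n).sup (fun i => (α i).natDegree) with hm
  have hmα : ∀ i, i < n → (α i).natDegree ≤ m := fun i hi =>
    Finset.le_sup (f := fun i => (α i).natDegree) (Finset.mem_range.mpr hi)
  let e : ℕ → ℍ → ℂ := fun j => pr.hom (fun l => iota ((α (n - j)).coeff l)) (m * j)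
  have he : ∀ j : ℕ, e j ∈ MFs ⊤ ((j : ℤ) * (12 * (m : ℤ))) := by
    intro j
    have h1 := pr.hom_mem (fun l => iota ((α (n - j)).coeff l)) (m * j)
    have h2 : (12 : ℤ) * ((m * j : ℕ) : ℤ) = (j : ℤ) * (12 * (m : ℤ)) := by
      push_cast
      ring
    rw [h2] at h1
    exact h1
  have hqe : ∀ j, j < n → qLf (e (j + 1)) =
      qLf pr.P ^ (m * (j + 1)) * iotaL (Polynomial.aeval pr.t (α (n - (j + 1)))) := by
    intro j hj
    rw [pr.qLf_hom, expand_iotaL_aeval pr.t _ (m * (j + 1) + 1)]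
    have h1 := hmα (n - (j + 1)) (by omega)
    have h2 : m ≤ m * (j + 1) := Nat.le_mul_of_pos_right m (Nat.succ_pos j)
    omega
  have hDn : D ∈ Nice := mem_Nice_of_mem_MFs_top hD
  have hqD : qLf D ≠ 0 := fun h => hD0 ((qLf_eq_zero_iff hDn).mp h)
  have hG₁n : G₁ ∈ Nice := mem_Nice_of_mem_MFs_Gamma0 hG₁
  have hen : ∀ j, e j ∈ Nice := fun j => mem_Nice_of_mem_MFs_top (he j)
  set b : ℍ → ℂ := G₁ * pr.P ^ m with hb
  have hbn : b ∈ Nice := mul_mem hG₁n (pow_mem pr.P_nice m)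
  have hbmem : b ∈ MFs (Gamma0 N) (12 * (M : ℤ) + 12 * (m : ℤ)) := by
    have h1 := mul_mem_MFs hG₁ (MFs_top_le (H := Gamma0 N) (pow_mem_MFs pr.hP m))
    rwa [mul_comm (m : ℤ) 12] at h1
  have hqb : qLf b = iotaL s * (qLf D * qLf pr.P ^ m) := by
    rw [hb, qLf_mul hG₁n (pow_mem pr.P_nice m), qLf_pow pr.P_nice, ← hsGD]
    ring
  -- the monic equation
  have heq : iotaL s ^ n + ∑ j ∈ Finset.range n,
      iotaL (Polynomial.aeval pr.t (α (n - (j + 1)))) * iotaL s ^ (n - (j + 1)) = 0 := by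
    have h1 := congrArg iotaL hp0
    rw [Polynomial.eval₂_eq_sum_range, map_zero, map_sum, Finset.sum_range_succ,
      ← Finset.sum_range_reflect] at h1
    rw [← h1, add_comm]
    congr 1
    · refine Finset.sum_congr rfl fun j _ => ?_
      rw [map_mul, map_pow, hα, Nat.sub_sub, add_comm 1 j]
      rfl
    · rw [← hn, hpm.coeff_natDegree, map_one, one_mul, map_pow]
  have hrel : b ^ n + ∑ j ∈ Finset.range n, e (j + 1) * b ^ (n - (j + 1)) * D ^ (j + 1) = 0 := by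
    have hnice : ∀ j, e (j + 1) * b ^ (n - (j + 1)) * D ^ (j + 1) ∈ Nice := fun j =>
      mul_mem (mul_mem (hen _) (pow_mem hbn _)) (pow_mem hDn _)
    rw [← qLf_eq_zero_iff (add_mem (pow_mem hbn n) (Subalgebra.sum_mem _ fun j _ => hnice j)),
      qLf_add (pow_mem hbn n) (Subalgebra.sum_mem _ fun j _ => hnice j), qLf_pow hbn,
      qLf_sum _ _ (fun j _ => hnice j)]
    have h1 : ∀ j ∈ Finset.range n, qLf (e (j + 1) * b ^ (n - (j + 1)) * D ^ (j + 1)) =
        (qLf D * qLf pr.P ^ m) ^ n *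
          (iotaL (Polynomial.aeval pr.t (α (n - (j + 1)))) * iotaL s ^ (n - (j + 1))) := by
      intro j hj
      have hj' : j < n := Finset.mem_range.mp hj
      rw [qLf_mul (mul_mem (hen _) (pow_mem hbn _)) (pow_mem hDn _),
        qLf_mul (hen _) (pow_mem hbn _), qLf_pow hbn, qLf_pow hDn, hqe j hj', hqb]
      have h2 : (qLf D * qLf pr.P ^ m) ^ n =
          (qLf D * qLf pr.P ^ m) ^ (n - (j + 1)) * (qLf D * qLf pr.P ^ m) ^ (j + 1) := by
        rw [← pow_add]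
        congr 1
        omega
      rw [h2, pow_mul]
      ring
    rw [Finset.sum_congr rfl h1, ← Finset.mul_sum, hqb, mul_pow, mul_comm (iotaL s ^ n),
      ← mul_add, heq, mul_zero]
  obtain ⟨h, hh, hDh⟩ := exists_quotient_of_relation (MFs_top_le (H := Gamma0 N) hD) hD0 hbmem n hn0
    e he hrel
  refine ⟨m, h, hh, ?_⟩
  have h1 := congrArg qLf hDh
  rw [qLf_mul hDn (mem_Nice_of_mem_MFs_Gamma0 hh), hqb] at h1
  apply mul_left_cancel₀ hqD
  rw [h1]
  ring

theorem expand_isIntegral_of_pow_eq {R S : Type*} [CommRing R] [CommRing S] [Algebra R S] (x : S)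
    (n : ℕ) {ι : Type*} [Fintype ι] (a : ι → R) (e : ι → ℕ) (he : ∀ i, e i < n)
    (h : x ^ n = ∑ i, algebraMap R S (a i) * x ^ (e i)) : IsIntegral R x := by
  refine ⟨Polynomial.X ^ n - ∑ i, Polynomial.C (a i) * Polynomial.X ^ (e i),
    Polynomial.monic_X_pow_sub ?_, ?_⟩
  · refine (Polynomial.degree_sum_le _ _).trans_lt
      ((Finset.sup_lt_iff (WithBot.bot_lt_coe n)).2 fun i _ => ?_)
    exact (Polynomial.degree_C_mul_X_pow_le _ _).trans_lt (WithBot.coe_lt_coe.mpr (he i))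
  · rw [Polynomial.eval₂_sub, Polynomial.eval₂_pow, Polynomial.eval₂_X, Polynomial.eval₂_finsetSum,
      h, sub_eq_zero]
    refine Finset.sum_congr rfl fun i _ => ?_
    rw [Polynomial.eval₂_mul, Polynomial.eval₂_C, Polynomial.eval₂_pow, Polynomial.eval₂_X]

omit [Fintype (Cos (Gamma0 N))] in
/-- (K3) `esymmVec_relation`, `Pair.span`, then `descent_eq` applied to `s^μ`. -/
theorem isIntegral_of_isRep {s : LaurentSeries Kb} {m : ℕ} {G : ℍ → ℂ}
    (hs : IsRep pr (Gamma0 N) s m G) : IsIntegral (Algebra.adjoin Kb {pr.t}) s := by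
  classical
  have : Fintype (Cos (Gamma0 N)) := Fintype.ofFinite _
  set μ := Fintype.card (Cos (Gamma0 N)) with hμ
  set M := μ * m with hM
  have hGn : G ∈ Nice := mem_Nice_of_mem_MFs_Gamma0 hs.1
  have hen : ∀ r, esymmVec (Gamma0 N) (12 * m) G r ∈ Nice := fun r =>
    mem_Nice_of_mem_MFs_top (esymmVec_mem hs.1 r)
  have hrel := esymmVec_relation hs.1
  rw [Finset.sum_range_succ'] at hrel
  have he0 : esymmVec (Gamma0 N) (12 * m) G 0 = 1 := by
    funext z
    simp [esymmVec, Multiset.esymm]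
  have hc : ∀ r : Fin μ, ∃ c : ℕ → ℂ,
      qLf (esymmVec (Gamma0 N) (12 * m) G (r + 1)) * qLf pr.P ^ ((μ - (r + 1)) * m) =
        qLf pr.P ^ M * ∑ l ∈ Finset.range (M + 1), c l • iotaL (pr.t ^ l) := by
    intro r
    apply pr.exists_qLf_levelOne
    have h1 := esymmVec_mem hs.1 (r + 1)
    have h2 : (((r : ℕ) + 1 : ℕ) : ℤ) * (12 * (m : ℤ)) =
        12 * (((M : ℕ) : ℤ) - (((μ - ((r : ℕ) + 1)) * m : ℕ) : ℤ)) := by
      have hr : (r : ℕ) + 1 ≤ μ := r.2
      rw [hM]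
      push_cast [Nat.cast_sub hr]
      ring
    rw [h2] at h1
    exact h1
  choose c hc using hc
  have h1 : G ^ μ = ∑ r ∈ Finset.range μ, ((-1 : ℂ) ^ r) •
      (esymmVec (Gamma0 N) (12 * m) G (r + 1) * G ^ (μ - (r + 1))) := by
    simp only [he0, pow_zero, one_smul, one_mul, Nat.sub_zero] at hrel
    rw [eq_neg_of_add_eq_zero_right hrel, ← Finset.sum_neg_distrib]
    refine Finset.sum_congr rfl fun r _ => ?_
    funext z
    simp only [Pi.neg_apply, Pi.smul_apply, smul_eq_mul, pow_succ]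
    ring
  have h2 := congrArg qLf h1
  rw [qLf_pow hGn, qLf_sum _ _ (fun r _ => Subalgebra.smul_mem _
    (mul_mem (hen _) (pow_mem hGn _)) _), ← hs.2, Finset.sum_range] at h2
  have h3 : iotaL (s ^ μ) = ∑ x : Fin μ × Fin (M + 1),
      ((-1 : ℂ) ^ (x.1 : ℕ) * c x.1 x.2) • iotaL (pr.t ^ (x.2 : ℕ) * s ^ (μ - ((x.1 : ℕ) + 1))) := by
    apply mul_left_cancel₀ (pow_ne_zero M pr.qP_ne)
    have h4 : qLf pr.P ^ M * iotaL (s ^ μ) = (iotaL s * qLf pr.P ^ m) ^ μ := by
      rw [map_pow, mul_pow, ← pow_mul, hM, mul_comm μ m]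
      ring
    rw [h4, h2, Fintype.sum_prod_type, Finset.mul_sum]
    refine Finset.sum_congr rfl fun r _ => ?_
    rw [qLf_smul _ (mul_mem (hen _) (pow_mem hGn _)), qLf_mul (hen _) (pow_mem hGn _),
      qLf_pow hGn, ← hs.2, mul_pow, ← pow_mul]
    have h5 : qLf (esymmVec (Gamma0 N) (12 * m) G (r + 1)) *
        (iotaL s ^ (μ - ((r : ℕ) + 1)) * qLf pr.P ^ (m * (μ - ((r : ℕ) + 1)))) =
        (qLf (esymmVec (Gamma0 N) (12 * m) G (r + 1)) * qLf pr.P ^ ((μ - ((r : ℕ) + 1)) * m)) *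
          iotaL s ^ (μ - ((r : ℕ) + 1)) := by
      rw [mul_comm m]
      ring
    rw [h5, hc r, Finset.sum_range, smul_eq_C_mul, Finset.mul_sum, Finset.sum_mul, Finset.mul_sum,
      Finset.mul_sum]
    refine Finset.sum_congr rfl fun l _ => ?_
    rw [smul_eq_C_mul, smul_eq_C_mul, map_mul, map_mul, map_pow, map_pow, map_pow]
    ring
  obtain ⟨c', hc'⟩ := descent_eq (s ^ μ)
    (fun x : Fin μ × Fin (M + 1) => pr.t ^ (x.2 : ℕ) * s ^ (μ - ((x.1 : ℕ) + 1))) _ h3
  have hta : ∀ (a : Kb) (l : ℕ),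
      algebraMap Kb (LaurentSeries Kb) a * pr.t ^ l ∈ Algebra.adjoin Kb {pr.t} := fun a l =>
    mul_mem (Subalgebra.algebraMap_mem _ a) (pow_mem (Algebra.self_mem_adjoin_singleton Kb pr.t) l)
  refine expand_isIntegral_of_pow_eq s μ
    (fun x : Fin μ × Fin (M + 1) =>
      (⟨algebraMap Kb (LaurentSeries Kb) (c' x) * pr.t ^ (x.2 : ℕ), hta _ _⟩ :
        Algebra.adjoin Kb {pr.t}))
    (fun x => μ - ((x.1 : ℕ) + 1)) (fun x => by have := x.1.2; omega) ?_
  rw [hc']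
  refine Finset.sum_congr rfl fun x _ => ?_
  change c' x • (pr.t ^ (x.2 : ℕ) * s ^ (μ - ((x.1 : ℕ) + 1))) =
    (algebraMap Kb (LaurentSeries Kb) (c' x) * pr.t ^ (x.2 : ℕ)) * s ^ (μ - ((x.1 : ℕ) + 1))
  rw [smul_eq_C_mul, algebraMap_eq_C]
  ring

/-- (K4) MF-D, `IsFam.gen`, `exists_mono_mul`, `Pair.span`, `descent_ne`. -/
theorem exists_frac_expansion (hfam : IsFam (Gamma0 N) w B) (hw : ∀ i, 0 ≤ w i)
    (hw2 : ∀ i, Even (w i))
    (hbS : ∀ i, IsRep pr (Gamma0 N) (bS i) (nExp (w i)) (B i * mono (w i)))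
    {s : LaurentSeries Kb} (hs : s ∈ FN N) :
    ∃ (d : Polynomial Kb) (p : Cos (Gamma0 N) → Polynomial Kb), d ≠ 0 ∧
      Polynomial.aeval pr.t d * s = ∑ i, Polynomial.aeval pr.t (p i) * bS i := by
  obtain ⟨M, G, D, hG, hD, hD0, hsGD⟩ := exists_quot N hs
  obtain ⟨c, hc⟩ := expand_core pr hfam hw hw2 hbS hG
  obtain ⟨d, ⟨l0, hl0, hdl0⟩, hd⟩ := pr.exists_qLf_levelOne_ne hD hD0
  have h1 : ∑ l ∈ Finset.range (M + 1), d l • iotaL (pr.t ^ l * s) =
      ∑ i, ∑ l ∈ Finset.range (M + 1), c i l • iotaL (pr.t ^ l * bS i) := by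
    apply mul_left_cancel₀ (pow_ne_zero M pr.qP_ne)
    rw [← hc, ← hsGD, hd, Finset.mul_sum, Finset.mul_sum, Finset.mul_sum]
    refine Finset.sum_congr rfl fun l _ => ?_
    rw [map_mul, smul_eq_C_mul, smul_eq_C_mul]
    ring
  let S : Fin (M + 1) ⊕ (Cos (Gamma0 N) × Fin (M + 1)) → LaurentSeries Kb :=
    Sum.elim (fun l => pr.t ^ (l : ℕ) * s) (fun x => pr.t ^ (x.2 : ℕ) * bS x.1)
  let C : Fin (M + 1) ⊕ (Cos (Gamma0 N) × Fin (M + 1)) → ℂ :=
    Sum.elim (fun l => d l) (fun x => - c x.1 x.2)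
  have h2 : ∑ i, C i • iotaL (S i) = 0 := by
    rw [Fintype.sum_sum_type]
    simp only [S, C, Sum.elim_inl, Sum.elim_inr]
    rw [← Finset.sum_range (fun l => d l • iotaL (pr.t ^ l * s)), h1, Fintype.sum_prod_type,
      ← Finset.sum_add_distrib]
    refine Finset.sum_eq_zero fun i _ => ?_
    rw [Finset.sum_range, ← Finset.sum_add_distrib]
    refine Finset.sum_eq_zero fun l _ => ?_
    rw [smul_eq_C_mul, smul_eq_C_mul, map_neg]
    ring
  obtain ⟨c', hc'0, hc'⟩ := descent_ne S C h2 (Sum.inl ⟨l0, Finset.mem_range.mp hl0⟩) hdl0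
  refine ⟨∑ l : Fin (M + 1), Polynomial.C (c' (Sum.inl l)) * Polynomial.X ^ (l : ℕ),
    fun i => ∑ l : Fin (M + 1), Polynomial.C (- c' (Sum.inr (i, l))) * Polynomial.X ^ (l : ℕ),
    ?_, ?_⟩
  · intro h0
    apply hc'0
    rw [← expand_coeff (M + 1) (fun l => c' (Sum.inl l)) ⟨l0, Finset.mem_range.mp hl0⟩, h0]
    simp
  · rw [Fintype.sum_sum_type] at hc'
    simp only [S, Sum.elim_inl, Sum.elim_inr] at hc'
    rw [Fintype.sum_prod_type] at hc'
    rw [expand_aeval, Finset.sum_mul]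
    have h3 : ∑ l : Fin (M + 1), c' (Sum.inl l) • pr.t ^ (l : ℕ) * s =
        ∑ l : Fin (M + 1), c' (Sum.inl l) • (pr.t ^ (l : ℕ) * s) := by
      refine Finset.sum_congr rfl fun l _ => ?_
      rw [smul_eq_C_mul, smul_eq_C_mul]
      ring
    rw [h3, eq_neg_of_add_eq_zero_left hc', ← Finset.sum_neg_distrib]
    refine Finset.sum_congr rfl fun i _ => ?_
    rw [expand_aeval, Finset.sum_mul, ← Finset.sum_neg_distrib]
    refine Finset.sum_congr rfl fun l _ => ?_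
    rw [smul_eq_C_mul, smul_eq_C_mul, map_neg]
    ring

-- (`jS_eq : jS = jqModC Kb` now lives in `QL.lean`.)

omit [Fintype (Cos (Gamma0 N))] in
/-- (K5) is `finrank_modularFunctionFieldBar` (helper14, `TowerDegree.lean`) + `S20.card_cos`. -/
theorem finrank_FN (N : ℕ) [NeZero N] :
    Module.finrank Kb⟮jBar N⟯ (FN N) = Nat.card (Cos (Gamma0 N)) := by
  rw [(finrank_modularFunctionFieldBar N).2, ← card_cos N]

omit [Fintype (Cos (Gamma0 N))] in
theorem isFF_FN (N : ℕ) [NeZero N] : IsFF Kb (FN N) :=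
  ⟨jBar N, transcendental_jBar N, (finrank_modularFunctionFieldBar N).1⟩

omit [Fintype (Cos (Gamma0 N))] in
/-- (K6) `FN N ⊆ V = ∑ ℚ̄(j) bS i` by (K4), `dim V ≤ μ = [FN N : ℚ̄(j)]` (K5), so `FN N = V`. -/
theorem bS_mem (hfam : IsFam (Gamma0 N) w B) (hw : ∀ i, 0 ≤ w i) (hw2 : ∀ i, Even (w i))
    (ht : pr.t = jS ∨ pr.t = jS⁻¹)
    (hbS : ∀ i, IsRep pr (Gamma0 N) (bS i) (nExp (w i)) (B i * mono (w i))) (i : Cos (Gamma0 N)) :
    bS i ∈ FN N := by
  classical
  have : Fintype (Cos (Gamma0 N)) := Fintype.ofFinite _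
  have hjS : jS ∈ FN N := jS_mem N
  have hle : Kb⟮jS⟯ ≤ FN N := adjoin_simple_le_iff.mpr hjS
  have hk : Kb⟮pr.t⟯ = Kb⟮jS⟯ := by
    rcases ht with h | h
    · rw [h]
    · rw [h, adjoin_inv_eq]
  have htr : Transcendental Kb pr.t := by
    rcases ht with h | h
    · rw [h]; exact transcendental_jS
    · rw [h]; exact transcendental_inv transcendental_jS
  have haev : ∀ q : Polynomial Kb, Polynomial.aeval pr.t q ∈ Kb⟮jS⟯ := by
    intro q
    rw [← hk]
    exact IntermediateField.algebra_adjoin_le_adjoin Kb _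
      (Polynomial.aeval_mem_adjoin_singleton Kb pr.t)
  -- the degree
  have hfin : Module.finrank Kb⟮jS⟯ (extendScalars hle) = Fintype.card (Cos (Gamma0 N)) := by
    rw [← Nat.card_eq_fintype_card, ← relfinrank_eq_finrank_of_le hle, ← finrank_FN N,
      ← relfinrank_top_right, ← relfinrank_map_map _ _ (FN N).val]
    congr 1
    · rw [adjoin_map, Set.image_singleton]
      congr 2
      exact jS_eq
    · rw [← AlgHom.fieldRange_eq_map, fieldRange_val]
  let W : Submodule Kb⟮jS⟯ (LaurentSeries Kb) := (extendScalars hle).toSubalgebra.toSubmodule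
  let V : Submodule Kb⟮jS⟯ (LaurentSeries Kb) := Submodule.span Kb⟮jS⟯ (Set.range bS)
  have hWV : W ≤ V := by
    intro s hs
    have hs' : s ∈ FN N := hs
    obtain ⟨d, p, hd, hdp⟩ := exists_frac_expansion pr hfam hw hw2 hbS hs'
    have ha : Polynomial.aeval pr.t d ≠ 0 := fun h0 => hd (transcendental_iff.mp htr d h0)
    have hs2 : s = ∑ i, ((Polynomial.aeval pr.t d)⁻¹ * Polynomial.aeval pr.t (p i)) * bS i := by
      have : ∑ i, ((Polynomial.aeval pr.t d)⁻¹ * Polynomial.aeval pr.t (p i)) * bS i =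
          (Polynomial.aeval pr.t d)⁻¹ * ∑ i, Polynomial.aeval pr.t (p i) * bS i := by
        rw [Finset.mul_sum]
        exact Finset.sum_congr rfl fun i _ => mul_assoc _ _ _
      rw [this, ← hdp, inv_mul_cancel_left₀ ha]
    rw [hs2]
    refine Submodule.sum_mem _ fun i _ => ?_
    have hmem : (Polynomial.aeval pr.t d)⁻¹ * Polynomial.aeval pr.t (p i) ∈ Kb⟮jS⟯ :=
      mul_mem (inv_mem (haev d)) (haev (p i))
    exact Submodule.smul_mem V (⟨_, hmem⟩ : Kb⟮jS⟯) (Submodule.subset_span ⟨i, rfl⟩)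
  have hVfin : FiniteDimensional Kb⟮jS⟯ V := FiniteDimensional.span_of_finite _ (Set.finite_range bS)
  have hVle : Module.finrank Kb⟮jS⟯ V ≤ Module.finrank Kb⟮jS⟯ W := by
    have h1 : Module.finrank Kb⟮jS⟯ W = Fintype.card (Cos (Gamma0 N)) := hfin
    rw [h1]
    exact finrank_range_le_card bS
  have hEq : W = V := Submodule.eq_of_le_of_finrank_le hWV hVle
  have : bS i ∈ W := by
    rw [hEq]
    exact Submodule.subset_span ⟨i, rfl⟩
  exact this

end Fermat.Agent.S24
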