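import Fermat.Agent.S24.Primes

/-!
# S24, package FF-9: cardinality of a fibre = rank of an evaluation matrix
-/

set_option autoImplicit false

namespace Fermat.Agent.S24

open AlgebraicCurve IntermediateField IsDedekindDomain

variable {K F : Type*} [Field K] [Field F] [Algebra K F]

section Aux

variable {y : F} {L : Type*} [CommRing L] [Algebra K L]

theorem cnt_coe_aeval (p : Polynomial K) :
    ((Polynomial.aeval (genInt K y) p : intRing K y) : F) = Polynomial.aeval y p := by
  have := Polynomial.aeval_algHom_apply (IsScalarTower.toAlgHom K (intRing K y) F) (genInt K y) p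
  exact this.symm

theorem cnt_map_aeval (ψ : intRing K y →ₐ[K] L) (h : ψ (genInt K y) = 0) (p : Polynomial K) :
    ψ (Polynomial.aeval (genInt K y) p) = algebraMap K L (p.coeff 0) := by
  rw [← Polynomial.aeval_algHom_apply, h, Polynomial.aeval_def, Polynomial.eval₂_at_zero]

theorem cnt_map_algebraMap (ψ : intRing K y →ₐ[K] L) (h : ψ (genInt K y) = 0)
    (a : polyRing K y) : ψ (algebraMap (polyRing K y) (intRing K y) a) ∈
      Set.range (algebraMap K L) := by
  obtain ⟨a, ha⟩ := a
  have ha' : a ∈ (Polynomial.aeval (R := K) y).range := by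
    rw [← Algebra.adjoin_singleton_eq_range_aeval]; exact ha
  obtain ⟨p, rfl⟩ := ha'
  have e : algebraMap (polyRing K y) (intRing K y) ⟨Polynomial.aeval y p, ha⟩ =
      Polynomial.aeval (genInt K y) p := Subtype.ext (cnt_coe_aeval p).symm
  show ψ (algebraMap (polyRing K y) (intRing K y) ⟨Polynomial.aeval y p, ha⟩) ∈ _
  rw [e, cnt_map_aeval ψ h]
  exact ⟨_, rfl⟩

theorem cnt_isIntegral (ψ : intRing K y →ₐ[K] L) (h : ψ (genInt K y) = 0) (b : intRing K y) :
    IsIntegral K (ψ b) := by
  obtain ⟨f, hf, hfb⟩ := integralClosure.isIntegral b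
  set θ : polyRing K y →+* L := (ψ : intRing K y →+* L).comp (algebraMap _ _) with hθ
  have hl : f.map θ ∈ Polynomial.lifts (algebraMap K L) := by
    rw [Polynomial.lifts_iff_coeff_lifts]
    intro n
    rw [Polynomial.coeff_map]
    exact cnt_map_algebraMap ψ h _
  obtain ⟨q, hq1, -, hq2⟩ := Polynomial.lifts_and_natDegree_eq_and_monic hl (hf.map θ)
  refine ⟨q, hq2, ?_⟩
  rw [← Polynomial.eval_map, hq1, Polynomial.eval_map, hθ]
  have := Polynomial.hom_eval₂ f (algebraMap (polyRing K y) (intRing K y))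
    (ψ : intRing K y →+* L) b
  rw [hfb, map_zero] at this
  exact this.symm

theorem cnt_mem_range [IsAlgClosed K] {L' : Type*} [Field L'] [Algebra K L']
    (ψ : intRing K y →ₐ[K] L') (h : ψ (genInt K y) = 0) (b : intRing K y) :
    ψ b ∈ Set.range (algebraMap K L') := by
  have hi := cnt_isIntegral ψ h b
  exact minpoly.mem_range_of_degree_eq_one K _
    (IsAlgClosed.degree_eq_one_of_irreducible K (minpoly.irreducible hi))

end Aux

/-- FF-9b: a character with values in an extension field `L` of `K` killing `y` takes values in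
`K` (its values are integral over `K`). -/
theorem card_algHom_eq [IsAlgClosed K] {y : F} (L : Type*) [Field L] [Algebra K L] :
    Nat.card {χ : intRing K y →ₐ[K] K // χ (genInt K y) = 0} =
      Nat.card {χ : intRing K y →ₐ[K] L // χ (genInt K y) = 0} := by
  refine Nat.card_congr (Equiv.ofBijective
    (fun χ => ⟨(Algebra.ofId K L).comp χ.1, by simp [χ.2]⟩) ⟨?_, ?_⟩)
  · rintro ⟨χ, hχ⟩ ⟨χ', hχ'⟩ h
    have h' := congrArg Subtype.val h
    refine Subtype.ext (AlgHom.ext fun b => ?_)
    have := DFunLike.congr_fun h' b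
    exact (algebraMap K L).injective this
  · rintro ⟨ψ, hψ⟩
    have hr : ∀ b, ψ b ∈ (⊥ : Subalgebra K L) := fun b => by
      rw [Algebra.mem_bot]; exact cnt_mem_range ψ hψ b
    refine ⟨⟨((Algebra.botEquiv K L : _ →ₐ[K] K)).comp (ψ.codRestrict ⊥ hr), ?_⟩, ?_⟩
    · have : ψ.codRestrict ⊥ hr (genInt K y) = 0 := Subtype.ext hψ
      simp [this]
    · refine Subtype.ext (AlgHom.ext fun b => ?_)
      obtain ⟨c, hc⟩ := cnt_mem_range ψ hψ b
      have h1 : ψ.codRestrict ⊥ hr b = algebraMap K (⊥ : Subalgebra K L) c :=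
        Subtype.ext hc.symm
      simp only [AlgHom.comp_apply, h1]
      simp [hc, Algebra.ofId_apply]

theorem cnt_rank_aux {K B L ι X : Type*} [Field K] [Infinite K] [CommRing B] [Algebra K B]
    [Field L] [Algebra K L] [Fintype ι] [Fintype X] (Z : Set (B →ₐ[K] L)) (β : ι → B)
    (χ : X → (B →ₐ[K] L)) (hχ : ∀ a, χ a ∈ Z) (hall : ∀ ψ ∈ Z, ∀ f, ∃ a, ψ f = χ a f)
    (hspan : ∀ f : B, ∃ c : ι → K, ∀ ψ ∈ Z, ψ f = ∑ i, algebraMap K L (c i) * ψ (β i)) :
    Nat.card Z = (Matrix.of fun (i : ι) (a : X) => χ a (β i)).rank := by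
  classical
  have hZ : Z = Set.range χ := by
    apply Set.Subset.antisymm
    · intro ψ hψ
      have hcov : ⋃ a, ((LinearMap.ker (ψ.toLinearMap - (χ a).toLinearMap) : Submodule K B) : Set B)
          = Set.univ := by
        refine Set.eq_univ_of_forall fun f => ?_
        obtain ⟨a, ha⟩ := hall ψ hψ f
        refine Set.mem_iUnion.mpr ⟨a, ?_⟩
        simp [ha]
      obtain ⟨a, ha⟩ := Subspace.exists_eq_top_of_iUnion_eq_univ hcov
      refine ⟨a, AlgHom.ext fun f => ?_⟩
      have : f ∈ LinearMap.ker (ψ.toLinearMap - (χ a).toLinearMap) := ha ▸ Submodule.mem_top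
      simp only [LinearMap.mem_ker, LinearMap.sub_apply, AlgHom.toLinearMap_apply, sub_eq_zero] at this
      exact this.symm
    · rintro _ ⟨a, rfl⟩
      exact hχ a
  subst hZ
  let col : Set.range χ → (ι → L) := fun ψ i => ψ.1 (β i)
  have hli : LinearIndependent L col := by
    rw [Fintype.linearIndependent_iff]
    intro g hg
    have h0 := (linearIndependent_monoidHom B L).comp
      (fun ψ : Set.range χ => ((ψ.1 : B →ₐ[K] L) : B →* L)) (by
        intro ψ ψ' h
        refine Subtype.ext (AlgHom.ext fun f => ?_)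
        exact DFunLike.congr_fun h f)
    rw [Fintype.linearIndependent_iff] at h0
    refine h0 g ?_
    funext f
    obtain ⟨c, hc⟩ := hspan f
    simp only [Finset.sum_apply, Pi.smul_apply, Function.comp_apply, smul_eq_mul, Pi.zero_apply]
    have h1 : ∀ ψ : Set.range χ, g ψ * ((ψ.1 : B →ₐ[K] L) : B →* L) f =
        ∑ i, algebraMap K L (c i) * (g ψ * col ψ i) := by
      intro ψ
      show g ψ * ψ.1 f = _
      rw [hc ψ.1 ψ.2, Finset.mul_sum]
      exact Finset.sum_congr rfl fun i _ => by simp only [col]; ring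
    simp only [h1]
    rw [Finset.sum_comm]
    refine Finset.sum_eq_zero fun i _ => ?_
    rw [← Finset.mul_sum]
    have := congrFun hg i
    simp only [Finset.sum_apply, Pi.smul_apply, smul_eq_mul, Pi.zero_apply] at this
    rw [this, mul_zero]
  have hr : Set.range (Matrix.of fun (i : ι) (a : X) => χ a (β i)).col = Set.range col := by
    ext v
    constructor
    · rintro ⟨a, rfl⟩
      exact ⟨⟨χ a, a, rfl⟩, rfl⟩
    · rintro ⟨⟨_, a, rfl⟩, rfl⟩
      exact ⟨a, rfl⟩
  rw [Matrix.rank_eq_finrank_span_cols, hr, finrank_span_eq_card hli, Nat.card_eq_fintype_card]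

theorem cnt_exists_char_aux {K B : Type*} [Field K] [IsAlgClosed K] [CommRing B] [Algebra K B]
    (P : Ideal B) [P.IsPrime] (h : ∀ b : B, IsIntegral K (Ideal.Quotient.mkₐ K P b)) :
    ∃ χ : B →ₐ[K] K, RingHom.ker (χ : B →+* K) = P := by
  have hint : Algebra.IsIntegral K (B ⧸ P) := by
    refine ⟨fun x => ?_⟩
    obtain ⟨b, rfl⟩ := Ideal.Quotient.mk_surjective x
    exact h b
  have hbij : Function.Bijective (algebraMap K (B ⧸ P)) :=
    IsAlgClosed.algebraMap_bijective_of_isIntegral
  let e : K ≃ₐ[K] (B ⧸ P) := AlgEquiv.ofBijective (Algebra.ofId K _) hbij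
  refine ⟨(e.symm : _ →ₐ[K] K).comp (Ideal.Quotient.mkₐ K P), ?_⟩
  ext b
  rw [RingHom.mem_ker]
  show e.symm (Ideal.Quotient.mk P b) = 0 ↔ _
  rw [map_eq_zero_iff _ e.symm.injective, Ideal.Quotient.eq_zero_iff_mem]

section NineA

variable {y : F}

/-- the prime of `intRing K y` attached to a character -/
def cntPrime (hy0 : y ≠ 0) (χ : intRing K y →ₐ[K] K) (hχ : χ (genInt K y) = 0) :
    HeightOneSpectrum (intRing K y) where
  asIdeal := RingHom.ker (χ : intRing K y →+* K)
  isPrime := RingHom.ker_isPrime _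
  ne_bot := by
    intro hb
    have h1 : genInt K y ∈ RingHom.ker (χ : intRing K y →+* K) := hχ
    rw [hb, Ideal.mem_bot] at h1
    exact hy0 (congrArg Subtype.val h1)

theorem cnt_eq_of_ker_eq (χ χ' : intRing K y →ₐ[K] K)
    (h : RingHom.ker (χ : intRing K y →+* K) = RingHom.ker (χ' : intRing K y →+* K)) :
    χ = χ' := by
  refine AlgHom.ext fun b => ?_
  have h1 : b - algebraMap K _ (χ b) ∈ RingHom.ker (χ : intRing K y →+* K) := by
    simp [RingHom.mem_ker]
  rw [h] at h1
  have h2 : χ' (b - algebraMap K _ (χ b)) = 0 := h1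
  rw [map_sub, AlgHom.commutes, sub_eq_zero] at h2
  exact h2.symm

theorem cnt_exists_char [IsAlgClosed K] (P : Ideal (intRing K y)) [P.IsPrime]
    (hP : genInt K y ∈ P) :
    ∃ χ : intRing K y →ₐ[K] K, RingHom.ker (χ : intRing K y →+* K) = P := by
  have h1 : (Ideal.Quotient.mkₐ K P) (genInt K y) = 0 := by
    rw [Ideal.Quotient.mkₐ_eq_mk]
    exact Ideal.Quotient.eq_zero_iff_mem.mpr hP
  have h2 : ∀ b, IsIntegral K (Ideal.Quotient.mkₐ K P b) := fun b =>
    cnt_isIntegral (L := intRing K y ⧸ P) (Ideal.Quotient.mkₐ K P) h1 b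
  exact cnt_exists_char_aux P h2

end NineA

/-- FF-9a: zeros of `y` correspond to the `K`-algebra characters of `intRing K y` killing `y`
(`P ↦ B → B/P = K`). -/
theorem IsFF.card_zerosOf_eq_card_algHom [IsAlgClosed K] [CharZero K] (h : IsFF K F) {y : F}
    (hy : Transcendental K y) :
    Nat.card (zerosOf K y) = Nat.card {χ : intRing K y →ₐ[K] K // χ (genInt K y) = 0} := by
  have hy0 : y ≠ 0 := by
    rintro rfl
    exact hy isAlgebraic_zero
  have := h.finiteDimensional hy
  have := isDedekindDomain_intRing hy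
  have := isFractionRing_intRing hy
  symm
  refine Nat.card_congr (Equiv.ofBijective
    (fun χ => ⟨Place.ofHeightOneSpectrum (K := K) (F := F) (cntPrime hy0 χ.1 χ.2),
      (ofHeightOneSpectrum_mem_zerosOf_iff hy0 _).mpr χ.2⟩) ⟨?_, ?_⟩)
  · rintro ⟨χ, hχ⟩ ⟨χ', hχ'⟩ h
    have h1 := ofHeightOneSpectrum_injective (congrArg Subtype.val h)
    have h2 := congrArg HeightOneSpectrum.asIdeal h1
    exact Subtype.ext (cnt_eq_of_ker_eq χ χ' h2)
  · rintro ⟨v, hv⟩
    have hv' : y ∈ v.toValuationSubring := ((ord_pos_iff v hy0).mp hv).1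
    obtain ⟨P, rfl⟩ := exists_heightOneSpectrum v hv'
    have hP := (ofHeightOneSpectrum_mem_zerosOf_iff hy0 P).mp hv
    obtain ⟨χ, hχ⟩ := cnt_exists_char P.asIdeal hP
    have hχy : χ (genInt K y) = 0 := by
      have : genInt K y ∈ RingHom.ker (χ : intRing K y →+* K) := hχ ▸ hP
      exact this
    refine ⟨⟨χ, hχy⟩, Subtype.ext ?_⟩
    show Place.ofHeightOneSpectrum (K := K) (F := F) (cntPrime hy0 χ hχy) = _
    congr 1
    exact HeightOneSpectrum.ext hχ

/-- FF-9c: the counting lemma.  `L` is any extension field of `K` (we use `ℂ`).  By `hall` and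
"a vector space over an infinite field is not a finite union of proper subspaces" every character
killing `y` is one of the `χ a`; distinct characters are linearly independent (Dedekind) and are
determined by their values on the `b i`, so their number is the rank of the matrix. -/
theorem IsFF.card_zerosOf_eq_rank [IsAlgClosed K] [CharZero K] (h : IsFF K F) {y : F}
    (hy : Transcendental K y) {L : Type*} [Field L] [Algebra K L]
    {ι X : Type*} [Fintype ι] [Fintype X] (b : ι → F)
    (hbi : ∀ i, IsIntegral (polyRing K y) (b i))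
    (hb : ∀ f : F, IsIntegral (polyRing K y) f →
      ∃ p : ι → Polynomial K, f = ∑ i, Polynomial.aeval y (p i) * b i)
    (χ : X → (intRing K y →ₐ[K] L)) (hχy : ∀ a, χ a (genInt K y) = 0)
    (hall : ∀ ψ : intRing K y →ₐ[K] L, ψ (genInt K y) = 0 → ∀ f, ∃ a, ψ f = χ a f) :
    Nat.card (zerosOf K y) = (Matrix.of fun (i : ι) (a : X) => χ a ⟨b i, hbi i⟩).rank := by
  rw [h.card_zerosOf_eq_card_algHom hy, card_algHom_eq L]
  refine cnt_rank_aux {ψ : intRing K y →ₐ[K] L | ψ (genInt K y) = 0}
    (fun i => (⟨b i, hbi i⟩ : intRing K y)) χ hχy hall ?_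
  intro f
  obtain ⟨p, hp⟩ := hb f.1 f.2
  refine ⟨fun i => (p i).coeff 0, fun ψ hψ => ?_⟩
  have hf : f = ∑ i, Polynomial.aeval (genInt K y) (p i) * (⟨b i, hbi i⟩ : intRing K y) := by
    refine Subtype.ext ?_
    rw [hp, AddSubmonoidClass.coe_finsetSum]
    refine Finset.sum_congr rfl fun i _ => ?_
    rw [MulMemClass.coe_mul, cnt_coe_aeval]
  rw [hf, map_sum]
  refine Finset.sum_congr rfl fun i _ => ?_
  rw [map_mul, cnt_map_aeval ψ hψ]

end Fermat.Agent.S24
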