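import Fermat.Agent.S24.Primes

/-!
# S24, package FF-4: the fundamental identity `∑_{v | y(v)=0} ord_v y = [F : K(y)]`
-/

set_option autoImplicit false

namespace Fermat.Agent.S24

open AlgebraicCurve IntermediateField IsDedekindDomain

variable {K F : Type*} [Field K] [Field F] [Algebra K F]

lemma fund_inertiaDeg_eq_one {R S : Type*} [CommRing R] [CommRing S] [Algebra R S] (p : Ideal R)
    (q : Ideal S) [q.LiesOver p] [p.IsMaximal] [hq : q.IsMaximal]
    (hres : ∀ s : S, ∃ r : R, s - algebraMap R S r ∈ q) : q.inertiaDeg R = 1 := by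
  rw [Ideal.inertiaDeg_eq_of_isMaximal p q]
  let _ := Ideal.Quotient.field p
  have hnt : Nontrivial (S ⧸ q) := Ideal.Quotient.nontrivial_iff.mpr hq.ne_top
  rw [finrank_eq_one_iff_of_nonzero' (1 : S ⧸ q) one_ne_zero]
  intro w
  obtain ⟨s, rfl⟩ := Ideal.Quotient.mk_surjective w
  obtain ⟨r, hr⟩ := hres s
  refine ⟨Ideal.Quotient.mk p r, ?_⟩
  rw [Algebra.smul_def, mul_one, Ideal.Quotient.algebraMap_mk_of_liesOver, eq_comm,
    Ideal.Quotient.eq]
  exact hr

/-- `y` as an element of `polyRing K y`. -/
def genPoly (K : Type*) {F : Type*} [Field K] [Field F] [Algebra K F] (y : F) : polyRing K y :=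
  ⟨y, Algebra.self_mem_adjoin_singleton K y⟩

lemma algebraMap_genPoly (y : F) : algebraMap (polyRing K y) (intRing K y) (genPoly K y) =
    genInt K y := rfl

lemma fund_exists_eq_add_mul (y : F) (r : polyRing K y) :
    ∃ (c : K) (r' : polyRing K y), r = algebraMap K _ c + genPoly K y * r' := by
  obtain ⟨r, hr⟩ := r
  have hr' : r ∈ (Polynomial.aeval (R := K) y).range := by
    rw [← Algebra.adjoin_singleton_eq_range_aeval]; exact hr
  obtain ⟨g, rfl⟩ := hr'
  refine ⟨g.coeff 0, ⟨Polynomial.aeval y g.divX, ?_⟩, ?_⟩
  · show _ ∈ Algebra.adjoin K {y}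
    rw [Algebra.adjoin_singleton_eq_range_aeval]; exact ⟨_, rfl⟩
  · apply Subtype.ext
    show Polynomial.aeval y g = algebraMap K F (g.coeff 0) + y * Polynomial.aeval y g.divX
    have := congrArg (Polynomial.aeval y) (Polynomial.divX_mul_X_add g)
    simp only [map_add, map_mul, Polynomial.aeval_X, Polynomial.aeval_C] at this
    rw [← this]; ring

lemma fund_isMaximal {y : F} (hy : Transcendental K y) :
    (Ideal.span {genPoly K y}).IsMaximal := by
  rw [Ideal.isMaximal_iff]
  constructor
  · intro h1
    rw [Ideal.mem_span_singleton'] at h1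
    obtain ⟨⟨r, hr⟩, h1⟩ := h1
    have hr' : r ∈ (Polynomial.aeval (R := K) y).range := by
      rw [← Algebra.adjoin_singleton_eq_range_aeval]; exact hr
    obtain ⟨g, rfl⟩ := hr'
    have h2 : Polynomial.aeval y (g * Polynomial.X - 1) = 0 := by
      have := congrArg Subtype.val h1
      simp only [genPoly] at this
      simp only [map_sub, map_mul, Polynomial.aeval_X, map_one]
      rw [sub_eq_zero]
      exact this
    have h3 := (transcendental_iff.mp hy) _ h2
    have h4 := congrArg (fun q => q.coeff 0) h3
    simp at h4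
  · intro J x hJ hx hxJ
    obtain ⟨c, r', rfl⟩ := fund_exists_eq_add_mul y x
    have hmem : genPoly K y * r' ∈ Ideal.span {genPoly K y} :=
      Ideal.mul_mem_right _ _ (Ideal.mem_span_singleton_self _)
    have hc : c ≠ 0 := by
      rintro rfl
      apply hx
      simpa using hmem
    have h1 : algebraMap K (polyRing K y) c ∈ J := by
      have := J.sub_mem hxJ (hJ hmem)
      simpa using this
    have h2 := J.mul_mem_left (algebraMap K (polyRing K y) c⁻¹) h1
    rwa [← map_mul, inv_mul_cancel₀ hc, map_one] at h2

section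

variable [CharZero K] {y : F} [IsDedekindDomain (intRing K y)] [IsFractionRing (intRing K y) F]

lemma fund_ord_pos_iff_mem (P : HeightOneSpectrum (intRing K y)) {t : intRing K y} (ht : t ≠ 0) :
    0 < (Place.ofHeightOneSpectrum (K := K) (F := F) P).ord (t : F) ↔ t ∈ P.asIdeal := by
  rw [ord_ofHeightOneSpectrum, ← HeightOneSpectrum.valuation_lt_one_iff_mem (K := F)]
  have hne : P.valuation F (algebraMap (intRing K y) F t) ≠ 0 := by
    rw [Valuation.ne_zero_iff]
    exact fun h => ht (Subtype.ext h)
  have e : (t : F) = algebraMap (intRing K y) F t := rfl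
  rw [e, neg_pos, ← WithZero.log_one, WithZero.log_lt_log hne one_ne_zero]

lemma fund_ord_eq_count (P : HeightOneSpectrum (intRing K y)) {t : intRing K y} (ht : t ≠ 0) :
    (Place.ofHeightOneSpectrum (K := K) (F := F) P).ord (t : F) =
      (Multiset.count P.asIdeal
        (UniqueFactorizationMonoid.normalizedFactors (Ideal.span {t})) : ℤ) := by
  have e : (t : F) = algebraMap (intRing K y) F t := rfl
  rw [ord_ofHeightOneSpectrum, e, HeightOneSpectrum.valuation_of_algebraMap,
    HeightOneSpectrum.intValuation_if_neg _ ht, WithZero.log_exp, neg_neg,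
    Ideal.count_associates_factors_eq (by simpa using ht) P.isPrime P.ne_bot]

end

/-- Zeros of `y ≠ 0` are finite in number (`y ∈ K`: none; `y` transcendental: they correspond to
the primes of `intRing K y` containing `y`). -/
theorem IsFF.zerosOf_finite [IsAlgClosed K] [CharZero K] (h : IsFF K F) {y : F} (hy : y ≠ 0) :
    (zerosOf K y).Finite := by
  by_cases hyK : y ∈ Set.range (algebraMap K F)
  · obtain ⟨c, rfl⟩ := hyK
    convert Set.finite_empty
    ext v
    simp [zerosOf, ord_algebraMap]
  · have hyt : Transcendental K y := transcendental_of_not_mem_range hyK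
    have := h.finiteDimensional hyt
    have := isDedekindDomain_intRing (K := K) hyt
    have := isFractionRing_intRing (K := K) hyt
    have hg : genInt K y ≠ 0 := fun h0 => hy (congrArg Subtype.val h0)
    have hfin := Ideal.finite_factors (I := Ideal.span {genInt K y}) (by simpa using hg)
    refine (hfin.image (fun P => Place.ofHeightOneSpectrum (K := K) (F := F) P)).subset ?_
    intro v hv
    have hv' : y ∈ v.toValuationSubring := ((ord_pos_iff v hy).mp hv).1
    obtain ⟨P, rfl⟩ := exists_heightOneSpectrum v hv'
    refine ⟨P, ?_, rfl⟩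
    rw [Set.mem_ofPred_eq, Ideal.dvd_span_singleton]
    exact (ofHeightOneSpectrum_mem_zerosOf_iff hy P).mp hv

/-- Mathlib: `Ideal.sum_ramification_inertia_eq_finrank` for `p = (y) ⊆ K[y]`, `S = intRing K y`;
`ramificationIdx = ord` (`Ideal.ramificationIdx_eq_normalizedFactors_count`, FF-3a),
`inertiaDeg = 1` (`K` algebraically closed; `K[y]/(y) = K`). -/
theorem IsFF.sum_ord_zerosOf [IsAlgClosed K] [CharZero K] (h : IsFF K F) {y : F}
    (hy : Transcendental K y) :
    ∑ᶠ v ∈ zerosOf K y, v.ord y = (Module.finrank K⟮y⟯ F : ℤ) := by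
  classical
  have hy0 : y ≠ 0 := by
    rintro rfl
    exact hy (isAlgebraic_zero)
  have := h.finiteDimensional hy
  have := isDedekindDomain_intRing (K := K) hy
  have := isFractionRing_intRing (K := K) hy
  have := finite_intRing (K := K) hy
  have := free_intRing (K := K) hy
  set p : Ideal (polyRing K y) := Ideal.span {genPoly K y} with hp
  have hpmax : p.IsMaximal := fund_isMaximal hy
  have hg : genInt K y ≠ 0 := fun h0 => hy0 (congrArg Subtype.val h0)
  have hmap : p.map (algebraMap (polyRing K y) (intRing K y)) = Ideal.span {genInt K y} := by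
    rw [hp, Ideal.map_span, Set.image_singleton, algebraMap_genPoly]
  have hmap0 : p.map (algebraMap (polyRing K y) (intRing K y)) ≠ ⊥ := by
    rw [hmap]; simpa using hg
  have : Fintype (p.primesOver (intRing K y)) :=
    (Algebra.QuasiFinite.finite_primesOver p).fintype
  have hflat : Module.Flat (polyRing K y) (intRing K y) := Module.Flat.of_free
  have key := Ideal.sum_ramification_inertia_eq_finrank p (intRing K y)
  rw [finrank_intRing hy] at key
  have hgq : ∀ q : p.primesOver (intRing K y), genInt K y ∈ q.1 := by
    intro q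
    have h1 : genPoly K y ∈ q.1.under (polyRing K y) := by
      rw [← Ideal.over_def q.1 p]
      exact Ideal.mem_span_singleton_self _
    exact h1
  have hqbot : ∀ q : p.primesOver (intRing K y), q.1 ≠ ⊥ := by
    intro q hq
    have := hgq q
    rw [hq] at this
    exact hg this
  let Pq : p.primesOver (intRing K y) → HeightOneSpectrum (intRing K y) := fun q =>
    ⟨q.1, q.2.1, hqbot q⟩
  let e : p.primesOver (intRing K y) → Place K F := fun q =>
    Place.ofHeightOneSpectrum (K := K) (F := F) (Pq q)
  have he : Function.Injective e := by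
    intro q q' hqq
    have := ofHeightOneSpectrum_injective (K := K) (F := F) hqq
    exact Subtype.ext (congrArg HeightOneSpectrum.asIdeal this)
  have hrange : Set.range e = zerosOf K y := by
    ext v
    constructor
    · rintro ⟨q, rfl⟩
      exact (ofHeightOneSpectrum_mem_zerosOf_iff hy0 (Pq q)).mpr (hgq q)
    · intro hv
      have hv' : y ∈ v.toValuationSubring := ((ord_pos_iff v hy0).mp hv).1
      obtain ⟨P, rfl⟩ := exists_heightOneSpectrum v hv'
      have hP := (ofHeightOneSpectrum_mem_zerosOf_iff hy0 P).mp hv
      have hlies : P.asIdeal.LiesOver p := by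
        constructor
        have hle : p ≤ P.asIdeal.under (polyRing K y) := by
          rw [hp, Ideal.span_singleton_le_iff_mem]
          exact hP
        refine hpmax.eq_of_le ?_ hle
        have := P.isPrime
        exact (Ideal.IsPrime.under (polyRing K y) P.asIdeal).ne_top
      exact ⟨⟨P.asIdeal, P.isPrime, hlies⟩, rfl⟩
  rw [← hrange, finsum_mem_range he, finsum_eq_sum_of_fintype, ← key]
  push_cast
  refine Finset.sum_congr rfl fun q _ => ?_
  -- the inertia degree is one
  have hres : ∀ s : intRing K y, ∃ c : K, s - algebraMap K (intRing K y) c ∈ q.1 := by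
    intro s
    have hs : (s : F) ∈ (e q).toValuationSubring := by
      show (s : F) ∈ ((Pq q).valuation F).valuationSubring
      rw [Valuation.mem_valuationSubring_iff]
      exact (Pq q).valuation_le_one s
    obtain ⟨c, hc | hc⟩ := h.exists_residue (e q) hs
    · refine ⟨c, ?_⟩
      have : s - algebraMap K (intRing K y) c = 0 := by
        apply Subtype.ext
        show (s : F) - algebraMap K F c = 0
        rw [hc, sub_self]
      rw [this]; exact zero_mem _
    · refine ⟨c, ?_⟩
      by_cases h0 : s - algebraMap K (intRing K y) c = 0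
      · rw [h0]; exact zero_mem _
      · exact (fund_ord_pos_iff_mem (Pq q) h0).mp hc
  have hqmax : q.1.IsMaximal := q.2.1.isMaximal (hqbot q)
  have hin : q.1.inertiaDeg (polyRing K y) = 1 := by
    refine fund_inertiaDeg_eq_one p q.1 fun s => ?_
    obtain ⟨c, hc⟩ := hres s
    exact ⟨algebraMap K (polyRing K y) c, hc⟩
  have hram : (q.1.ramificationIdx (polyRing K y) : ℤ) = (e q).ord y := by
    rw [Ideal.IsDedekindDomain.ramificationIdx_eq_normalizedFactors_count p q.1 hmap0, hmap]
    exact (fund_ord_eq_count (Pq q) hg).symm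
  rw [hin, hram]
  simp

end Fermat.Agent.S24
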