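import Mathlib

set_option autoImplicit false

namespace Fermat.Agent.S24

open Module

/-- In an artinian commutative ring a non-nilpotent element has a nonzero idempotent multiple. -/
theorem artinTrace_exists_idempotent {A : Type*} [CommRing A] [IsArtinianRing A] (z : A)
    (hz : ¬ IsNilpotent z) : ∃ c : A, IsIdempotentElem (z * c) ∧ z * c ≠ 0 := by
  obtain ⟨n, y, hy⟩ := IsArtinian.exists_pow_succ_smul_dvd z (1 : A)
  simp only [smul_eq_mul, mul_one, Nat.succ_eq_add_one] at hy
  -- `z ^ (m + 1) * y = z ^ m` with `m = n + 1`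
  have h1 : z ^ (n + 1 + 1) * y = z ^ (n + 1) := by
    calc z ^ (n + 1 + 1) * y = z * (z ^ (n + 1) * y) := by ring
      _ = z ^ (n + 1) := by rw [hy]; ring
  have h2 : ∀ j : ℕ, z ^ (n + 1 + j) * y ^ j = z ^ (n + 1) := by
    intro j
    induction j with
    | zero => simp
    | succ j ih =>
      calc z ^ (n + 1 + (j + 1)) * y ^ (j + 1) = (z ^ (n + 1 + 1) * y) * (z ^ j * y ^ j) := by ring
        _ = z ^ (n + 1 + j) * y ^ j := by rw [h1]; ring
        _ = z ^ (n + 1) := ih
  have h3 := h2 (n + 1)
  refine ⟨z ^ n * y ^ (n + 1), ?_, ?_⟩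
  · show z * (z ^ n * y ^ (n + 1)) * (z * (z ^ n * y ^ (n + 1))) = z * (z ^ n * y ^ (n + 1))
    calc z * (z ^ n * y ^ (n + 1)) * (z * (z ^ n * y ^ (n + 1)))
        = (z ^ (n + 1 + (n + 1)) * y ^ (n + 1)) * y ^ (n + 1) := by ring
      _ = z * (z ^ n * y ^ (n + 1)) := by rw [h3]; ring
  · intro h0
    apply hz
    refine ⟨n + 1, ?_⟩
    calc z ^ (n + 1) = z ^ (n + 1 + (n + 1)) * y ^ (n + 1) := h3.symm
      _ = z ^ (n + 1) * (z * (z ^ n * y ^ (n + 1))) := by ring
      _ = 0 := by rw [h0, mul_zero]

/-- the trace of a nonzero idempotent is nonzero in characteristic zero -/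
theorem artinTrace_trace_idempotent_ne_zero {K A : Type*} [Field K] [CharZero K] [CommRing A]
    [Algebra K A] [FiniteDimensional K A] (e : A) (he : IsIdempotentElem e) (h0 : e ≠ 0) :
    Algebra.trace K A e ≠ 0 := by
  have hid : IsIdempotentElem (Algebra.lmul K A e) := by
    show Algebra.lmul K A e * Algebra.lmul K A e = Algebra.lmul K A e
    rw [← map_mul, he.eq]
  have hproj := LinearMap.IsIdempotentElem.isProj_range _ hid
  rw [Algebra.trace_apply, hproj.trace]
  have : finrank K (LinearMap.range (Algebra.lmul K A e)) ≠ 0 := by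
    intro h
    rw [Submodule.finrank_eq_zero] at h
    have hmem : e ∈ LinearMap.range (Algebra.lmul K A e) := ⟨e, he.eq⟩
    rw [h] at hmem
    exact h0 (by simpa using hmem)
  exact_mod_cast this

/-- the radical of the trace form is the nilradical -/
theorem artinTrace_mem_nilradical_iff {K A : Type*} [Field K] [CharZero K] [CommRing A]
    [Algebra K A] [FiniteDimensional K A] (z : A) :
    z ∈ nilradical A ↔ ∀ c : A, Algebra.trace K A (z * c) = 0 := by
  have : IsArtinianRing A := IsArtinianRing.of_finite K A
  constructor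
  · intro hz c
    have h1 : IsNilpotent (z * c) := (Commute.all z c).isNilpotent_mul_right (mem_nilradical.mp hz)
    exact (Algebra.isNilpotent_trace_of_isNilpotent (R := K) h1).eq_zero
  · intro h
    by_contra hz
    obtain ⟨c, hc, h0⟩ := artinTrace_exists_idempotent z (fun hn => hz (mem_nilradical.mpr hn))
    exact artinTrace_trace_idempotent_ne_zero (K := K) _ hc h0 (h c)

theorem artinTrace_finrank_quot {K A : Type*} [Field K] [IsAlgClosed K] [CommRing A]
    [Algebra K A] [FiniteDimensional K A] :
    finrank K (A ⧸ nilradical A) = Nat.card (MaximalSpectrum A) := by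
  have : IsArtinianRing A := IsArtinianRing.of_finite K A
  have : Fintype (MaximalSpectrum A) := Fintype.ofFinite _
  have e := ((IsArtinianRing.quotNilradicalEquivPi A).restrictScalars K).toLinearEquiv
  rw [e.finrank_eq, Module.finrank_pi_fintype]
  have h1 : ∀ I : MaximalSpectrum A, finrank K (A ⧸ I.asIdeal) = 1 := by
    intro I
    let : Field (A ⧸ I.asIdeal) := Ideal.Quotient.field I.asIdeal
    have hb : Function.Bijective (algebraMap K (A ⧸ I.asIdeal)) :=
      IsAlgClosed.algebraMap_bijective_of_isIntegral
    have e2 : K ≃ₗ[K] (A ⧸ I.asIdeal) :=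
      LinearEquiv.ofBijective (Algebra.linearMap K (A ⧸ I.asIdeal)) hb
    rw [← e2.finrank_eq, finrank_self]
  simp [h1]

theorem rank_traceMatrix_eq_card_maximalSpectrum {K A ι : Type*} [Field K] [IsAlgClosed K]
    [CharZero K] [CommRing A] [Algebra K A] [FiniteDimensional K A] [Fintype ι] [DecidableEq ι]
    (b : Module.Basis ι K A) :
    (Algebra.traceMatrix K b).rank = Nat.card (MaximalSpectrum A) := by
  set M := Algebra.traceMatrix K b with hM
  set N : Submodule K A := (nilradical A).restrictScalars K with hN
  -- kernel of `M` corresponds to the nilradical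
  have hker : LinearMap.ker M.mulVecLin = N.map (b.equivFun : A →ₗ[K] (ι → K)) := by
    ext v
    obtain ⟨z, rfl⟩ := b.equivFun.surjective v
    rw [LinearMap.mem_ker, Matrix.mulVecLin_apply, hM, Algebra.traceMatrix_of_basis_mulVec]
    have h1 : b.equivFun z ∈ N.map (b.equivFun : A →ₗ[K] (ι → K)) ↔ z ∈ N := by
      constructor
      · rintro ⟨z', hz', h⟩
        have : z' = z := b.equivFun.injective h
        rwa [← this]
      · intro h
        exact ⟨z, h, rfl⟩
    rw [h1, hN, Submodule.restrictScalars_mem, artinTrace_mem_nilradical_iff (K := K)]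
    constructor
    · intro h c
      have hc : c = ∑ i, b.repr c i • b i := (b.sum_repr c).symm
      rw [hc, Finset.mul_sum, map_sum]
      refine Finset.sum_eq_zero fun i _ => ?_
      rw [mul_smul_comm, map_smul, show Algebra.trace K A (z * b i) = 0 from congrFun h i,
        smul_zero]
    · intro h
      funext i
      exact h (b i)
  have h1 := LinearMap.finrank_range_add_finrank_ker M.mulVecLin
  have h2 : finrank K (LinearMap.ker M.mulVecLin) = finrank K N := by
    rw [hker]
    exact LinearEquiv.finrank_map_eq b.equivFun N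
  have h3 : finrank K (A ⧸ N) + finrank K N = finrank K A := Submodule.finrank_quotient_add_finrank N
  have h4 : finrank K (A ⧸ N) = Nat.card (MaximalSpectrum A) := artinTrace_finrank_quot
  have h5 : finrank K A = finrank K (ι → K) := b.equivFun.finrank_eq
  rw [Matrix.rank]
  omega

end Fermat.Agent.S24
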