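import Fermat.Agent.S24.Expand
import Fermat.Agent.S24.Primes
import Fermat.Agent.S20.Basic

/-!
# S24, package MF-L: the characters of the integral closure given by the values of the conjugates
at a point (`l = pure z`) or at the cusps (`l = atImInfty`)
-/

set_option autoImplicit false

namespace Fermat.Agent.S24

open UpperHalfPlane ModularForm EisensteinSeries Filter Topology CongruenceSubgroup ModularCurve
open Fermat.Agent.S20 Fermat.Agent.S23 IntermediateField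
open scoped MatrixGroups Manifold ModularForm

attribute [local instance] algKbC

variable {N : ℕ} [NeZero N] (pr : Pair) (l : Filter ℍ) (p₀ : ℂ) {y : FN N}

/-- `χ (G / P^m) = lim (vec G x) / (lim P)^m`. -/
def IsCharAt (x : Cos (Gamma0 N)) (χ : intRing Kb y →ₐ[Kb] ℂ) : Prop :=
  ∀ (f : intRing Kb y) (m : ℕ) (G : ℍ → ℂ) (g₀ : ℂ),
    IsRep pr (Gamma0 N) ((f : FN N) : LaurentSeries Kb) m G →
      Tendsto (vec (Gamma0 N) (12 * m) G x) l (𝓝 g₀) → χ f * p₀ ^ m = g₀

/-! ### calculus of representations -/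

section Rep

variable {pr} {s s' : LaurentSeries Kb} {m m' : ℕ} {G G' : ℍ → ℂ}

omit [NeZero N] in
theorem chr_P_nice : pr.P ∈ Nice := mem_Nice_of_mem_MFs_top pr.hP

omit [NeZero N] in
theorem chr_Q_nice : pr.Q ∈ Nice := mem_Nice_of_mem_MFs_top pr.hQ

omit [NeZero N] in
theorem chr_qLfP_ne : qLf pr.P ≠ 0 := (qLf_eq_zero_iff chr_P_nice).not.mpr pr.P_ne

omit [NeZero N] in
theorem chr_Ppow_mem (m : ℕ) : pr.P ^ m ∈ MFs ⊤ (12 * m) := by
  have := pow_mem_MFs pr.hP m
  rwa [mul_comm] at this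

omit [NeZero N] in
theorem IsRep.chr_nice (h : IsRep pr (Gamma0 N) s m G) : G ∈ Nice :=
  mem_Nice_of_mem_MFs_Gamma0 h.1

omit [NeZero N] in
theorem IsRep.chr_add (h : IsRep pr (Gamma0 N) s m G) (h' : IsRep pr (Gamma0 N) s' m' G') :
    IsRep pr (Gamma0 N) (s + s') (m + m') (pr.P ^ m' * G + pr.P ^ m * G') := by
  refine ⟨Submodule.add_mem _ (mul_mem_MFs' (chr_Ppow_mem m') h.1 (by push_cast; ring))
    (mul_mem_MFs' (chr_Ppow_mem m) h'.1 (by push_cast; ring)), ?_⟩
  have hP := chr_P_nice (pr := pr)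
  rw [qLf_add (Nice.mul_mem (Nice.pow_mem hP _) h.chr_nice)
    (Nice.mul_mem (Nice.pow_mem hP _) h'.chr_nice), qLf_mul (Nice.pow_mem hP _) h.chr_nice,
    qLf_mul (Nice.pow_mem hP _) h'.chr_nice, qLf_pow hP, qLf_pow hP, ← h.2, ← h'.2, map_add]
  ring

omit [NeZero N] in
theorem IsRep.chr_mul (h : IsRep pr (Gamma0 N) s m G) (h' : IsRep pr (Gamma0 N) s' m' G') :
    IsRep pr (Gamma0 N) (s * s') (m + m') (G * G') := by
  refine ⟨?_, ?_⟩
  · have := mul_mem_MFs h.1 h'.1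
    convert this using 2
    push_cast; ring
  · rw [qLf_mul h.chr_nice h'.chr_nice, ← h.2, ← h'.2, map_mul]
    ring

omit [NeZero N] in
theorem chr_isRep_const (c : Kb) :
    IsRep pr (Gamma0 N) (algebraMap Kb (LaurentSeries Kb) c) 0 (fun _ => iota c) := by
  refine ⟨by simpa using const_mem_MFs (H := Gamma0 N) (iota c), ?_⟩
  have e : (fun _ => iota c : ℍ → ℂ) = iota c • (1 : ℍ → ℂ) := by
    funext z; simp
  rw [e, qLf_smul _ (Nice.one_mem), qLf_one, iotaL_algebraMap, pow_zero, mul_one]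
  ext n
  simp [HahnSeries.coeff_smul, Fermat.Agent.S28.algebraMap_eq_C, HahnSeries.coeff_single]

variable {l p₀}

omit [NeZero N] in
theorem chr_tendsto_mul {a b c : ℤ} {r : ℍ → ℂ} {r₀ g₀ : ℂ} (hr : r ∈ MFs ⊤ a)
    (hr₀ : Tendsto r l (𝓝 r₀)) (x : Cos (Gamma0 N))
    (hg : Tendsto (vec (Gamma0 N) b G x) l (𝓝 g₀)) (hc : a + b = c) :
    Tendsto (vec (Gamma0 N) c (r * G) x) l (𝓝 (r₀ * g₀)) := by
  rw [vec_top_mul hr G hc x]
  exact hr₀.mul hg

omit [NeZero N] in
theorem chr_key [l.NeBot] {g₀ g₀' : ℂ} (hP : Tendsto pr.P l (𝓝 p₀))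
    (h : IsRep pr (Gamma0 N) s m G) (h' : IsRep pr (Gamma0 N) s m' G') (x : Cos (Gamma0 N))
    (hg : Tendsto (vec (Gamma0 N) (12 * m) G x) l (𝓝 g₀))
    (hg' : Tendsto (vec (Gamma0 N) (12 * m') G' x) l (𝓝 g₀')) :
    g₀ * p₀ ^ m' = g₀' * p₀ ^ m := by
  have hPn := chr_P_nice (pr := pr)
  have e : pr.P ^ m' * G = pr.P ^ m * G' := by
    refine qLf_injOn (Nice.mul_mem (Nice.pow_mem hPn _) h.chr_nice)
      (Nice.mul_mem (Nice.pow_mem hPn _) h'.chr_nice) ?_
    rw [qLf_mul (Nice.pow_mem hPn _) h.chr_nice, qLf_mul (Nice.pow_mem hPn _) h'.chr_nice,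
      qLf_pow hPn, qLf_pow hPn, ← h.2, ← h'.2]
    ring
  have h1 := chr_tendsto_mul (c := 12 * m' + 12 * m) (chr_Ppow_mem (pr := pr) m') (hP.pow m') x hg rfl
  have h2 := chr_tendsto_mul (c := 12 * m' + 12 * m) (chr_Ppow_mem (pr := pr) m) (hP.pow m) x hg'
    (by ring)
  rw [e] at h1
  have := tendsto_nhds_unique h1 h2
  linear_combination this

end Rep

variable {pr l p₀} [l.NeBot] (hl : HasLims (Gamma0 N) l) (hP : Tendsto pr.P l (𝓝 p₀))
  (hp₀ : p₀ ≠ 0) {c : Kb} (hy : (y : LaurentSeries Kb) = pr.t - algebraMap Kb _ c)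

omit [NeZero N] in
include hy in
theorem chr_mem_adjoin (a : polyRing Kb y) :
    (((a : FN N)) : LaurentSeries Kb) ∈ Algebra.adjoin Kb {pr.t} := by
  obtain ⟨a, ha⟩ := a
  have ha' : a ∈ (Polynomial.aeval (R := Kb) y).range := by
    rw [← Algebra.adjoin_singleton_eq_range_aeval]; exact ha
  obtain ⟨p, rfl⟩ := ha'
  show algebraMap (FN N) (LaurentSeries Kb) (Polynomial.aeval y p) ∈ _
  rw [← Polynomial.aeval_algebraMap_apply]
  have h1 : algebraMap (FN N) (LaurentSeries Kb) y ∈ Algebra.adjoin Kb {pr.t} := by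
    show (y : LaurentSeries Kb) ∈ _
    rw [hy]
    exact Subalgebra.sub_mem _ (Algebra.self_mem_adjoin_singleton _ _)
      (Subalgebra.algebraMap_mem _ _)
  have h2 : Algebra.adjoin Kb {algebraMap (FN N) (LaurentSeries Kb) y} ≤
      Algebra.adjoin Kb {pr.t} := Algebra.adjoin_le (by simpa using h1)
  exact h2 (Polynomial.aeval_mem_adjoin_singleton _ _)

omit [NeZero N] in
include hy in
theorem chr_isIntegral (f : intRing Kb y) :
    IsIntegral (Algebra.adjoin Kb {pr.t}) ((f : FN N) : LaurentSeries Kb) := by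
  let φ : polyRing Kb y →+* Algebra.adjoin Kb {pr.t} :=
    RingHom.codRestrict ((algebraMap (FN N) (LaurentSeries Kb)).comp
      (algebraMap (polyRing Kb y) (FN N))) (Algebra.adjoin Kb {pr.t}) (chr_mem_adjoin hy)
  exact IsIntegral.map_of_comp_eq φ (algebraMap (FN N) (LaurentSeries Kb)) rfl f.2

include hy in
theorem chr_exists_rep (f : intRing Kb y) :
    ∃ (m : ℕ) (G : ℍ → ℂ), IsRep pr (Gamma0 N) ((f : FN N) : LaurentSeries Kb) m G :=
  isRep_of_isIntegral pr (f : FN N).2 (chr_isIntegral hy f)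

include hl hP hp₀ hy in
/-- (L1) Every `f` in `intRing` has a representation `(m, G)` (K2; `ℚ̄[t - c] = ℚ̄[t]`); two
representations satisfy `G P^m' = G' P^m` (`qLf_injOn`), so the value is well defined; sums and
products of representations represent sums and products. -/
theorem exists_char (x : Cos (Gamma0 N)) : ∃ χ : intRing Kb y →ₐ[Kb] ℂ, IsCharAt pr l p₀ x χ := by
  have hex : ∀ f : intRing Kb y, ∃ v : ℂ, ∀ (m : ℕ) (G : ℍ → ℂ) (g₀ : ℂ),
      IsRep pr (Gamma0 N) ((f : FN N) : LaurentSeries Kb) m G →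
      Tendsto (vec (Gamma0 N) (12 * m) G x) l (𝓝 g₀) → v * p₀ ^ m = g₀ := by
    intro f
    obtain ⟨m, G, hrep⟩ := chr_exists_rep hy f
    obtain ⟨g, hg⟩ := hl _ G hrep.1 x
    refine ⟨g / p₀ ^ m, fun m' G' g' hrep' hg' => ?_⟩
    have := chr_key hP hrep hrep' x hg hg'
    have hpm : p₀ ^ m ≠ 0 := pow_ne_zero _ hp₀
    field_simp
    linear_combination this
  choose val hval using hex
  have hconst : ∀ a : Kb, val (algebraMap Kb (intRing Kb y) a) = iota a := by
    intro a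
    have h1 := hval (algebraMap Kb (intRing Kb y) a) 0 (fun _ => iota a) (iota a)
      (chr_isRep_const a) (by
        have : vec (Gamma0 N) (12 * ((0 : ℕ) : ℤ)) (fun _ => iota a) x = fun _ => iota a :=
          vec_top (by simpa using const_mem_MFs (H := ⊤) (iota a)) x
        rw [this]
        exact tendsto_const_nhds)
    simpa using h1
  have hadd : ∀ f f' : intRing Kb y, val (f + f') = val f + val f' := by
    intro f f'
    obtain ⟨m, G, hrep⟩ := chr_exists_rep hy f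
    obtain ⟨g, hg⟩ := hl _ G hrep.1 x
    obtain ⟨m', G', hrep'⟩ := chr_exists_rep hy f'
    obtain ⟨g', hg'⟩ := hl _ G' hrep'.1 x
    have h1 := hval f m G g hrep hg
    have h2 := hval f' m' G' g' hrep' hg'
    have h3 := hval (f + f') (m + m') _ (p₀ ^ m' * g + p₀ ^ m * g') (hrep.chr_add hrep') (by
      rw [vec_add]
      exact (chr_tendsto_mul (chr_Ppow_mem m') (hP.pow m') x hg (by push_cast; ring)).add
        (chr_tendsto_mul (chr_Ppow_mem m) (hP.pow m) x hg' (by push_cast; ring)))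
    have hpm : p₀ ^ (m + m') ≠ 0 := pow_ne_zero _ hp₀
    apply mul_right_cancel₀ hpm
    rw [h3, ← h1, ← h2, pow_add]
    ring
  have hmul : ∀ f f' : intRing Kb y, val (f * f') = val f * val f' := by
    intro f f'
    obtain ⟨m, G, hrep⟩ := chr_exists_rep hy f
    obtain ⟨g, hg⟩ := hl _ G hrep.1 x
    obtain ⟨m', G', hrep'⟩ := chr_exists_rep hy f'
    obtain ⟨g', hg'⟩ := hl _ G' hrep'.1 x
    have h1 := hval f m G g hrep hg
    have h2 := hval f' m' G' g' hrep' hg'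
    have h3 := hval (f * f') (m + m') _ (g * g') (hrep.chr_mul hrep') (by
      have e : (12 : ℤ) * ((m + m' : ℕ) : ℤ) = 12 * m + 12 * m' := by push_cast; ring
      rw [e, vec_mul]
      exact hg.mul hg')
    have hpm : p₀ ^ (m + m') ≠ 0 := pow_ne_zero _ hp₀
    apply mul_right_cancel₀ hpm
    rw [h3, ← h1, ← h2, pow_add]
    ring
  have hone : val 1 = 1 := by
    rw [← map_one (algebraMap Kb (intRing Kb y)), hconst, map_one]
  have hzero : val 0 = 0 := by
    rw [← map_zero (algebraMap Kb (intRing Kb y)), hconst, map_zero]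
  let φ : intRing Kb y →+* ℂ := ⟨⟨⟨val, hone⟩, hmul⟩, hzero, hadd⟩
  exact ⟨AlgHom.mk φ hconst, fun f m G g₀ => hval f m G g₀⟩

omit [NeZero N] in
theorem chr_iotaL_t_mul : iotaL pr.t * qLf pr.P = qLf pr.Q := by
  rw [Pair.t, map_div₀, pr.hPS, pr.hQS, div_mul_cancel₀ _ chr_qLfP_ne]

omit [NeZero N] in
theorem chr_isRep_gen (c : Kb) :
    IsRep pr (Gamma0 N) (pr.t - algebraMap Kb _ c) 1 (pr.Q - iota c • pr.P) := by
  refine ⟨?_, ?_⟩
  · have : pr.Q - iota c • pr.P ∈ MFs ⊤ 12 :=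
      Submodule.sub_mem _ pr.hQ (Submodule.smul_mem _ _ pr.hP)
    simpa using MFs_top_le (H := Gamma0 N) this
  · rw [qLf_sub chr_Q_nice (Nice.smul_mem chr_P_nice _), qLf_smul _ chr_P_nice, map_sub, pow_one,
      sub_mul, chr_iotaL_t_mul, iotaL_algebraMap, Fermat.Agent.S28.algebraMap_eq_C,
      Fermat.Agent.S28.smul_eq_C_mul]

include hP hp₀ hy in
/-- (L2) `y = (Q - c P) / P`. -/
theorem IsCharAt.apply_gen {q₀ : ℂ} (hQ : Tendsto pr.Q l (𝓝 q₀)) (hc : iota c * p₀ = q₀)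
    {x : Cos (Gamma0 N)} {χ : intRing Kb y →ₐ[Kb] ℂ} (hχ : IsCharAt pr l p₀ x χ) :
    χ (genInt Kb y) = 0 := by
  have hrep : IsRep pr (Gamma0 N) (((genInt Kb y : intRing Kb y) : FN N) : LaurentSeries Kb) 1
      (pr.Q - iota c • pr.P) := by
    show IsRep pr (Gamma0 N) (y : LaurentSeries Kb) 1 _
    rw [hy]
    exact chr_isRep_gen c
  have hlim : Tendsto (vec (Gamma0 N) (12 * ((1 : ℕ) : ℤ)) (pr.Q - iota c • pr.P) x) l (𝓝 0) := by
    have hm : pr.Q - iota c • pr.P ∈ MFs ⊤ (12 * ((1 : ℕ) : ℤ)) := by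
      simpa using Submodule.sub_mem _ pr.hQ (Submodule.smul_mem _ (iota c) pr.hP)
    rw [vec_top hm x]
    have := hQ.sub (hP.const_mul (iota c))
    rw [hc, sub_self] at this
    exact this
  have := hχ _ 1 _ 0 hrep hlim
  rw [pow_one] at this
  exact (mul_eq_zero.mp this).resolve_right hp₀

noncomputable def chr_lin {A : Type*} [CommRing A] [Algebra Kb A]
    (E : A →ₐ[Kb] LaurentSeries Kb) : A →ₗ[Kb] LaurentSeries Kb where
  toFun := E
  map_add' := map_add E
  map_smul' a x := by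
    rw [Algebra.smul_def, map_mul, AlgHom.commutes, Fermat.Agent.S28.algebraMap_eq_C,
      HahnSeries.C_mul_eq_smul]
    rfl

theorem chr_descent_alg {ι : Type*} [Fintype ι] {A : Type*} [CommRing A] [Algebra Kb A]
    (E : A →ₐ[Kb] LaurentSeries Kb) (hE : Function.Injective E) (ψ : A →ₐ[Kb] ℂ)
    (s : ι → A) (c : ι → ℂ) (h : ∑ i, c i • iotaL (E (s i)) = 0) : ∑ i, c i * ψ (s i) = 0 :=
  descent_lin (chr_lin E) hE ψ.toLinearMap s c h

theorem chr_sum_sigma {M : Type*} [AddCommMonoid M] (μ m : ℕ) (F : ℕ → ℕ → M) :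
    ∑ j : (Σ r : Fin (μ + 1), Fin ((r : ℕ) * m + 1)), F j.1 j.2 =
      ∑ r ∈ Finset.range (μ + 1), ∑ i ∈ Finset.range (r * m + 1), F r i := by
  rw [Fintype.sum_sigma, ← Fin.sum_univ_eq_sum_range]
  refine Finset.sum_congr rfl fun r _ => ?_
  exact Fin.sum_univ_eq_sum_range (fun i => F r i) _

set_option maxHeartbeats 400000 in
omit [NeZero N] in
include hP in
theorem chr_complete_aux {A : Type*} [CommRing A] [Algebra Kb A]
    (E : A →ₐ[Kb] LaurentSeries Kb) (hE : Function.Injective E) (ψ : A →ₐ[Kb] ℂ) (T f : A)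
    (hT : E T = pr.t) (hψT : ψ T = iota c) {m : ℕ} {G : ℍ → ℂ} {s : LaurentSeries Kb}
    (hs : E f = s) (hrep : IsRep pr (Gamma0 N) s m G) [Fintype (Cos (Gamma0 N))]
    (g : Cos (Gamma0 N) → ℂ)
    (hg : ∀ x, Tendsto (vec (Gamma0 N) (12 * m) G x) l (𝓝 (g x)))
    {q₀ : ℂ} (hQ : Tendsto pr.Q l (𝓝 q₀)) (hc : iota c * p₀ = q₀) :
    ∃ x, ψ f * p₀ ^ m = g x := by
  classical
  subst hs
  obtain ⟨μ, hμ⟩ : ∃ μ : ℕ, Fintype.card (Cos (Gamma0 N)) = μ := ⟨_, rfl⟩
  set e : ℕ → ℍ → ℂ := fun r => esymmVec (Gamma0 N) (12 * m) G r with he_def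
  have he : ∀ r, e r ∈ MFs ⊤ (12 * ((r * m : ℕ) : ℤ)) := by
    intro r
    have := esymmVec_mem hrep.1 r
    convert this using 2
    push_cast; ring
  choose cc hcc using fun r => pr.span (r * m) (e r) (he r)
  have hPn := chr_P_nice (pr := pr)
  have hQn := chr_Q_nice (pr := pr)
  have hGn := hrep.chr_nice
  -- the limits of the `e r`
  have hes : ∀ r, ((Finset.univ : Finset (Cos (Gamma0 N))).val.map g).esymm r =
      ∑ i ∈ Finset.range (r * m + 1), cc r i * (p₀ ^ (r * m - i) * q₀ ^ i) := by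
    intro r
    have h1 : Tendsto (e r) l (𝓝 (((Finset.univ : Finset (Cos (Gamma0 N))).val.map g).esymm r)) :=
      esymmVec_tendsto hg r
    have h2 : Tendsto (e r) l
        (𝓝 (∑ i ∈ Finset.range (r * m + 1), cc r i * (p₀ ^ (r * m - i) * q₀ ^ i))) := by
      have e1 : e r = fun z => ∑ i ∈ Finset.range (r * m + 1),
          cc r i * (pr.P z ^ (r * m - i) * pr.Q z ^ i) := by
        rw [hcc r]
        funext z
        simp [Finset.sum_apply]
      rw [e1]
      exact tendsto_finsetSum _ fun i _ => ((hP.pow _).mul (hQ.pow _)).const_mul _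
    exact tendsto_nhds_unique h1 h2
  have hEmul : ∀ (i k : ℕ), iotaL (E (T ^ i * f ^ k)) = iotaL pr.t ^ i * iotaL (E f) ^ k := by
    intro i k
    rw [map_mul, map_pow, map_pow, hT, map_mul, map_pow, map_pow]
  have key : ∀ r, r ≤ μ → ∀ i, i ≤ r * m → iotaL (E (T ^ i * f ^ (μ - r))) * qLf pr.P ^ (m * μ) =
      qLf pr.P ^ (r * m - i) * qLf pr.Q ^ i * qLf G ^ (μ - r) := by
    intro r hr i hi
    have e1 : m * μ = i + (r * m - i) + m * (μ - r) := by
      obtain ⟨d, hd⟩ := Nat.exists_eq_add_of_le hr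
      obtain ⟨d', hd'⟩ := Nat.exists_eq_add_of_le hi
      rw [hd, hd']
      simp only [Nat.add_sub_cancel_left]
      rw [← hd']; ring
    rw [hEmul, e1, pow_add, pow_add, pow_mul, ← chr_iotaL_t_mul, ← hrep.2]
    ring
  have hqe : ∀ r, qLf (e r) = ∑ i ∈ Finset.range (r * m + 1),
      HahnSeries.C (cc r i) * (qLf pr.P ^ (r * m - i) * qLf pr.Q ^ i) := by
    intro r
    rw [hcc r, qLf_sum _ _ fun i _ =>
      Nice.smul_mem (Nice.mul_mem (Nice.pow_mem hPn _) (Nice.pow_mem hQn _)) _]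
    refine Finset.sum_congr rfl fun i _ => ?_
    rw [qLf_smul _ (Nice.mul_mem (Nice.pow_mem hPn _) (Nice.pow_mem hQn _)),
      qLf_mul (Nice.pow_mem hPn _) (Nice.pow_mem hQn _), qLf_pow hPn, qLf_pow hQn,
      Fermat.Agent.S28.smul_eq_C_mul]
  have heN : ∀ r, e r ∈ Nice := fun r => mem_Nice_of_mem_MFs_top (he r)
  have hrel : ∑ j : (Σ r : Fin (μ + 1), Fin ((r : ℕ) * m + 1)),
      ((-1 : ℂ) ^ (j.1 : ℕ) * cc j.1 j.2) • iotaL (E (T ^ (j.2 : ℕ) * f ^ (μ - j.1))) =
        0 := by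
    rw [chr_sum_sigma μ m
      (fun r i => ((-1 : ℂ) ^ r * cc r i) • iotaL (E (T ^ i * f ^ (μ - r))))]
    refine mul_right_cancel₀ (pow_ne_zero (m * μ) (chr_qLfP_ne (pr := pr))) ?_
    have h0 := congrArg qLf (esymmVec_relation hrep.1)
    rw [hμ, qLf_zero, qLf_sum _ _ fun r _ =>
      Nice.smul_mem (Nice.mul_mem (heN r) (Nice.pow_mem hGn _)) _] at h0
    rw [zero_mul, ← h0, Finset.sum_mul]
    refine Finset.sum_congr rfl fun r hr => ?_
    have hr' : r ≤ μ := Nat.lt_succ_iff.mp (Finset.mem_range.mp hr)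
    rw [qLf_smul _ (Nice.mul_mem (heN r) (Nice.pow_mem hGn _)),
      qLf_mul (heN r) (Nice.pow_mem hGn _), qLf_pow hGn]
    show _ = (-1 : ℂ) ^ r • (qLf (e r) * _)
    rw [hqe r, Finset.sum_mul, Finset.sum_mul, Fermat.Agent.S28.smul_eq_C_mul, Finset.mul_sum]
    refine Finset.sum_congr rfl fun i hi => ?_
    have hi' : i ≤ r * m := Nat.lt_succ_iff.mp (Finset.mem_range.mp hi)
    rw [Fermat.Agent.S28.smul_eq_C_mul, mul_assoc]
    show _ * (iotaL (E (T ^ i * f ^ (μ - r))) * _) = _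
    rw [key r hr' i hi', map_mul]
    ring
  have hd := chr_descent_alg E hE ψ (fun j : (Σ r : Fin (μ + 1), Fin ((r : ℕ) * m + 1)) =>
    T ^ (j.2 : ℕ) * f ^ (μ - j.1)) (fun j => (-1 : ℂ) ^ (j.1 : ℕ) * cc j.1 j.2) hrel
  rw [chr_sum_sigma μ m
    (fun r i => ((-1 : ℂ) ^ r * cc r i) * ψ (T ^ i * f ^ (μ - r)))] at hd
  refine exists_eq_of_esymm_relation g (ψ f * p₀ ^ m) ?_
  have hfin : ∑ r ∈ Finset.range (μ + 1), (-1 : ℂ) ^ r *
      (((Finset.univ : Finset (Cos (Gamma0 N))).val.map g).esymm r * (ψ f * p₀ ^ m) ^ (μ - r)) =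
      p₀ ^ (m * μ) * ∑ r ∈ Finset.range (μ + 1), ∑ i ∈ Finset.range (r * m + 1),
        ((-1 : ℂ) ^ r * cc r i) * ψ (T ^ i * f ^ (μ - r)) := by
    rw [Finset.mul_sum]
    refine Finset.sum_congr rfl fun r hr => ?_
    have hr' : r ≤ μ := Nat.lt_succ_iff.mp (Finset.mem_range.mp hr)
    rw [hes r, Finset.sum_mul, Finset.mul_sum, Finset.mul_sum]
    refine Finset.sum_congr rfl fun i hi => ?_
    have hi' : i ≤ r * m := Nat.lt_succ_iff.mp (Finset.mem_range.mp hi)
    have e1 : m * μ = i + (r * m - i) + m * (μ - r) := by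
      obtain ⟨d, hd⟩ := Nat.exists_eq_add_of_le hr'
      obtain ⟨d', hd'⟩ := Nat.exists_eq_add_of_le hi'
      rw [hd, hd']
      simp only [Nat.add_sub_cancel_left]
      rw [← hd']; ring
    rw [map_mul, map_pow, map_pow, hψT, e1, pow_add, pow_add, pow_mul, ← hc]
    ring
  rw [hμ, hfin, hd, mul_zero]

omit [NeZero N] in
/-- the inclusion `intRing Kb y → ℚ̄((q))` as an algebra homomorphism -/
noncomputable def chr_incl (y : FN N) : intRing Kb y →ₐ[Kb] LaurentSeries Kb :=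
  AlgHom.mk ((algebraMap (FN N) (LaurentSeries Kb)).comp (algebraMap (intRing Kb y) (FN N)))
    (fun _ => rfl)

omit [NeZero N] in
theorem chr_incl_apply (y : FN N) (f : intRing Kb y) :
    chr_incl y f = ((f : FN N) : LaurentSeries Kb) := rfl

omit [NeZero N] in
theorem chr_incl_injective (y : FN N) : Function.Injective (chr_incl y) := by
  intro a b h
  exact Subtype.ext (Subtype.ext h)

set_option synthInstance.maxHeartbeats 400000 in
omit [NeZero N] in
include hy in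
theorem chr_incl_T : chr_incl y (genInt Kb y + algebraMap Kb (intRing Kb y) c) = pr.t := by
  rw [map_add, AlgHom.commutes, chr_incl_apply]
  show (y : LaurentSeries Kb) + _ = _
  rw [hy, sub_add_cancel]

set_option synthInstance.maxHeartbeats 400000 in
omit [NeZero N] in
theorem chr_psi_T (c : Kb) (ψ : intRing Kb y →ₐ[Kb] ℂ) (hψ : ψ (genInt Kb y) = 0) :
    ψ (genInt Kb y + algebraMap Kb (intRing Kb y) c) = iota c := by
  rw [map_add, hψ, AlgHom.commutes, zero_add]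
  rfl

set_option synthInstance.maxHeartbeats 400000 in
set_option maxHeartbeats 400000 in
include hl hP hp₀ hy in
/-- (L3) `esymmVec_relation` for `G`, divide by `P^(m μ)`: a polynomial relation between `f` and
`t` with complex coefficients; `descent_lin` transports it to `ψ`; the coefficients evaluate to
`e_r (χ x f)` by `esymmVec_tendsto`; conclude with `exists_eq_of_esymm_relation`. -/
theorem char_complete {q₀ : ℂ} (hQ : Tendsto pr.Q l (𝓝 q₀)) (hc : iota c * p₀ = q₀)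
    {χ : Cos (Gamma0 N) → (intRing Kb y →ₐ[Kb] ℂ)} (hχ : ∀ x, IsCharAt pr l p₀ x (χ x))
    (ψ : intRing Kb y →ₐ[Kb] ℂ) (hψ : ψ (genInt Kb y) = 0) (f : intRing Kb y) :
    ∃ x, ψ f = χ x f := by
  obtain ⟨m, G, hrep⟩ := chr_exists_rep hy f
  choose g hg using hl _ G hrep.1
  have : Fintype (Cos (Gamma0 N)) := Fintype.ofFinite _
  have hmain : ∃ x, ψ f * p₀ ^ m = g x :=
    chr_complete_aux (A := intRing Kb y) hP (chr_incl y) (chr_incl_injective y) ψ
      (genInt Kb y + algebraMap Kb (intRing Kb y) c) f (chr_incl_T hy) (chr_psi_T c ψ hψ)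
      (chr_incl_apply y f) hrep g hg hQ hc
  obtain ⟨x, hx⟩ := hmain
  refine ⟨x, mul_right_cancel₀ (pow_ne_zero m hp₀) ?_⟩
  rw [hx, hχ x f m G (g x) hrep (hg x)]

end Fermat.Agent.S24
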