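import Fermat.Agent.S24.Char
import Fermat.Agent.S24.Count

/-!
# S24, package MF-M: the cardinality of a fibre of `t = Q / P` as a rank
-/

set_option autoImplicit false

namespace Fermat.Agent.S24

open UpperHalfPlane ModularForm EisensteinSeries Filter Topology CongruenceSubgroup ModularCurve
open Fermat.Agent.S20 Fermat.Agent.S23 IntermediateField
open scoped MatrixGroups Manifold ModularForm

section General

variable {K L : Type*} [Field K] [Field L] [Algebra K L] (F : IntermediateField K L)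

theorem fib_adjoin_sub (t : L) (c : K) :
    Algebra.adjoin K {t - algebraMap K L c} = Algebra.adjoin K {t} := by
  apply le_antisymm
  · refine Algebra.adjoin_le ?_
    rintro _ rfl
    exact Subalgebra.sub_mem _ (Algebra.self_mem_adjoin_singleton K t) (Subalgebra.algebraMap_mem _ c)
  · refine Algebra.adjoin_le ?_
    intro s hs
    have : s = (t - algebraMap K L c) + algebraMap K L c := by
      rw [Set.mem_singleton_iff.1 hs]; ring
    rw [this]
    exact Subalgebra.add_mem _ (Algebra.self_mem_adjoin_singleton K _)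
      (Subalgebra.algebraMap_mem _ c)

theorem fib_map_adjoin (y : F) :
    (Algebra.adjoin K {y}).map F.val = Algebra.adjoin K {(y : L)} := by
  rw [AlgHom.map_adjoin, Set.image_singleton]
  rfl

/-- Integrality over `K[y] ⊆ F` and over `K[t] ⊆ L` agree when `K[y] = K[t]` inside `L`. -/
theorem fib_isIntegral_iff {y : F} {t : L}
    (hA : Algebra.adjoin K {(y : L)} = Algebra.adjoin K {t}) (f : F) :
    IsIntegral (Algebra.adjoin K {y}) f ↔ IsIntegral (Algebra.adjoin K {t}) (f : L) := by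
  have hmap : (Algebra.adjoin K {y}).map F.val = Algebra.adjoin K {t} := by
    rw [fib_map_adjoin, hA]
  constructor
  · intro h
    have hφ : ∀ a : Algebra.adjoin K {y}, ((a : F) : L) ∈ Algebra.adjoin K {t} := fun a => by
      rw [← hmap]; exact ⟨a.1, a.2, rfl⟩
    let φ : Algebra.adjoin K {y} →+* Algebra.adjoin K {t} :=
      { toFun := fun a => ⟨((a : F) : L), hφ a⟩
        map_one' := rfl
        map_mul' := fun _ _ => rfl
        map_zero' := rfl
        map_add' := fun _ _ => rfl }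
    exact IsIntegral.map_of_comp_eq φ (algebraMap F L) (by ext a; rfl) h
  · rintro ⟨p, hp, hp0⟩
    have hψ : ∀ a : Algebra.adjoin K {t}, ∃ b : Algebra.adjoin K {y}, ((b : F) : L) = a := fun a => by
      have : (a : L) ∈ (Algebra.adjoin K {y}).map F.val := by rw [hmap]; exact a.2
      obtain ⟨b, hb, hba⟩ := this
      exact ⟨⟨b, hb⟩, hba⟩
    choose ψ hψ using hψ
    have hinj : Function.Injective (fun b : Algebra.adjoin K {y} => ((b : F) : L)) :=
      fun a b h => Subtype.ext (Subtype.ext h)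
    let ψ' : Algebra.adjoin K {t} →+* Algebra.adjoin K {y} :=
      { toFun := ψ
        map_one' := hinj (by simp [hψ])
        map_mul' := fun a b => hinj (by simp [hψ])
        map_zero' := hinj (by simp [hψ])
        map_add' := fun a b => hinj (by simp [hψ]) }
    refine ⟨p.map ψ', hp.map _, ?_⟩
    have hinj' : Function.Injective (algebraMap F L) := (algebraMap F L).injective
    apply hinj'
    rw [map_zero, Polynomial.eval₂_map, Polynomial.hom_eval₂, ← hp0]
    congr 1
    ext a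
    exact hψ a

end General

attribute [local instance] algKbC

theorem fib_transcendental {N : ℕ} [NeZero N] {pr : Pair} (ht : pr.t = jS ∨ pr.t = jS⁻¹) {c : Kb}
    {y : FN N} (hy : (y : LaurentSeries Kb) = pr.t - algebraMap Kb _ c) : Transcendental Kb y := by
  intro halg
  have h1 : IsAlgebraic Kb (y : LaurentSeries Kb) := (IntermediateField.isAlgebraic_iff).1 halg
  have h2 : IsAlgebraic Kb pr.t := by
    have : pr.t = (y : LaurentSeries Kb) + algebraMap Kb _ c := by rw [hy]; ring
    rw [this]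
    exact h1.add (isAlgebraic_algebraMap c)
  rcases ht with ht | ht
  · exact transcendental_jS (ht ▸ h2)
  · have : IsAlgebraic Kb (jS⁻¹)⁻¹ := (ht ▸ h2).inv
    rw [inv_inv] at this
    exact transcendental_jS this

/-- Apply `IsFF.card_zerosOf_eq_rank` with `L = ℂ`, `b i = bS i` (K0, K6, K3, K2 + K1),
`χ x` from (L1)-(L3); `χ x (b i) p₀^n = e4^a e6^b M i x` and scaling the rows by `p₀^(-n) ≠ 0` does
not change the rank. -/
theorem card_zerosOf_fiber {N : ℕ} [NeZero N] [Fintype (Cos (Gamma0 N))] {pr : Pair}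
    (ht : pr.t = jS ∨ pr.t = jS⁻¹) {w : Cos (Gamma0 N) → ℤ} {B : Cos (Gamma0 N) → ℍ → ℂ}
    (hfam : IsFam (Gamma0 N) w B) (hrat : ∀ i, IsRatQ (B i)) (hw : ∀ i, 0 ≤ w i)
    (hw2 : ∀ i, Even (w i)) {l : Filter ℍ} [l.NeBot] (hl : HasLims (Gamma0 N) l) {p₀ q₀ : ℂ}
    (hP : Tendsto pr.P l (𝓝 p₀)) (hQ : Tendsto pr.Q l (𝓝 q₀)) (hp₀ : p₀ ≠ 0) {c : Kb}
    (hc : iota c * p₀ = q₀) {y : FN N}
    (hy : (y : LaurentSeries Kb) = pr.t - algebraMap Kb _ c) {e4 e6 : ℂ}
    (h4 : Tendsto (⇑E₄ : ℍ → ℂ) l (𝓝 e4)) (h6 : Tendsto (⇑E₆ : ℍ → ℂ) l (𝓝 e6))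
    {M : Matrix (Cos (Gamma0 N)) (Cos (Gamma0 N)) ℂ}
    (hM : ∀ i x, Tendsto (vec (Gamma0 N) (w i) (B i) x) l (𝓝 (M i x))) :
    Nat.card (zerosOf Kb y) =
      (Matrix.of fun i x => e4 ^ aExp (w i) * e6 ^ bExp (w i) * M i x).rank := by
  classical
  obtain ⟨bS, hbS⟩ := exists_bS pr hfam hrat hw hw2
  have hmem := bS_mem pr hfam hw hw2 ht hbS
  have hA : Algebra.adjoin Kb {(y : LaurentSeries Kb)} = Algebra.adjoin Kb {pr.t} := by
    rw [hy, fib_adjoin_sub]
  have hytr := fib_transcendental ht hy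
  let b : Cos (Gamma0 N) → FN N := fun i => ⟨bS i, hmem i⟩
  have hbi : ∀ i, IsIntegral (polyRing Kb y) (b i) := fun i =>
    (fib_isIntegral_iff (FN N) hA (b i)).2 (isIntegral_of_isRep pr (hbS i))
  have hb : ∀ f : FN N, IsIntegral (polyRing Kb y) f →
      ∃ p : Cos (Gamma0 N) → Polynomial Kb, f = ∑ i, Polynomial.aeval y (p i) * b i := by
    intro f hf
    obtain ⟨m, G, hG⟩ := isRep_of_isIntegral pr f.2 ((fib_isIntegral_iff (FN N) hA f).1 hf)
    obtain ⟨p, hp⟩ := exists_expansion_of_isRep pr hfam hw hw2 hbS hG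
    refine ⟨fun i => (p i).comp (Polynomial.X + Polynomial.C c), Subtype.ext ?_⟩
    rw [hp, AddSubmonoidClass.coe_finsetSum]
    refine Finset.sum_congr rfl fun i _ => ?_
    rw [MulMemClass.coe_mul]
    congr 1
    have h1 : ((Polynomial.aeval y ((p i).comp (Polynomial.X + Polynomial.C c)) : FN N) :
        LaurentSeries Kb) =
        Polynomial.aeval (y : LaurentSeries Kb) ((p i).comp (Polynomial.X + Polynomial.C c)) :=
      (Polynomial.aeval_algHom_apply (FN N).val y _).symm
    rw [h1, Polynomial.aeval_comp]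
    congr 1
    simp [hy]
  choose χ hχ using fun x => exists_char (y := y) hl hP hp₀ hy x
  have hχy : ∀ x, χ x (genInt Kb y) = 0 := fun x => (hχ x).apply_gen hP hp₀ hy hQ hc
  have hall := char_complete hl hP hp₀ hy hQ hc hχ
  rw [(isFF_FN N).card_zerosOf_eq_rank hytr b hbi hb χ hχy hall]
  -- compare the two matrices
  have hval : ∀ i x, χ x ⟨b i, hbi i⟩ * p₀ ^ nExp (w i) =
      e4 ^ aExp (w i) * e6 ^ bExp (w i) * M i x := by
    intro i x
    refine hχ x ⟨b i, hbi i⟩ (nExp (w i)) (B i * mono (w i)) _ (hbS i) ?_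
    have hv : vec (Gamma0 N) (12 * nExp (w i)) (B i * mono (w i)) x =
        mono (w i) * vec (Gamma0 N) (w i) (B i) x := by
      rw [mul_comm (B i)]
      exact vec_top_mul (mono_mem (hw i) (hw2 i)) (B i) (by ring) x
    rw [hv]
    exact ((h4.pow _).mul (h6.pow _)).mul (hM i x)
  have hmat : (Matrix.of fun i x => e4 ^ aExp (w i) * e6 ^ bExp (w i) * M i x) =
      Matrix.diagonal (fun i => p₀ ^ nExp (w i)) *
        (Matrix.of fun (i : Cos (Gamma0 N)) (x : Cos (Gamma0 N)) => χ x ⟨b i, hbi i⟩) := by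
    ext i x
    rw [Matrix.diagonal_mul, Matrix.of_apply, Matrix.of_apply, ← hval, mul_comm]
  rw [hmat, Matrix.rank_mul_eq_right_of_isUnit_det]
  rw [Matrix.det_diagonal]
  exact (Finset.prod_ne_zero_iff.2 fun i _ => pow_ne_zero _ hp₀).isUnit

end Fermat.Agent.S24
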