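import Fermat.Agent.S24.Trdeg

/-!
# S24, package FF-6: `Ω[F⁄K]` is one-dimensional, generated by `dy` for every non-constant `y`
-/

set_option autoImplicit false

namespace Fermat.Agent.S24

open AlgebraicCurve IntermediateField KaehlerDifferential

variable {K F : Type*} [Field K] [Field F] [Algebra K F]

namespace KaehlerAux

open Polynomial TensorProduct

/-- The `F`-linear isomorphism `F ≃ Ω[F⁄K]`, `1 ↦ dy`. -/
theorem exists_equiv [CharZero K] (h : IsFF K F) {y : F} (hy : Transcendental K y) :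
    ∃ e : F ≃ₗ[F] Ω[F⁄K], e 1 = D K F y := by
  have hfin : FiniteDimensional K⟮y⟯ F := h.finiteDimensional hy
  let a1 : Algebra K[X] K⟮y⟯ := (aeval (AdjoinSimple.gen K y)).toAlgebra
  let a2 : Algebra K[X] F := (aeval y).toAlgebra
  have h1 : ∀ p : K[X], algebraMap K[X] K⟮y⟯ p = aeval (AdjoinSimple.gen K y) p := fun _ => rfl
  have h2 : ∀ p : K[X], algebraMap K[X] F p = aeval y p := fun _ => rfl
  have h3 : ∀ p : K[X], ((aeval (AdjoinSimple.gen K y) p : K⟮y⟯) : F) = aeval y p := by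
    intro p
    rw [← IntermediateField.algebraMap_apply, ← aeval_algebraMap_apply,
      IntermediateField.algebraMap_apply, AdjoinSimple.coe_gen]
  have t1 : IsScalarTower K[X] K⟮y⟯ F := .of_algebraMap_eq fun p => by
    rw [h1, h2, IntermediateField.algebraMap_apply, h3]
  have t2 : IsScalarTower K K[X] F := .of_algebraMap_eq fun c => by
    rw [h2, Polynomial.algebraMap_eq, aeval_C]
  have t3 : IsScalarTower K K[X] K⟮y⟯ := .of_algebraMap_eq fun c => by
    rw [h1, Polynomial.algebraMap_eq, aeval_C]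
  have f1 : FaithfulSMul K[X] K⟮y⟯ := by
    rw [faithfulSMul_iff_algebraMap_injective]
    intro p q hpq
    have := congrArg (fun z : K⟮y⟯ => (z : F)) hpq
    simp only [h1, h3] at this
    exact (transcendental_iff_injective.mp hy) this
  have fr : IsFractionRing K[X] K⟮y⟯ := IsFractionRing.of_field _ _ fun z => by
    obtain ⟨r, s, hrs⟩ := (IntermediateField.mem_adjoin_simple_iff K (z : F)).mp z.2
    refine ⟨r, s, Subtype.ext ?_⟩
    rw [hrs, h1, h1]
    push_cast
    rw [h3, h3]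
  have e1 : Algebra.FormallyEtale K[X] K⟮y⟯ :=
    Algebra.FormallyEtale.of_isLocalization (nonZeroDivisors K[X])
  have e2 : Algebra.FormallyEtale K⟮y⟯ F := Algebra.FormallyEtale.of_isSeparable _ _
  have e3 : Algebra.FormallyEtale K[X] F := Algebra.FormallyEtale.comp K[X] K⟮y⟯ F
  let E1 : F ⊗[K[X]] Ω[K[X]⁄K] ≃ₗ[F] Ω[F⁄K] := tensorKaehlerEquivOfFormallyEtale K K[X] F
  let E2 : F ⊗[K[X]] Ω[K[X]⁄K] ≃ₗ[F] F ⊗[K[X]] K[X] :=
    TensorProduct.AlgebraTensorModule.congr (LinearEquiv.refl F F) (polynomialEquiv K)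
  let E3 : F ⊗[K[X]] K[X] ≃ₗ[F] F := TensorProduct.AlgebraTensorModule.rid K[X] F F
  refine ⟨(E3.symm.trans E2.symm).trans E1, ?_⟩
  have hE3 : E3.symm 1 = (1 : F) ⊗ₜ[K[X]] (1 : K[X]) := by
    rw [LinearEquiv.symm_apply_eq]
    simp [E3]
  have hE2 : E2.symm ((1 : F) ⊗ₜ[K[X]] (1 : K[X])) = (1 : F) ⊗ₜ[K[X]] (D K K[X] X) := by
    rw [LinearEquiv.symm_apply_eq]
    simp [E2]
  have hE1 : E1 ((1 : F) ⊗ₜ[K[X]] (D K K[X] X)) = D K F y := by
    simp only [E1, tensorKaehlerEquivOfFormallyEtale_apply, mapBaseChange_tmul, one_smul, map_D,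
      h2, aeval_X]
  rw [LinearEquiv.trans_apply, LinearEquiv.trans_apply, hE3, hE2, hE1]

end KaehlerAux

/-- `K[X] → K(y) → F`: localisation, then finite separable, both formally étale:
`KaehlerDifferential.tensorKaehlerEquivOfFormallyEtale`, `KaehlerDifferential.polynomialEquiv`. -/
theorem IsFF.span_D_eq_top [CharZero K] (h : IsFF K F) {y : F} (hy : Transcendental K y) :
    Submodule.span F {D K F y} = ⊤ := by
  obtain ⟨e, he⟩ := KaehlerAux.exists_equiv h hy
  rw [eq_top_iff]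
  rintro ω -
  rw [Submodule.mem_span_singleton]
  refine ⟨e.symm ω, ?_⟩
  rw [← he, ← map_smul, smul_eq_mul, mul_one, LinearEquiv.apply_symm_apply]

theorem IsFF.D_ne_zero [CharZero K] (h : IsFF K F) {y : F} (hy : Transcendental K y) :
    D K F y ≠ 0 := by
  obtain ⟨e, he⟩ := KaehlerAux.exists_equiv h hy
  rw [← he]
  exact (LinearEquiv.map_ne_zero_iff e).mpr one_ne_zero

theorem IsFF.nontrivial_kaehler [CharZero K] (h : IsFF K F) : Nontrivial Ω[F⁄K] := by
  obtain ⟨x, hx, -⟩ := id h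
  exact ⟨⟨D K F x, 0, h.D_ne_zero hx⟩⟩

end Fermat.Agent.S24
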