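import Fermat.Agent.S24.Kaehler
import Fermat.Agent.S24.Primes

/-!
# S24, package FF-7: the order of `dy` at a place
-/

set_option autoImplicit false

namespace Fermat.Agent.S24

open AlgebraicCurve IntermediateField KaehlerDifferential

variable {K F : Type*} [Field K] [Field F] [Algebra K F]

/-- an element of nonzero order is transcendental. -/
theorem ordDiff_transcendental [IsAlgClosed K] (v : Place K F) {t : F} (ht : v.ord t ≠ 0) :
    Transcendental K t := by
  apply transcendental_of_not_mem_range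
  rintro ⟨c, rfl⟩
  exact ht (ord_algebraMap v c)

theorem IsFF.dCoordGenerates [IsAlgClosed K] [CharZero K] (h : IsFF K F) (v : Place K F) :
    v.DCoordGenerates := by
  obtain ⟨t, ht, hd⟩ := exists_dCoord_eq v
  refine ⟨?_⟩
  rw [hd]
  exact h.span_D_eq_top (ordDiff_transcendental v (by rw [ht]; exact one_ne_zero))

/-- `u ∈ O_v` is `c + t w` with `w ∈ O_v`. -/
theorem IsFF.ordDiff_exists_eq_add_mul [IsAlgClosed K] (h : IsFF K F) (v : Place K F) {t : F}
    (ht : v.ord t = 1) {u : F} (hu : u ∈ v.toValuationSubring) :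
    ∃ (c : K) (w : F), w ∈ v.toValuationSubring ∧ u = algebraMap K F c + t * w := by
  have ht0 : t ≠ 0 := by
    rintro rfl
    simp at ht
  obtain ⟨c, hc | hc⟩ := h.exists_residue v hu
  · exact ⟨c, 0, v.toValuationSubring.zero_mem, by rw [hc]; ring⟩
  · have hne : u - algebraMap K F c ≠ 0 := by
      intro h0
      rw [h0] at hc
      simp at hc
    refine ⟨c, t⁻¹ * (u - algebraMap K F c), ?_, by field_simp; ring⟩
    rw [← ord_nonneg_iff v (mul_ne_zero (inv_ne_zero ht0) hne),
      v.ord_mul (inv_ne_zero ht0) hne, v.ord_inv, ht]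
    omega

/-- Key lemma: `O = O_v`, `t` a uniformizer.  `Ω[O⁄K]` is a finite `O`-module (FF-3c) and
`Ω = O dt + m Ω` (write `u = c + t w`, FF-2a), so `Ω[O⁄K] = O dt` by Nakayama; map to `Ω[F⁄K]`. -/
theorem IsFF.exists_D_eq_smul [IsAlgClosed K] [CharZero K] (h : IsFF K F) (v : Place K F) {t : F}
    (ht : v.ord t = 1) {u : F} (hu : u ∈ v.toValuationSubring) :
    ∃ a ∈ v.toValuationSubring, D K F u = a • D K F t := by
  have ht0 : t ≠ 0 := by
    rintro rfl
    simp at ht
  have htO : t ∈ v.toValuationSubring := by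
    rw [← ord_nonneg_iff v ht0, ht]; exact zero_le_one
  have : Algebra.EssFiniteType K v.toValuationSubring := h.essFiniteType_place v
  set O := v.toValuationSubring with hO
  let t' : O := ⟨t, htO⟩
  have htm : t' ∈ IsLocalRing.maximalIdeal O := by
    rw [IsLocalRing.mem_maximalIdeal, mem_nonunits_iff]
    intro hunit
    have := v.ord_coe_unit hunit.unit
    rw [IsUnit.unit_spec] at this
    change v.ord t = 0 at this
    omega
  have hfg : (⊤ : Submodule O Ω[O⁄K]).FG := Module.Finite.fg_top
  have hle : (⊤ : Submodule O Ω[O⁄K]) ≤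
      Submodule.span O {D K O t'} ⊔ IsLocalRing.maximalIdeal O • (⊤ : Submodule O Ω[O⁄K]) := by
    rw [← KaehlerDifferential.span_range_derivation, Submodule.span_le]
    rintro _ ⟨x, rfl⟩
    obtain ⟨c, w, hw, hx⟩ := h.ordDiff_exists_eq_add_mul v ht x.2
    have hx' : x = algebraMap K O c + t' * ⟨w, hw⟩ := Subtype.ext hx
    rw [hx', map_add, Derivation.map_algebraMap, zero_add, Derivation.leibniz]
    rw [KaehlerDifferential.span_range_derivation]
    refine Submodule.add_mem _ (Submodule.mem_sup_right ?_) (Submodule.mem_sup_left ?_)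
    · exact Submodule.smul_mem_smul htm Submodule.mem_top
    · exact Submodule.smul_mem _ _ (Submodule.mem_span_singleton_self _)
  have hN := Submodule.le_of_le_smul_of_le_jacobson_bot hfg
    (IsLocalRing.maximalIdeal_le_jacobson _) hle
  have hmem : D K O ⟨u, hu⟩ ∈ Submodule.span O {D K O t'} := hN Submodule.mem_top
  obtain ⟨a, ha⟩ := Submodule.mem_span_singleton.mp hmem
  refine ⟨a, a.2, ?_⟩
  have := congrArg (KaehlerDifferential.map K K O F) ha
  rw [map_smul, KaehlerDifferential.map_D, KaehlerDifferential.map_D] at this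
  exact this.symm

/-- `y = t^e w`, `w` a unit: `dy = (e t^(e-1) w + t^e w') dt`, and `e ≠ 0` in `K`. -/
theorem IsFF.ordDifferential_D [IsAlgClosed K] [CharZero K] (h : IsFF K F) (v : Place K F) {y : F}
    (hy : v.ord y ≠ 0) : v.ordDifferential (D K F y) = v.ord y - 1 := by
  have := h.dCoordGenerates v
  have := h.nontrivial_kaehler
  obtain ⟨t, ht, hd⟩ := exists_dCoord_eq v
  have ht0 : t ≠ 0 := by
    rintro rfl
    simp at ht
  have hy0 : y ≠ 0 := by
    rintro rfl
    simp at hy
  set e := v.ord y with he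
  -- the unit part
  set u : F := y * t ^ (-e) with hu
  have hu0 : u ≠ 0 := mul_ne_zero hy0 (zpow_ne_zero _ ht0)
  have hordu : v.ord u = 0 := by
    rw [hu, v.ord_mul hy0 (zpow_ne_zero _ ht0), v.ord_zpow, ht, ← he]; ring
  have huO : u ∈ v.toValuationSubring := by
    rw [← ord_nonneg_iff v hu0, hordu]
  obtain ⟨a, haO, ha⟩ := h.exists_D_eq_smul v ht huO
  have hyu : y = u * t ^ e := by
    rw [hu, mul_assoc, ← zpow_add₀ ht0]; simp
  have hD : D K F y = (t ^ (e - 1) * (t * a + algebraMap K F (e : K) * u)) • v.dCoord := by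
    rw [hd]
    conv_lhs => rw [hyu]
    rw [Derivation.leibniz, Derivation.leibniz_zpow, ha]
    have h1 : t ^ e = t ^ (e - 1) * t := by
      rw [← zpow_add_one₀ ht0]; simp
    rw [h1]
    rw [← Int.cast_smul_eq_zsmul F e]
    simp only [smul_smul, ← add_smul]
    congr 1
    have : algebraMap K F (e : K) = (e : F) := by simp
    rw [this]
    ring
  rw [Place.ordDifferential, v.differentialCoeff_unique hD]
  have hec : algebraMap K F (e : K) ≠ 0 := by
    rw [Ne, map_eq_zero_iff _ (algebraMap K F).injective]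
    exact_mod_cast hy
  have h2 : v.ord (algebraMap K F (e : K) * u) = 0 := by
    rw [v.ord_mul hec hu0, ord_algebraMap, hordu]; rfl
  have h3 : v.ord (t * a + algebraMap K F (e : K) * u) = 0 ∧
      t * a + algebraMap K F (e : K) * u ≠ 0 := by
    rcases eq_or_ne a 0 with rfl | ha0
    · rw [mul_zero, zero_add]
      exact ⟨h2, mul_ne_zero hec hu0⟩
    · have h4 : v.ord (algebraMap K F (e : K) * u) < v.ord (t * a) := by
        rw [h2, v.ord_mul ht0 ha0, ht]
        have := (ord_nonneg_iff v ha0).mpr haO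
        omega
      have h5 := ord_add_eq_of_lt v (mul_ne_zero hec hu0) (mul_ne_zero ht0 ha0) h4
      rw [add_comm] at h5
      refine ⟨h5.trans h2, ?_⟩
      intro h0
      -- `t a = - e u` contradicts the orders
      have h6 : t * a = -(algebraMap K F (e : K) * u) := by linear_combination h0
      rw [h6, ord_neg] at h4
      exact lt_irrefl _ h4
  rw [v.ord_mul (zpow_ne_zero _ ht0) h3.2, h3.1, v.ord_zpow, ht]
  ring

theorem IsFF.ordDifferential_smul [IsAlgClosed K] [CharZero K] (h : IsFF K F) (v : Place K F)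
    {f : F} (hf : f ≠ 0) {ω : Ω[F⁄K]} (hω : ω ≠ 0) :
    v.ordDifferential (f • ω) = v.ord f + v.ordDifferential ω := by
  have := h.dCoordGenerates v
  have := h.nontrivial_kaehler
  refine v.ordDifferential_smul hf ?_
  intro h0
  apply hω
  rw [← v.differentialCoeff_smul_dCoord ω, h0, zero_smul]

end Fermat.Agent.S24
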