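import Fermat.Agent.S24.MDefs
import Fermat.Agent.S20.CuspScalar
import Fermat.Agent.S28.QExp
import Fermat.Agent.S28.Formal

/-!
# S24, package MF-A: API for `qLf`, `iotaL`
-/

set_option autoImplicit false

namespace Fermat.Agent.S24

open UpperHalfPlane ModularForm EisensteinSeries Filter Topology CongruenceSubgroup ModularCurve
open Fermat.Agent.S20 Fermat.Agent.S23
open scoped MatrixGroups Manifold ModularForm

variable {F G : ℍ → ℂ} {k : ℤ}

set_option backward.isDefEq.respectTransparency.types false in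
theorem mem_Nice_of_mem_MFs {H : Subgroup SL(2, ℤ)} (hT : ModularGroup.T ∈ H) (hG : G ∈ MFs H k) :
    G ∈ Nice := by
  obtain ⟨h1, h2, h3⟩ := hG
  refine ⟨?_, h1, ?_⟩
  · have := Fermat.Agent.S20.Cusp.periodic_of_vadd (ψ := G) (fun z => ?_)
    · simpa using this
    · have h := congrFun (h2 _ hT) z
      rw [ModularForm.SL_slash_apply, denom, UpperHalfPlane.modular_T_smul, ModularGroup.T] at h
      simpa using h
  · have := h3 1
    rwa [SlashAction.slash_one] at this

theorem T_mem_Gamma0 (N : ℕ) : ModularGroup.T ∈ Gamma0 N := by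
  rw [Gamma0_mem, ModularGroup.T]
  simp

theorem mem_Nice_of_mem_MFs_Gamma0 {N : ℕ} (hG : G ∈ MFs (Gamma0 N) k) : G ∈ Nice :=
  mem_Nice_of_mem_MFs (T_mem_Gamma0 N) hG

theorem mem_Nice_of_mem_MFs_top (hG : G ∈ MFs ⊤ k) : G ∈ Nice :=
  mem_Nice_of_mem_MFs (Subgroup.mem_top _) hG

/-- `qLf` through the algebra homomorphism `qHom` of S23. -/
theorem qLf_eq_qHom (hF : F ∈ Nice) :
    qLf F = HahnSeries.ofPowerSeries ℤ ℂ (qHom ⟨F, hF⟩) := rfl

theorem qLf_zero : qLf 0 = 0 := by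
  rw [qLf, qExpansion_zero, map_zero]

theorem qLf_one : qLf 1 = 1 := by
  rw [qLf, qExpansion_one, map_one]

theorem qLf_add (hF : F ∈ Nice) (hG : G ∈ Nice) : qLf (F + G) = qLf F + qLf G := by
  rw [qLf_eq_qHom hF, qLf_eq_qHom hG, ← map_add, ← map_add]
  rfl

theorem qLf_sub (hF : F ∈ Nice) (hG : G ∈ Nice) : qLf (F - G) = qLf F - qLf G := by
  rw [qLf_eq_qHom hF, qLf_eq_qHom hG, ← map_sub, ← map_sub]
  rfl

theorem qLf_mul (hF : F ∈ Nice) (hG : G ∈ Nice) : qLf (F * G) = qLf F * qLf G := by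
  rw [qLf_eq_qHom hF, qLf_eq_qHom hG, ← map_mul, ← map_mul]
  rfl

theorem ofPowerSeries_smul' (c : ℂ) (P : PowerSeries ℂ) :
    HahnSeries.ofPowerSeries ℤ ℂ (c • P) = c • HahnSeries.ofPowerSeries ℤ ℂ P := by
  ext n
  rw [HahnSeries.coeff_smul]
  rcases le_or_gt 0 n with hn | hn
  · lift n to ℕ using hn
    rw [HahnSeries.ofPowerSeries_apply_coeff, HahnSeries.ofPowerSeries_apply_coeff]
    simp
  · rw [ofPowerSeries_coeff_of_neg _ hn, ofPowerSeries_coeff_of_neg _ hn, smul_zero]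

theorem qLf_smul (c : ℂ) (hF : F ∈ Nice) : qLf (c • F) = c • qLf F := by
  rw [qLf_eq_qHom hF, ← ofPowerSeries_smul', ← map_smul]
  rfl

theorem qLf_pow (hF : F ∈ Nice) (n : ℕ) : qLf (F ^ n) = qLf F ^ n := by
  rw [qLf_eq_qHom hF, ← map_pow, ← map_pow]
  rfl

theorem qLf_sum {ι : Type*} (s : Finset ι) (f : ι → ℍ → ℂ) (hf : ∀ i ∈ s, f i ∈ Nice) :
    qLf (∑ i ∈ s, f i) = ∑ i ∈ s, qLf (f i) := by
  classical
  induction s using Finset.induction_on with
  | empty => simpa using qLf_zero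
  | insert a s ha ih =>
    rw [Finset.sum_insert ha, Finset.sum_insert ha,
      qLf_add (hf a (Finset.mem_insert_self a s))
        (Nice.sum_mem fun i hi => hf i (Finset.mem_insert_of_mem hi)),
      ih fun i hi => hf i (Finset.mem_insert_of_mem hi)]

theorem qLf_injOn (hF : F ∈ Nice) (hG : G ∈ Nice) (h : qLf F = qLf G) : F = G :=
  Nice.eq_of_qExpansion_eq hF hG (HahnSeries.ofPowerSeries_injective h)

theorem qLf_eq_zero_iff (hF : F ∈ Nice) : qLf F = 0 ↔ F = 0 := by
  constructor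
  · intro h
    exact qLf_injOn hF (zero_mem Nice) (by rw [h, qLf_zero])
  · rintro rfl
    exact qLf_zero

theorem iota_injective : Function.Injective iota := iota.injective

theorem iotaL_injective : Function.Injective iotaL :=
  Fermat.Agent.S28.coeffMap_injective iota iota_injective

theorem iotaL_coeff (s : LaurentSeries Kb) (n : ℤ) : (iotaL s).coeff n = iota (s.coeff n) := rfl

theorem iotaL_algebraMap (c : Kb) :
    iotaL (algebraMap Kb (LaurentSeries Kb) c) = algebraMap ℂ (LaurentSeries ℂ) (iota c) := by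
  rw [Fermat.Agent.S28.algebraMap_eq_C, Fermat.Agent.S28.algebraMap_eq_C]
  exact Fermat.Agent.S28.coeffMap_C iota c

theorem iotaL_smul (c : Kb) (s : LaurentSeries Kb) : iotaL (c • s) = iota c • iotaL s := by
  ext n
  rw [iotaL_coeff, HahnSeries.coeff_smul, HahnSeries.coeff_smul, iotaL_coeff, smul_eq_mul,
    smul_eq_mul, map_mul]

theorem iotaL_coeffEmb (s : LaurentSeries ℚ) : iotaL (coeffEmb Kb s) = coeffEmb ℂ s := by
  ext n
  rw [iotaL_coeff, coeffEmb_coeff, coeffEmb_coeff]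
  simp

theorem exists_iotaL_eq_of_isRatQ (hG : IsRatQ G) : ∃ s : LaurentSeries Kb, iotaL s = qLf G := by
  choose r hr using hG
  refine ⟨HahnSeries.ofPowerSeries ℤ Kb (PowerSeries.mk fun n => (r n : Kb)), ?_⟩
  ext n
  rw [iotaL_coeff, qLf]
  rcases le_or_gt 0 n with hn | hn
  · lift n to ℕ using hn
    rw [HahnSeries.ofPowerSeries_apply_coeff, HahnSeries.ofPowerSeries_apply_coeff,
      PowerSeries.coeff_mk, hr]
    simp
  · rw [ofPowerSeries_coeff_of_neg _ hn, ofPowerSeries_coeff_of_neg _ hn, map_zero]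

theorem IsRatQ.mul (hF : IsRatQ F) (hG : IsRatQ G) (hF' : F ∈ Nice) (hG' : G ∈ Nice) :
    IsRatQ (F * G) := by
  intro n
  choose r hr using hF
  choose t ht using hG
  refine ⟨∑ p ∈ Finset.HasAntidiagonal.antidiagonal n, r p.1 * t p.2, ?_⟩
  rw [qExpansion_mul (Nice.analyticAt hF') (Nice.analyticAt hG'), PowerSeries.coeff_mul]
  push_cast
  exact Finset.sum_congr rfl fun p _ => by rw [hr, ht]

theorem isRatQ_one : IsRatQ (1 : ℍ → ℂ) := by
  intro n
  rw [qExpansion_one, PowerSeries.coeff_one]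
  split_ifs
  · exact ⟨1, by simp⟩
  · exact ⟨0, by simp⟩

theorem IsRatQ.pow (hF : IsRatQ F) (hF' : F ∈ Nice) (n : ℕ) : IsRatQ (F ^ n) := by
  induction n with
  | zero => rw [pow_zero]; exact isRatQ_one
  | succ n ih => rw [pow_succ]; exact ih.mul hF (Nice.pow_mem hF' n) hF'

theorem isRatQ_E4 : IsRatQ (⇑E₄ : ℍ → ℂ) := by
  intro n
  rw [Fermat.Agent.S28.qExpansion_E4, PowerSeries.coeff_map]
  exact ⟨((PowerSeries.coeff n eisenstein4 : ℤ) : ℚ), by simp⟩

theorem isRatQ_E6 : IsRatQ (⇑E₆ : ℍ → ℂ) := by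
  intro n
  have h := E_qExpansion_coeff (k := 6) (by norm_num) (by decide) n
  rw [show (⇑E₆ : ℍ → ℂ) = ⇑(E (k := 6) (by norm_num)) from rfl, h]
  split_ifs
  · exact ⟨1, by simp⟩
  · exact ⟨-(2 * 6 / bernoulli 6) * (ArithmeticFunction.sigma 5 n : ℚ), by push_cast; rfl⟩

theorem isRatQ_discriminant : IsRatQ (discriminant : ℍ → ℂ) := by
  intro n
  rw [Fermat.Agent.S28.qExpansion_discriminant]
  have h : (PowerSeries.X : PowerSeries ℂ) * dedekindEtaUnit.map (Int.castRingHom ℂ) =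
      (PowerSeries.X * dedekindEtaUnit).map (Int.castRingHom ℂ) := by
    rw [map_mul, PowerSeries.map_X]
  rw [h, PowerSeries.coeff_map]
  exact ⟨((PowerSeries.coeff n (PowerSeries.X * dedekindEtaUnit) : ℤ) : ℚ), by simp⟩

theorem jS_mem (N : ℕ) [NeZero N] : jS ∈ FN N := by
  have h := jqd_mem_full N (one_dvd N)
  rw [qExpand_one_apply] at h
  exact coeffEmb_mem_laurentBaseChange Kb h

theorem jS_eq : jS = jqModC Kb := coeffMap_jqModC (R := ℚ) (algebraMap ℚ Kb)

/-- `j` is transcendental over `ℚ̄` (pole of order one at `q = 0`; Prelude `coeff_jq_pow_self`,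
`coeff_jq_pow_of_lt`). -/
theorem transcendental_jS : Transcendental Kb jS := by
  rw [jS_eq, transcendental_iff_injective]
  exact Fermat.Agent.S28.aeval_jqModC_injective

end Fermat.Agent.S24
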