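import Fermat.Agent.S24.LevelForms
import Fermat.Agent.S24.Esymm
import Fermat.Agent.S20.LevelOne

/-!
# S24, package MF-D: every element of the function field is a quotient `G / D` of a modular form
for `Γ₀(N)` by a level one form
(`IntermediateField.adjoin` / `Subfield.closure_induction` as in the Prelude's
`mem_laurentBaseChange_iff`; generators: `isQuot_jd`; inverses: `exists_cofactor`; finally replace
`(G, D)` by `(G D^11, D^12)`; the weight is `≥ 0` since `D ≠ 0`.)
-/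

set_option autoImplicit false

namespace Fermat.Agent.S24

open UpperHalfPlane ModularForm EisensteinSeries Filter Topology CongruenceSubgroup ModularCurve
open Fermat.Agent.S20 Fermat.Agent.S23
open scoped MatrixGroups Manifold ModularForm

/-- `s` is a quotient of two modular forms of the same weight for `Γ₀(N)`. -/
def IsQuot (N : ℕ) (s : LaurentSeries Kb) : Prop :=
  ∃ (k : ℤ) (G D : ℍ → ℂ), G ∈ MFs (Gamma0 N) k ∧ D ∈ MFs (Gamma0 N) k ∧ D ≠ 0 ∧
    iotaL s * qLf D = qLf G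

namespace IsQuot

variable {N : ℕ} {s s' : LaurentSeries Kb}

lemma const (c : Kb) : IsQuot N (algebraMap Kb (LaurentSeries Kb) c) := by
  refine ⟨0, iota c • (1 : ℍ → ℂ), 1, Submodule.smul_mem _ _ one_mem_MFs, one_mem_MFs,
    one_ne_zero, ?_⟩
  rw [iotaL_algebraMap, qLf_smul _ (one_mem Nice), qLf_one, mul_one,
    algebraMap_laurentSeries_eq_single]
  ext n
  rw [HahnSeries.coeff_smul, HahnSeries.coeff_one, HahnSeries.coeff_single]
  split_ifs <;> simp

lemma zero : IsQuot N 0 := by simpa using const (N := N) 0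

lemma one : IsQuot N 1 := by simpa using const (N := N) 1

lemma add (h : IsQuot N s) (h' : IsQuot N s') : IsQuot N (s + s') := by
  obtain ⟨k, G, D, hG, hD, hD0, hs⟩ := h
  obtain ⟨k', G', D', hG', hD', hD0', hs'⟩ := h'
  have nG := mem_Nice_of_mem_MFs_Gamma0 hG
  have nD := mem_Nice_of_mem_MFs_Gamma0 hD
  have nG' := mem_Nice_of_mem_MFs_Gamma0 hG'
  have nD' := mem_Nice_of_mem_MFs_Gamma0 hD'
  refine ⟨k + k', G * D' + D * G', D * D',
    Submodule.add_mem _ (mul_mem_MFs hG hD') (mul_mem_MFs hD hG'), mul_mem_MFs hD hD', ?_, ?_⟩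
  · intro h0
    rcases eq_zero_or_eq_zero_of_mul_eq_zero hD.1 hD'.1 h0 with h | h
    · exact hD0 h
    · exact hD0' h
  · rw [qLf_add (Nice.mul_mem nG nD') (Nice.mul_mem nD nG'), qLf_mul nG nD', qLf_mul nD nG',
      qLf_mul nD nD', ← hs, ← hs', map_add]
    ring

lemma neg (h : IsQuot N s) : IsQuot N (-s) := by
  obtain ⟨k, G, D, hG, hD, hD0, hs⟩ := h
  have nG := mem_Nice_of_mem_MFs_Gamma0 hG
  refine ⟨k, 0 - G, D, Submodule.sub_mem _ (Submodule.zero_mem _) hG, hD, hD0, ?_⟩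
  rw [qLf_sub (zero_mem Nice) nG, qLf_zero, ← hs, map_neg]
  ring

lemma mul (h : IsQuot N s) (h' : IsQuot N s') : IsQuot N (s * s') := by
  obtain ⟨k, G, D, hG, hD, hD0, hs⟩ := h
  obtain ⟨k', G', D', hG', hD', hD0', hs'⟩ := h'
  have nG := mem_Nice_of_mem_MFs_Gamma0 hG
  have nD := mem_Nice_of_mem_MFs_Gamma0 hD
  have nG' := mem_Nice_of_mem_MFs_Gamma0 hG'
  have nD' := mem_Nice_of_mem_MFs_Gamma0 hD'
  refine ⟨k + k', G * G', D * D', mul_mem_MFs hG hG', mul_mem_MFs hD hD', ?_, ?_⟩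
  · intro h0
    rcases eq_zero_or_eq_zero_of_mul_eq_zero hD.1 hD'.1 h0 with h | h
    · exact hD0 h
    · exact hD0' h
  · rw [qLf_mul nG nG', qLf_mul nD nD', ← hs, ← hs', map_mul]
    ring

lemma inv (h : IsQuot N s) : IsQuot N s⁻¹ := by
  by_cases hs0 : s = 0
  · rw [hs0, inv_zero]; exact zero
  obtain ⟨k, G, D, hG, hD, hD0, hs⟩ := h
  have nG := mem_Nice_of_mem_MFs_Gamma0 hG
  have nD := mem_Nice_of_mem_MFs_Gamma0 hD
  have h1 : iotaL s ≠ 0 := fun h => hs0 (iotaL_injective (by rw [h, map_zero]))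
  refine ⟨k, D, G, hD, hG, ?_, ?_⟩
  · intro h0
    rw [h0, qLf_zero] at hs
    rcases mul_eq_zero.mp hs with h | h
    · exact h1 h
    · exact hD0 ((qLf_eq_zero_iff nD).mp h)
  · rw [← hs, map_inv₀, ← mul_assoc, inv_mul_cancel₀ h1, one_mul]

end IsQuot

lemma isQuot_coeffEmb (N : ℕ) [NeZero N] {x : LaurentSeries ℚ}
    (hx : x ∈ modularFunctionFieldFull N) : IsQuot N (coeffEmb Kb x) := by
  have hx' : x ∈ Subfield.closure
      (Set.range (algebraMap ℚ (LaurentSeries ℚ)) ∪ divisorExpansions N) := hx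
  clear hx
  induction hx' using Subfield.closure_induction with
  | mem y hy =>
      rcases hy with ⟨a, rfl⟩ | ⟨d, hd0, hd, rfl⟩
      · have : coeffEmb Kb (algebraMap ℚ (LaurentSeries ℚ) a) =
            algebraMap Kb (LaurentSeries Kb) (algebraMap ℚ Kb a) := by
          rw [algebraMap_laurentSeries_eq_single, algebraMap_laurentSeries_eq_single, coeffEmb,
            coeffMap_single]
        rw [this]
        exact IsQuot.const _
      · have := hd0
        refine ⟨12, lev d ((⇑E₄ : ℍ → ℂ) ^ 3), lev d discriminant, ?_, ?_, ?_, isQuot_jd⟩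
        · exact lev_mem hd (by
            have := pow_mem_MFs (E4_mem) 3
            simpa using this)
        · exact lev_mem hd Delta_mem_MFs
        · intro h0
          exact lev_discriminant_ne_zero (d := d) UpperHalfPlane.I (congrFun h0 _)
  | one => rw [map_one]; exact IsQuot.one
  | add x y _ _ hx hy => rw [map_add]; exact hx.add hy
  | neg x _ hx => rw [map_neg]; exact hx.neg
  | inv x _ hx => rw [map_inv₀]; exact hx.inv
  | mul x y _ _ hx hy => rw [map_mul]; exact hx.mul hy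

lemma isQuot_of_mem (N : ℕ) [NeZero N] {s : LaurentSeries Kb} (hs : s ∈ FN N) : IsQuot N s := by
  rw [mem_laurentBaseChange_iff] at hs
  induction hs using Subfield.closure_induction with
  | mem y hy =>
      rcases hy with ⟨a, rfl⟩ | ⟨z, hz, rfl⟩
      · exact IsQuot.const _
      · exact isQuot_coeffEmb N hz
  | one => exact IsQuot.one
  | add x y _ _ hx hy => exact hx.add hy
  | neg x _ hx => exact hx.neg
  | inv x _ hx => exact hx.inv
  | mul x y _ _ hx hy => exact hx.mul hy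

theorem exists_quot (N : ℕ) [NeZero N] {s : LaurentSeries Kb} (hs : s ∈ FN N) :
    ∃ (M : ℕ) (G D : ℍ → ℂ), G ∈ MFs (Gamma0 N) (12 * M) ∧ D ∈ MFs ⊤ (12 * M) ∧ D ≠ 0 ∧
      iotaL s * qLf D = qLf G := by
  classical
  let _ : Fintype (Cos (Gamma0 N)) := Fintype.ofFinite _
  obtain ⟨k, G, D, hG, hD, hD0, hs⟩ := isQuot_of_mem N hs
  obtain ⟨D', hD', D₀, hD₀, hD₀0, hDD⟩ := exists_cofactor hD hD0
  set μ : ℤ := (Fintype.card (Cos (Gamma0 N)) : ℤ) with hμ
  have hnonneg : 0 ≤ μ * k := by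
    by_contra hlt
    rw [not_le] at hlt
    rw [MFs_neg hlt, Submodule.mem_bot] at hD₀
    exact hD₀0 hD₀
  have hM : (12 : ℤ) * ((μ * k).toNat : ℤ) = 12 * (μ * k) := by
    rw [Int.toNat_of_nonneg hnonneg]
  have nG := mem_Nice_of_mem_MFs_Gamma0 hG
  have nD := mem_Nice_of_mem_MFs_Gamma0 hD
  have nD' := mem_Nice_of_mem_MFs_Gamma0 hD'
  have nD₀ := mem_Nice_of_mem_MFs_top hD₀
  refine ⟨(μ * k).toNat, G * D' * D₀ ^ 11, D₀ ^ 12, ?_, ?_, pow_ne_zero _ hD₀0, ?_⟩
  · have h1 := mul_mem_MFs (mul_mem_MFs hG hD') (MFs_top_le (H := Gamma0 N) (pow_mem_MFs hD₀ 11))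
    convert h1 using 2
    rw [hM]; push_cast; ring
  · have h1 := pow_mem_MFs hD₀ 12
    convert h1 using 2
    rw [hM]; push_cast; ring
  · rw [qLf_mul (Nice.mul_mem nG nD') (Nice.pow_mem nD₀ 11), qLf_mul nG nD', qLf_pow nD₀,
      qLf_pow nD₀, ← hs, pow_succ (qLf D₀) 11]
    nth_rewrite 2 [← hDD]
    rw [qLf_mul nD nD']
    ring

end Fermat.Agent.S24
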